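/-
S25 (points): tensor products of domains over an algebraically closed field are domains.
-/
import Fermat.Agent.Curve.ConstExtMk
import Mathlib.RingTheory.Localization.FractionRing

set_option autoImplicit false

noncomputable section

namespace Fermat.Agent.Picard.Points

open scoped TensorProduct

/-- Over an algebraically closed field the tensor product of two domains is a domain. -/
theorem isDomain_tensor {k : Type*} [Field k] [IsAlgClosed k] (S T : Type*) [CommRing S]
    [IsDomain S] [Algebra k S] [CommRing T] [IsDomain T] [Algebra k T] :
    IsDomain (S ⊗[k] T) := by
  let f : S →ₐ[k] FractionRing S := IsScalarTower.toAlgHom k S _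
  let g : T →ₐ[k] FractionRing T := IsScalarTower.toAlgHom k T _
  have : IsDomain (FractionRing S ⊗[k] FractionRing T) :=
    Fermat.Agent.Curve.isDomain_tensorProduct (FractionRing T)
  have hinj : Function.Injective (Algebra.TensorProduct.map f g) := by
    have hf : Function.Injective f.toLinearMap :=
      FaithfulSMul.algebraMap_injective S (FractionRing S)
    have hg : Function.Injective g.toLinearMap :=
      FaithfulSMul.algebraMap_injective T (FractionRing T)
    have h1 : Function.Injective (f.toLinearMap.rTensor T) :=
      Module.Flat.rTensor_preserves_injective_linearMap _ hf
    have h2 : Function.Injective (g.toLinearMap.lTensor (FractionRing S)) :=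
      Module.Flat.lTensor_preserves_injective_linearMap _ hg
    have h3 := h2.comp h1
    have he : ∀ z, Algebra.TensorProduct.map f g z
        = g.toLinearMap.lTensor _ (f.toLinearMap.rTensor T z) := fun z => by
      induction z with
      | zero => simp
      | tmul s t => simp
      | add u v hu hv => simp only [map_add, hu, hv]
    exact fun a b hab => h3 (by simpa only [Function.comp_apply, ← he] using hab)
  exact Function.Injective.isDomain (Algebra.TensorProduct.map f g).toRingHom hinj

end Fermat.Agent.Picard.Points
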