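/-
S25 (points): invertible ideals in domains, elementary theory used for effective divisors.
-/
import Mathlib.RingTheory.PicardGroup
import Mathlib.RingTheory.Localization.Ideal
import Mathlib.RingTheory.Ideal.Colon
import Mathlib.RingTheory.Finiteness.Nakayama
import Mathlib.Tactic

set_option autoImplicit false

noncomputable section

namespace Fermat.Agent.Picard.Points

open scoped Pointwise

universe u v

variable {A : Type u} [CommRing A]

/-- An ideal which has an ideal complement up to a non-zero principal ideal. -/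
def InvI (J : Ideal A) : Prop := ∃ J' : Ideal A, ∃ a : A, a ≠ 0 ∧ J * J' = Ideal.span {a}

theorem InvI.span_singleton {a : A} (ha : a ≠ 0) : InvI (Ideal.span {a}) :=
  ⟨⊤, a, ha, by rw [Ideal.mul_top]⟩

theorem InvI.top [Nontrivial A] : InvI (⊤ : Ideal A) :=
  ⟨⊤, 1, one_ne_zero, by rw [Ideal.mul_top, Ideal.span_singleton_one]⟩

variable [IsDomain A]

theorem InvI.mul {I J : Ideal A} (hI : InvI I) (hJ : InvI J) : InvI (I * J) := by
  obtain ⟨I', a, ha, hI⟩ := hI
  obtain ⟨J', b, hb, hJ⟩ := hJ
  exact ⟨I' * J', a * b, mul_ne_zero ha hb,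
    by rw [mul_mul_mul_comm, hI, hJ, Ideal.span_singleton_mul_span_singleton]⟩

omit [IsDomain A] in
theorem InvI.ne_bot {J : Ideal A} (hJ : InvI J) : J ≠ ⊥ := by
  rintro rfl
  obtain ⟨J', a, ha, h⟩ := hJ
  rw [Ideal.bot_mul, eq_comm, Ideal.span_singleton_eq_bot] at h
  exact ha h

omit [IsDomain A] in
theorem InvI.exists_ne_zero_mem {J : Ideal A} (hJ : InvI J) : ∃ a ∈ J, a ≠ 0 :=
  Submodule.exists_mem_ne_zero_of_ne_bot hJ.ne_bot

omit [IsDomain A] in
theorem InvI.of_mul_left {I J : Ideal A} (h : InvI (I * J)) : InvI I := by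
  obtain ⟨J', a, ha, h⟩ := h
  exact ⟨J * J', a, ha, by rw [← mul_assoc, h]⟩

omit [IsDomain A] in
theorem InvI.of_mul_right {I J : Ideal A} (h : InvI (I * J)) : InvI J := by
  rw [mul_comm] at h; exact h.of_mul_left

theorem InvI.mul_left_cancel {I J K : Ideal A} (hI : InvI I) (h : I * J = I * K) : J = K := by
  obtain ⟨I', a, ha, hI⟩ := hI
  have h' := congrArg (· * I') h
  simp only [mul_right_comm I _ I', hI] at h'
  exact (Ideal.span_singleton_mul_right_inj ha).1 h'

/-- To contain is to divide. -/
theorem InvI.exists_eq_mul {I J : Ideal A} (hI : InvI I) (h : J ≤ I) : ∃ G, J = I * G := by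
  obtain ⟨I', a, ha, hI⟩ := hI
  have hle : J * I' ≤ Ideal.span {a} := hI ▸ Ideal.mul_mono_left h
  refine ⟨(J * I').colon ((Ideal.span {a} : Ideal A) : Set A), ?_⟩
  set G := (J * I').colon ((Ideal.span {a} : Ideal A) : Set A) with hG
  have hsG : Ideal.span {a} * G = J * I' := by
    refine le_antisymm ?_ fun z hz => ?_
    · rw [Ideal.mul_le]
      intro r hr s hs
      rw [Submodule.mem_colon] at hs
      simpa [mul_comm] using hs r hr
    · obtain ⟨c, rfl⟩ := Ideal.mem_span_singleton.1 (hle hz)
      refine Ideal.mul_mem_mul (Ideal.mem_span_singleton_self a) ?_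
      rw [Submodule.mem_colon]
      intro t ht
      obtain ⟨d, rfl⟩ := Ideal.mem_span_singleton'.1 ht
      simpa [mul_comm, mul_left_comm] using (J * I').mul_mem_left d hz
  refine (Ideal.span_singleton_mul_right_inj ha).1 ?_
  conv_rhs => rw [mul_left_comm, hsG, ← mul_assoc, mul_comm I J, mul_assoc, hI, mul_comm]

/-- A finitely generated ideal which is locally principal is invertible. -/
theorem InvI.of_locally {I : Ideal A} (h0 : I ≠ ⊥)
    (h : ∀ m : Ideal A, m.IsMaximal → ∃ u ∉ m, ∃ δ ∈ I, ∀ i ∈ I, ∃ e, u * i = δ * e) :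
    InvI I := by
  obtain ⟨a, haI, ha⟩ := Submodule.exists_mem_ne_zero_of_ne_bot h0
  refine ⟨(Ideal.span {a}).colon (I : Set A), a, ha, ?_⟩
  have hle : I * (Ideal.span {a}).colon (I : Set A) ≤ Ideal.span {a} := by
    rw [Ideal.mul_le]
    intro r hr s hs
    rw [Submodule.mem_colon] at hs
    simpa [mul_comm] using hs r hr
  refine le_antisymm hle ?_
  rw [Ideal.span_le, Set.singleton_subset_iff]
  by_contra hna
  let C : Ideal A := (I * (Ideal.span {a}).colon (I : Set A)).colon {a}
  have hC : C ≠ ⊤ := by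
    intro htop
    have : (1 : A) ∈ C := by rw [htop]; trivial
    rw [Submodule.mem_colon_singleton, one_smul] at this
    exact hna this
  obtain ⟨m, hm, hCm⟩ := C.exists_le_maximal hC
  obtain ⟨w, hwm, δ, hδ, hloc⟩ := h m hm
  refine hwm (hCm ?_)
  rw [Submodule.mem_colon_singleton]
  obtain ⟨c, hc⟩ := hloc a haI
  rw [smul_eq_mul, hc]
  refine Ideal.mul_mem_mul hδ ?_
  rw [Submodule.mem_colon]
  intro i hi
  obtain ⟨e, he⟩ := hloc i hi
  rw [Ideal.mem_span_singleton, smul_eq_mul]
  refine ⟨e, ?_⟩
  have hw0 : w ≠ 0 := fun h0 => hwm (h0 ▸ m.zero_mem)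
  apply mul_left_cancel₀ hw0
  linear_combination c * he - e * hc

omit [IsDomain A] in
theorem InvI.map {B : Type v} [CommRing B] {f : A →+* B} {I : Ideal A} (hI : InvI I)
    (hf : Function.Injective f) : InvI (I.map f) := by
  obtain ⟨I', a, ha, hI⟩ := hI
  refine ⟨I'.map f, f a, fun h => ha (hf (by rw [h, map_zero])), ?_⟩
  rw [← Ideal.map_mul, hI, Ideal.map_span, Set.image_singleton]

/-- A functional version of invertibility. -/
theorem InvI.invertible {J : Ideal A} (hJ : InvI J) : Module.Invertible A J := by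
  obtain ⟨J', a, ha, h⟩ := hJ
  let K := FractionRing A
  let S : Submodule A K := Submodule.map (Algebra.linearMap A K) J
  let u : K := (algebraMap A K a)⁻¹
  let S' : Submodule A K := Submodule.map (Algebra.linearMap A K) J' * Submodule.span A {u}
  have hu : algebraMap A K a * u = 1 :=
    mul_inv_cancel₀ ((map_ne_zero_iff _ (IsFractionRing.injective A K)).2 ha)
  have hm : Submodule.map (Algebra.linearMap A K) (J * J') = S * Submodule.map (Algebra.linearMap A K) J' :=
    Submodule.map_mul J J' (Algebra.ofId A K)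
  have hSS : S * S' = 1 := by
    rw [← mul_assoc, ← hm, h]
    show Submodule.map _ (Submodule.span A {a}) * _ = 1
    rw [Submodule.map_span, Set.image_singleton, Submodule.span_mul_span, Set.singleton_mul_singleton]
    rw [Algebra.linearMap_apply, hu, Submodule.one_eq_span]
  have : Module.Invertible A S :=
    let U : (Submodule A K)ˣ := ⟨S, S', hSS, by rw [mul_comm, hSS]⟩
    Module.Invertible.left (Submodule.tensorInvEquiv U)
  exact Module.Invertible.congr
    (Submodule.equivMapOfInjective (Algebra.linearMap A K) (IsFractionRing.injective A K) J).symm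

omit [IsDomain A] in
/-- A functional on an invertible ideal is `f a • b = f b • a`. -/
theorem functional_comm {J : Ideal A} (f : J →ₗ[A] A) (a b : J) :
    f a * (b : A) = f b * (a : A) := by
  have h : (a : A) • b = (b : A) • a := Subtype.ext (by simp [mul_comm])
  have := congrArg f h
  simp only [map_smul, smul_eq_mul] at this
  linear_combination -this

/-- Functionals on an invertible ideal generate the unit ideal. -/
theorem InvI.exists_functional {J : Ideal A} (hJ : InvI J) {P : Ideal A} (hP : P ≠ ⊤) :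
    ∃ f : J →ₗ[A] A, ∃ j : J, f j ∉ P := by
  obtain ⟨J', a, ha, h⟩ := hJ
  by_contra hall
  push Not at hall
  refine hP (Ideal.eq_top_iff_one P |>.2 ?_)
  have key : ∀ z ∈ J * J', ∃ c ∈ P, z = a * c := by
    intro z hz
    refine Submodule.mul_induction_on hz ?_ ?_
    · intro j hj j' hj'
      have hdiv : ∀ i : J, ∃ c, j' * (i : A) = a * c := fun i =>
        Ideal.mem_span_singleton.1 (h ▸ (by simpa [mul_comm] using Ideal.mul_mem_mul i.2 hj'))
      choose c hc using hdiv
      let f : J →ₗ[A] A :=
        { toFun := c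
          map_add' := fun i i' => mul_left_cancel₀ ha (by
            rw [mul_add, ← hc, ← hc, ← hc]; push_cast; ring)
          map_smul' := fun r i => mul_left_cancel₀ ha (by
            rw [RingHom.id_apply, ← hc, smul_eq_mul, mul_left_comm, ← hc]
            simp [mul_left_comm]) }
      exact ⟨c ⟨j, hj⟩, hall f ⟨j, hj⟩, by rw [← hc]; ring⟩
    · rintro z z' ⟨c, hc, rfl⟩ ⟨c', hc', rfl⟩
      exact ⟨c + c', P.add_mem hc hc', by ring⟩
  obtain ⟨c, hc, hac⟩ := key a (by rw [h]; exact Ideal.mem_span_singleton_self a)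
  have : c = 1 := mul_left_cancel₀ ha (by rw [← hac, mul_one])
  rwa [← this]

omit [IsDomain A] in
/-- For an invertible `J`, the colength of `I * J` in `J` is that of `I`. -/
theorem InvI.mem_mul_of_functional {I J : Ideal A} (f : J →ₗ[A] A) (j₀ : J)
    {w : A} (hw : f j₀ * w - 1 ∈ I) (j : J) (hj : f j ∈ I) : (j : A) ∈ I * J := by
  have h1 : (j : A) = w * (f j * (j₀ : A)) - (f j₀ * w - 1) * (j : A) := by
    have := functional_comm f j₀ j
    linear_combination (w : A) * this
  rw [h1]
  exact (I * J).sub_mem ((I * J).mul_mem_left w (Ideal.mul_mem_mul hj j₀.2))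
    (Ideal.mul_mem_mul hw j.2)

end Fermat.Agent.Picard.Points
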