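/-
S25 (points): the ideal of a section `σ : A → R` in `R ⊗ A`, and its invertibility.
-/
import Fermat.Agent.Picard.Points.InvI
import Fermat.Agent.Picard.Points.Domain
import Mathlib.RingTheory.DedekindDomain.Basic
import Mathlib.RingTheory.Jacobson.Ring
import Mathlib.RingTheory.FiniteType

set_option autoImplicit false

noncomputable section

namespace Fermat.Agent.Picard.Points

open scoped TensorProduct

universe u

variable {k : Type u} [Field k] {A R R' : Type u} [CommRing A] [Algebra k A]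
  [CommRing R] [Algebra k R] [CommRing R'] [Algebra k R']

/-- The function `1 ⊗ a - σ a ⊗ 1`. -/
def sdiff (σ : A →ₐ[k] R) (a : A) : R ⊗[k] A := (1 : R) ⊗ₜ[k] a - σ a ⊗ₜ[k] (1 : A)

/-- The ideal of the graph of `σ`. -/
def secIdeal (σ : A →ₐ[k] R) : Ideal (R ⊗[k] A) := Ideal.span (Set.range (sdiff σ))

/-- Evaluation on the graph of `σ`. -/
def secEval (σ : A →ₐ[k] R) : R ⊗[k] A →ₐ[R] R :=
  Algebra.TensorProduct.lift (AlgHom.id R R) σ fun _ _ => Commute.all _ _

@[simp] theorem secEval_tmul (σ : A →ₐ[k] R) (r : R) (a : A) :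
    secEval σ (r ⊗ₜ[k] a) = r * σ a := by simp [secEval]

theorem sdiff_mem (σ : A →ₐ[k] R) (a : A) : sdiff σ a ∈ secIdeal σ :=
  Ideal.subset_span ⟨a, rfl⟩

theorem sub_secEval_mem (σ : A →ₐ[k] R) (z : R ⊗[k] A) :
    z - secEval σ z ⊗ₜ[k] (1 : A) ∈ secIdeal σ := by
  induction z with
  | zero => simp
  | tmul r a =>
    have h : r ⊗ₜ[k] a - secEval σ (r ⊗ₜ[k] a) ⊗ₜ[k] (1 : A) = (r ⊗ₜ[k] (1 : A)) * sdiff σ a := by
      simp [sdiff, mul_sub]
    rw [h]
    exact Ideal.mul_mem_left _ _ (sdiff_mem σ a)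
  | add x y hx hy =>
    have h : x + y - secEval σ (x + y) ⊗ₜ[k] (1 : A) =
        (x - secEval σ x ⊗ₜ[k] (1 : A)) + (y - secEval σ y ⊗ₜ[k] (1 : A)) := by
      rw [map_add, TensorProduct.add_tmul]; ring
    rw [h]
    exact add_mem hx hy

theorem mem_secIdeal_iff (σ : A →ₐ[k] R) (z : R ⊗[k] A) :
    z ∈ secIdeal σ ↔ secEval σ z = 0 := by
  refine ⟨fun h => ?_, fun h => by simpa [h] using sub_secEval_mem σ z⟩
  have : secIdeal σ ≤ RingHom.ker (secEval σ).toRingHom := by
    rw [secIdeal, Ideal.span_le]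
    rintro _ ⟨a, rfl⟩
    simp [RingHom.mem_ker, sdiff]
  exact this h

theorem secIdeal_ne_top [Nontrivial R] (σ : A →ₐ[k] R) : secIdeal σ ≠ ⊤ := fun h => by
  have : (1 : R ⊗[k] A) ∈ secIdeal σ := by rw [h]; trivial
  rw [mem_secIdeal_iff, map_one] at this
  exact one_ne_zero this

theorem map_sdiff (σ : A →ₐ[k] R) (φ : R →ₐ[k] R') (a : A) :
    Algebra.TensorProduct.map φ (AlgHom.id k A) (sdiff σ a) = sdiff (φ.comp σ) a := by
  simp [sdiff]

theorem secIdeal_map (σ : A →ₐ[k] R) (φ : R →ₐ[k] R') :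
    (secIdeal σ).map (Algebra.TensorProduct.map φ (AlgHom.id k A)).toRingHom =
      secIdeal (φ.comp σ) := by
  rw [secIdeal, Ideal.map_span, secIdeal, ← Set.range_comp]
  congr 2
  ext a
  exact map_sdiff σ φ a

theorem sdiff_mul (σ : A →ₐ[k] R) (a b : A) :
    sdiff σ (a * b) = ((1 : R) ⊗ₜ[k] a) * sdiff σ b + (σ b ⊗ₜ[k] (1 : A)) * sdiff σ a := by
  simp [sdiff, mul_sub, mul_comm (σ b) (σ a)]

/-- If `x` is not a constant then neither is `1 ⊗ x - r ⊗ 1` zero. -/
theorem one_tmul_sub_tmul_one_ne_zero [Nontrivial R] {x : A}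
    (hx : ∀ c : k, x ≠ algebraMap k A c) (r : R) :
    (1 : R) ⊗ₜ[k] x - r ⊗ₜ[k] (1 : A) ≠ 0 := by
  intro h
  have hli : x ∉ Submodule.span k {(1 : A)} := by
    rw [Submodule.mem_span_singleton]
    rintro ⟨c, hc⟩
    exact hx c (by rw [← hc, Algebra.algebraMap_eq_smul_one])
  obtain ⟨f, hf1, hfx⟩ := Submodule.exists_dual_map_eq_bot_of_notMem hli inferInstance
  have h1 : f 1 = 0 := by
    have : f 1 ∈ (Submodule.span k {(1 : A)}).map f :=
      Submodule.mem_map_of_mem (Submodule.mem_span_singleton_self 1)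
    rwa [hfx, Submodule.mem_bot] at this
  have h' := congrArg ((TensorProduct.rid k R).toLinearMap ∘ₗ f.lTensor R) h
  simp [h1] at h'
  exact hf1 h'

theorem sdiff_ne_zero [Nontrivial R] {x : A} (hx : ∀ c : k, x ≠ algebraMap k A c)
    (σ : A →ₐ[k] R) : sdiff σ x ≠ 0 :=
  one_tmul_sub_tmul_one_ne_zero hx (σ x)

/-- Residue fields at maximal ideals of finite type algebras over `k` algebraically closed. -/
theorem exists_point_of_isMaximal [IsAlgClosed k] [Algebra.FiniteType k A]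
    (m : Ideal A) [m.IsMaximal] : ∃ q : A →ₐ[k] k, RingHom.ker q.toRingHom = m := by
  let : Field (A ⧸ m) := Ideal.Quotient.field m
  have : Algebra.FiniteType k (A ⧸ m) :=
    Algebra.FiniteType.of_surjective (Ideal.Quotient.mkₐ k m) Ideal.Quotient.mk_surjective
  have : Module.Finite k (A ⧸ m) := finite_of_finite_type_of_isJacobsonRing k (A ⧸ m)
  have : Algebra.IsIntegral k (A ⧸ m) := Algebra.IsIntegral.of_finite k (A ⧸ m)
  let e : k ≃ₐ[k] A ⧸ m :=
    AlgEquiv.ofBijective (Algebra.ofId k _) IsAlgClosed.algebraMap_bijective_of_isIntegral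
  refine ⟨(e.symm : (A ⧸ m) →ₐ[k] k).comp (Ideal.Quotient.mkₐ k m), ?_⟩
  ext z
  rw [RingHom.mem_ker]
  show e.symm (Ideal.Quotient.mkₐ k m z) = 0 ↔ z ∈ m
  rw [map_eq_zero_iff e.symm e.symm.injective, Ideal.Quotient.mkₐ_eq_mk,
    Ideal.Quotient.eq_zero_iff_mem]

/-- At a non-zero prime of a Dedekind domain there is a uniformiser. -/
theorem exists_uniformiser [IsDedekindDomain A] (p : Ideal A) [p.IsPrime] (hp : p ≠ ⊥) :
    ∃ t ∈ p, ∀ a ∈ p, ∃ v ∉ p, ∃ c, v * a = t * c := by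
  have hlt : p ^ 2 < p := by
    refine lt_of_le_of_ne (Ideal.pow_le_self two_ne_zero) fun h => ?_
    exact Ideal.IsPrime.ne_top' (mul_right_cancel₀ hp (by rwa [← sq, Ideal.top_mul]))
  obtain ⟨t, htp, ht⟩ := SetLike.exists_of_lt hlt
  refine ⟨t, htp, ?_⟩
  have hdvd : p ∣ Ideal.span {t} :=
    Ideal.dvd_iff_le.2 ((Ideal.span_singleton_le_iff_mem _).2 htp)
  obtain ⟨q, hq⟩ := hdvd
  have hqp : ¬ q ≤ p := fun hle => ht (by
    have : t ∈ p * q := hq ▸ Ideal.mem_span_singleton_self t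
    exact (sq p).symm ▸ Ideal.mul_mono_right hle this)
  obtain ⟨v, hvq, hvp⟩ := SetLike.not_le_iff_exists.1 hqp
  intro a ha
  obtain ⟨c, hc⟩ := Ideal.mem_span_singleton.1 (hq ▸ Ideal.mul_mem_mul ha hvq : a * v ∈ _)
  exact ⟨v, hvp, c, by rw [mul_comm, hc]⟩

/-- The diagonal ideal of a smooth curve is invertible. -/
theorem invI_secIdeal_id [IsAlgClosed k] [IsDedekindDomain A] [Algebra.FiniteType k A]
    {x : A} (hx : ∀ c : k, x ≠ algebraMap k A c) :
    @InvI (A ⊗[k] A) _ (secIdeal (AlgHom.id k A)) := by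
  have : IsDomain (A ⊗[k] A) := isDomain_tensor A A
  have : IsNoetherianRing (A ⊗[k] A) := by
    have : Algebra.FiniteType A (A ⊗[k] A) := inferInstance
    exact Algebra.FiniteType.isNoetherianRing A (A ⊗[k] A)
  have : Algebra.FiniteType k (A ⊗[k] A) :=
    Algebra.FiniteType.trans (S := A) inferInstance inferInstance
  set I := secIdeal (AlgHom.id k A) with hI
  refine InvI.of_locally (fun h0 => sdiff_ne_zero hx (AlgHom.id k A) ?_) fun m hm => ?_
  · have := sdiff_mem (AlgHom.id k A) x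
    rw [← hI, h0] at this
    exact this
  obtain ⟨Q, hQ⟩ := exists_point_of_isMaximal (k := k) m
  have hmem : ∀ z, z ∈ m ↔ Q z = 0 := fun z => by rw [← hQ]; rfl
  set r : A →ₐ[k] k := Q.comp Algebra.TensorProduct.includeLeft with hr
  set q : A →ₐ[k] k := Q.comp Algebra.TensorProduct.includeRight with hq
  have hrq : ∀ a, Q (sdiff (AlgHom.id k A) a) = q a - r a := fun a => by
    simp [sdiff, hr, hq]
  by_cases heq : ∀ a, q a = r a
  swap
  · push Not at heq
    obtain ⟨a, ha⟩ := heq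
    refine ⟨sdiff (AlgHom.id k A) a, fun h => ha ?_, sdiff (AlgHom.id k A) a, sdiff_mem _ a,
      fun i _ => ⟨i, rfl⟩⟩
    rw [hmem, hrq, sub_eq_zero] at h
    exact h
  set p : Ideal A := RingHom.ker q.toRingHom with hp
  have hp0 : p ≠ ⊥ := fun h0 => hx (q x) (sub_eq_zero.1 (by
    have h : x - algebraMap k A (q x) ∈ p := by
      show q (x - algebraMap k A (q x)) = 0
      simp
    rwa [h0, Submodule.mem_bot] at h))
  have : p.IsPrime := RingHom.ker_isPrime q.toRingHom
  obtain ⟨t, htp, ht⟩ := exists_uniformiser p hp0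
  set δ := sdiff (AlgHom.id k A) t with hδ
  have hδI : δ ∈ I := sdiff_mem _ t
  set N : Ideal (A ⊗[k] A) := Ideal.span {δ} ⊔ m * I with hN
  have hker : ∀ a, q a = 0 → sdiff (AlgHom.id k A) a ∈ N := by
    intro a ha
    obtain ⟨v, hv, c, hvc⟩ := ht a ha
    have hvne : q v ≠ 0 := hv
    have hL : (1 : A) ⊗ₜ[k] v - algebraMap k (A ⊗[k] A) (q v) ∈ m := by
      rw [hmem, map_sub, AlgHom.commutes]
      simp [hq]
    have hR : a ⊗ₜ[k] (1 : A) ∈ m := by
      rw [hmem]
      simpa [hr] using (heq a).symm.trans ha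
    have hprod : sdiff (AlgHom.id k A) (v * a) ∈ N := by
      rw [hvc, mul_comm t c, sdiff_mul]
      refine add_mem (Submodule.mem_sup_left (Ideal.mul_mem_left _ _
        (Ideal.mem_span_singleton_self δ))) (Submodule.mem_sup_right (Ideal.mul_mem_mul ?_
        (sdiff_mem _ c)))
      rw [hmem]
      simpa [hr] using (heq t).symm.trans htp
    rw [sdiff_mul] at hprod
    have h1 : algebraMap k (A ⊗[k] A) (q v) * sdiff (AlgHom.id k A) a ∈ N := by
      have e : algebraMap k (A ⊗[k] A) (q v) * sdiff (AlgHom.id k A) a =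
          ((1 : A) ⊗ₜ[k] v * sdiff (AlgHom.id k A) a +
              (AlgHom.id k A a) ⊗ₜ[k] (1 : A) * sdiff (AlgHom.id k A) v) -
            (((1 : A) ⊗ₜ[k] v - algebraMap k (A ⊗[k] A) (q v)) * sdiff (AlgHom.id k A) a +
              (AlgHom.id k A a) ⊗ₜ[k] (1 : A) * sdiff (AlgHom.id k A) v) := by ring
      rw [e]
      exact sub_mem hprod (add_mem (Submodule.mem_sup_right (Ideal.mul_mem_mul hL (sdiff_mem _ a)))
        (Submodule.mem_sup_right (Ideal.mul_mem_mul hR (sdiff_mem _ v))))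
    have := N.mul_mem_left (algebraMap k (A ⊗[k] A) (q v)⁻¹) h1
    rwa [← mul_assoc, ← map_mul, inv_mul_cancel₀ hvne, map_one, one_mul] at this
  have hle : I ≤ N := by
    rw [hI, secIdeal, Ideal.span_le]
    rintro _ ⟨a, rfl⟩
    have h := hker (a - algebraMap k A (q a)) (by simp)
    have e : sdiff (AlgHom.id k A) (a - algebraMap k A (q a)) = sdiff (AlgHom.id k A) a := by
      simp [sdiff, TensorProduct.tmul_sub, TensorProduct.sub_tmul,
        Algebra.algebraMap_eq_smul_one, TensorProduct.smul_tmul]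
    rwa [e] at h
  obtain ⟨w, hw, hwI⟩ := Submodule.exists_sub_one_mem_and_smul_eq_zero_of_fg_of_le_smul m
    (Submodule.map (Ideal.span {δ}).mkQ I) ((IsNoetherian.noetherian I).map _) (by
      refine (Submodule.map_mono hle).trans ?_
      rw [hN, Submodule.map_sup, ← smul_eq_mul, Submodule.map_smul'', Submodule.mkQ_map_self,
        bot_sup_eq])
  refine ⟨w, fun hwm => hm.ne_top ((Ideal.eq_top_iff_one m).2 ?_), δ, hδI, fun i hi => ?_⟩
  · have := sub_mem hwm hw
    rwa [sub_sub_cancel] at this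
  · have := hwI _ (Submodule.mem_map_of_mem hi)
    rw [← map_smul, Submodule.mkQ_apply, Submodule.Quotient.mk_eq_zero, smul_eq_mul,
      Ideal.mem_span_singleton] at this
    exact this

/-- The ideal of a section is invertible. -/
theorem invI_secIdeal [IsAlgClosed k] [IsDedekindDomain A] [Algebra.FiniteType k A]
    [Nontrivial R] {x : A} (hx : ∀ c : k, x ≠ algebraMap k A c) (σ : A →ₐ[k] R) :
    InvI (secIdeal σ) := by
  have : IsDomain (A ⊗[k] A) := isDomain_tensor A A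
  obtain ⟨G, hG⟩ := InvI.exists_eq_mul (invI_secIdeal_id hx)
    ((Ideal.span_singleton_le_iff_mem _).2 (sdiff_mem (AlgHom.id k A) x))
  refine ⟨G.map (Algebra.TensorProduct.map σ (AlgHom.id k A)).toRingHom, sdiff σ x,
    sdiff_ne_zero hx σ, ?_⟩
  have h := congrArg (Ideal.map (Algebra.TensorProduct.map σ (AlgHom.id k A)).toRingHom) hG
  rw [Ideal.map_mul, secIdeal_map, Ideal.map_span, Set.image_singleton] at h
  rw [AlgHom.comp_id] at h
  rw [← h]
  congr 2
  exact (map_sdiff (AlgHom.id k A) σ x).trans (by rw [AlgHom.comp_id])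

end Fermat.Agent.Picard.Points
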