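/-
S25 (points): extending invertible ideals from the overlap to a chart.
-/
import Fermat.Agent.Picard.Points.InvI
import Mathlib.RingTheory.Localization.Away.Basic

set_option autoImplicit false

noncomputable section

namespace Fermat.Agent.Picard.Points

universe u

variable {T W : Type u} [CommRing T] [CommRing W]

/-- `W` is `T` with `y` inverted, through `f`. -/
structure IsChartLoc (f : T →+* W) (y : T) : Prop where
  isUnit : IsUnit (f y)
  injective : Function.Injective f
  surj : ∀ w, ∃ (n : ℕ) (t : T), f y ^ n * w = f t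

variable {f : T →+* W} {y : T}

theorem IsChartLoc.map_comap (h : IsChartLoc f y) (G : Ideal W) : (G.comap f).map f = G := by
  refine le_antisymm Ideal.map_comap_le fun w hw => ?_
  obtain ⟨n, t, ht⟩ := h.surj w
  have ht' : t ∈ G.comap f := by
    rw [Ideal.mem_comap, ← ht]
    exact G.mul_mem_left _ hw
  have := Ideal.mem_map_of_mem f ht'
  rw [← ht] at this
  exact (Ideal.unit_mul_mem_iff_mem _ (h.isUnit.pow n)).1 this

theorem IsChartLoc.exists_pow_mul_mem (h : IsChartLoc f y) {J : Ideal T} {t : T}
    (ht : f t ∈ J.map f) : ∃ n : ℕ, y ^ n * t ∈ J := by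
  have : ∀ w ∈ J.map f, ∃ n : ℕ, ∃ j ∈ J, f y ^ n * w = f j := by
    intro w hw
    induction hw using Submodule.span_induction with
    | mem x hx =>
      obtain ⟨j, hj, rfl⟩ := hx
      exact ⟨0, j, hj, by simp⟩
    | zero => exact ⟨0, 0, J.zero_mem, by simp⟩
    | add a b _ _ ha hb =>
      obtain ⟨n, j, hj, hja⟩ := ha
      obtain ⟨n', j', hj', hjb⟩ := hb
      refine ⟨n + n', y ^ n' * j + y ^ n * j', J.add_mem (J.mul_mem_left _ hj)
        (J.mul_mem_left _ hj'), ?_⟩
      simp only [map_add, map_mul, map_pow, ← hja, ← hjb]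
      ring
    | smul c a _ ha =>
      obtain ⟨n, j, hj, hja⟩ := ha
      obtain ⟨n', t', ht'⟩ := h.surj c
      refine ⟨n' + n, t' * j, J.mul_mem_left _ hj, ?_⟩
      rw [map_mul, ← hja, ← ht', smul_eq_mul]
      ring
  obtain ⟨n, j, hj, hjt⟩ := this _ ht
  rw [← map_pow, ← map_mul] at hjt
  exact ⟨n, by rw [h.injective hjt]; exact hj⟩

/-- An ideal in which `y` is invertible is saturated. -/
theorem IsChartLoc.comap_map_eq (h : IsChartLoc f y) {J : Ideal T} {u : T} (hu : u ∈ J)
    {b : T} (hb : u + b * y = 1) : (J.map f).comap f = J := by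
  refine le_antisymm (fun t ht => ?_) Ideal.le_comap_map
  obtain ⟨n, hn⟩ := h.exists_pow_mul_mem ht
  induction n with
  | zero => simpa using hn
  | succ n ih =>
    refine ih ?_
    have h' : y ^ n * t = u * (y ^ n * t) + b * (y ^ (n + 1) * t) := by
      linear_combination (y ^ n * t) * (-hb)
    rw [h']
    exact J.add_mem (J.mul_mem_right _ hu) (J.mul_mem_left _ hn)

/-- A saturated ideal is invertible if it is so on the overlap. -/
theorem IsChartLoc.invI_comap [IsDomain T] [IsDomain W] (h : IsChartLoc f y) {G : Ideal W}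
    (hG : InvI G) {u b : T} (hu : f u ∈ G) (hu0 : u ≠ 0) (hb : u + b * y = 1) :
    InvI (G.comap f) := by
  obtain ⟨G', hG'⟩ := hG.exists_eq_mul ((Ideal.span_singleton_le_iff_mem _).2 hu)
  have hu' : f u ∈ G' := by
    have h1 : Ideal.span {f u} ≤ G' := by rw [hG']; exact Ideal.mul_le_inf.trans inf_le_right
    exact h1 (Ideal.mem_span_singleton_self _)
  refine ⟨G'.comap f, u, hu0, ?_⟩
  have hsat : ((Ideal.span {u}).map f).comap f = Ideal.span {u} :=
    h.comap_map_eq (Ideal.mem_span_singleton_self u) hb
  refine le_antisymm ?_ ?_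
  · rw [← hsat, ← Ideal.map_le_iff_le_comap, Ideal.map_mul, h.map_comap, h.map_comap, ← hG',
      Ideal.map_span, Set.image_singleton]
  · rw [Ideal.span_le, Set.singleton_subset_iff]
    have h1 : u * u ∈ G.comap f * G'.comap f := Ideal.mul_mem_mul hu hu'
    have h2 : f u ∈ (G.comap f * G'.comap f).map f := by
      rw [Ideal.map_mul, h.map_comap, h.map_comap, ← hG']
      exact Ideal.mem_span_singleton_self _
    obtain ⟨n, hn⟩ := h.exists_pow_mul_mem h2
    show u ∈ _
    clear h2
    induction n with
    | zero => simpa using hn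
    | succ n ih =>
      refine ih ?_
      have h' : y ^ n * u = y ^ n * (u * u) + b * (y ^ (n + 1) * u) := by
        linear_combination (y ^ n * u) * (-hb)
      rw [h']
      exact add_mem (Ideal.mul_mem_left _ _ h1) (Ideal.mul_mem_left _ _ hn)

end Fermat.Agent.Picard.Points
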