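/-
S25 (points): the divisor of a point on a two chart curve, generically in the chosen chart.
-/
import Fermat.Agent.Picard.Data
import Fermat.Agent.Picard.Points.Diagonal
import Fermat.Agent.Picard.Points.Saturate

set_option autoImplicit false

noncomputable section

namespace Fermat.Agent.Picard.Points

open scoped TensorProduct

universe u

variable {k : Type u} [Field k] (R : Type u) [CommRing R] [Algebra k R]
variable {R' : Type u} [CommRing R'] [Algebra k R']

/-- `id ⊗ i`. -/
def resH {S W : Type u} [CommRing S] [Algebra k S] [CommRing W] [Algebra k W] (i : S →ₐ[k] W) :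
    R ⊗[k] S →+* R ⊗[k] W :=
  (Algebra.TensorProduct.map (AlgHom.id R R) i).toRingHom

@[simp] theorem resH_tmul {S W : Type u} [CommRing S] [Algebra k S] [CommRing W] [Algebra k W]
    (i : S →ₐ[k] W) (r : R) (s : S) : resH R i (r ⊗ₜ[k] s) = r ⊗ₜ[k] i s := by simp [resH]

variable {R} in
theorem baseHom_resH {S W : Type u} [CommRing S] [Algebra k S] [CommRing W] [Algebra k W]
    (i : S →ₐ[k] W) (φ : R →ₐ[k] R') (z : R ⊗[k] S) :
    Algebra.TensorProduct.map φ (AlgHom.id k W) (resH R i z) =
      resH R' i (Algebra.TensorProduct.map φ (AlgHom.id k S) z) := by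
  induction z with
  | zero => simp
  | tmul r s => simp
  | add u v hu hv => simp only [map_add, hu, hv]

variable (k) in
/-- The algebraic data of two charts, the first being the chart of the point. -/
structure Sides where
  S : Type u
  T : Type u
  W : Type u
  [crS : CommRing S]
  [crT : CommRing T]
  [crW : CommRing W]
  [algS : Algebra k S]
  [algT : Algebra k T]
  [algW : Algebra k W]
  [domS : IsDomain S]
  [dedS : IsDedekindDomain S]
  [ftS : Algebra.FiniteType k S]
  [domT : IsDomain T]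
  [domW : IsDomain W]
  iS : S →ₐ[k] W
  iT : T →ₐ[k] W
  s : S
  t : T
  mul_eq : iS s * iT t = 1
  injS : Function.Injective iS
  injT : Function.Injective iT
  surjS : ∀ w, ∃ (n : ℕ) (a : S), iS s ^ n * w = iS a
  surjT : ∀ w, ∃ (n : ℕ) (a : T), iT t ^ n * w = iT a
  s_nonconst : ∀ c : k, s ≠ algebraMap k S c
  t_nonconst : ∀ c : k, t ≠ algebraMap k T c

attribute [instance] Sides.crS Sides.crT Sides.crW Sides.algS Sides.algT Sides.algW Sides.domS
  Sides.dedS Sides.ftS Sides.domT Sides.domW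

theorem isChartLoc_resH {S W : Type u} [CommRing S] [Algebra k S] [CommRing W] [Algebra k W]
    {i : S →ₐ[k] W} {s : S} (hi : Function.Injective i) {w₁ : W} (hu : i s * w₁ = 1)
    (hsurj : ∀ w, ∃ (n : ℕ) (a : S), i s ^ n * w = i a) :
    IsChartLoc (resH R i) ((1 : R) ⊗ₜ[k] s) where
  isUnit := IsUnit.of_mul_eq_one ((1 : R) ⊗ₜ[k] w₁) (by simp [hu, Algebra.TensorProduct.one_def])
  injective := by
    have h : Function.Injective (i.toLinearMap.lTensor R) :=
      Module.Flat.lTensor_preserves_injective_linearMap _ hi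
    have he : ∀ z, resH R i z = i.toLinearMap.lTensor R z := fun z => by
      induction z with
      | zero => simp
      | tmul r a => simp
      | add a b ha hb => simp only [map_add, ha, hb]
    intro a b hab
    exact h (by rw [← he, ← he, hab])
  surj z := by
    induction z with
    | zero => exact ⟨0, 0, by simp⟩
    | tmul r w =>
      obtain ⟨n, a, ha⟩ := hsurj w
      exact ⟨n, r ⊗ₜ[k] a, by simp [Algebra.TensorProduct.tmul_pow, ha]⟩
    | add z z' hz hz' =>
      obtain ⟨n, a, ha⟩ := hz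
      obtain ⟨n', a', ha'⟩ := hz'
      refine ⟨n + n', ((1 : R) ⊗ₜ[k] s) ^ n' * a + ((1 : R) ⊗ₜ[k] s) ^ n * a', ?_⟩
      simp only [map_add, map_mul, map_pow, ← ha, ← ha']
      ring

namespace Sides

variable (P : Sides k) {R}

theorem locS : IsChartLoc (resH R P.iS) ((1 : R) ⊗ₜ[k] P.s) :=
  isChartLoc_resH R P.injS P.mul_eq P.surjS

theorem locT : IsChartLoc (resH R P.iT) ((1 : R) ⊗ₜ[k] P.t) :=
  isChartLoc_resH R P.injT (by rw [mul_comm]; exact P.mul_eq) P.surjT

/-- The function `1 - σ s ⊗ t` on the other chart, which vanishes at the point. -/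
def wit (σ : P.S →ₐ[k] R) : R ⊗[k] P.T := 1 - σ P.s ⊗ₜ[k] P.t

theorem wit_add (σ : P.S →ₐ[k] R) :
    P.wit σ + (σ P.s ⊗ₜ[k] (1 : P.T)) * ((1 : R) ⊗ₜ[k] P.t) = 1 := by simp [wit]

theorem resH_wit (σ : P.S →ₐ[k] R) :
    resH R P.iT (P.wit σ) = ((1 : R) ⊗ₜ[k] P.iT P.t) * resH R P.iS (sdiff σ P.s) := by
  simp [wit, sdiff, mul_sub, mul_comm (P.iT P.t) _, P.mul_eq, Algebra.TensorProduct.one_def]

theorem resH_wit_mem (σ : P.S →ₐ[k] R) :
    resH R P.iT (P.wit σ) ∈ (secIdeal σ).map (resH R P.iS) := by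
  rw [resH_wit]
  exact Ideal.mul_mem_left _ _ (Ideal.mem_map_of_mem _ (sdiff_mem σ P.s))

theorem wit_ne_zero [Nontrivial R] (σ : P.S →ₐ[k] R) : P.wit σ ≠ 0 := by
  intro h
  have hli : (1 : P.T) ∉ Submodule.span k {P.t} := by
    rw [Submodule.mem_span_singleton]
    rintro ⟨c, hc⟩
    rcases eq_or_ne c 0 with rfl | hc0
    · simp at hc
    · exact P.t_nonconst c⁻¹ (by
        rw [Algebra.algebraMap_eq_smul_one, ← hc, smul_smul, inv_mul_cancel₀ hc0, one_smul])
  obtain ⟨f, hf1, hfx⟩ := Submodule.exists_dual_map_eq_bot_of_notMem hli inferInstance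
  have h1 : f P.t = 0 := by
    have : f P.t ∈ (Submodule.span k {P.t}).map f :=
      Submodule.mem_map_of_mem (Submodule.mem_span_singleton_self _)
    rwa [hfx, Submodule.mem_bot] at this
  have h' := congrArg ((TensorProduct.rid k R).toLinearMap ∘ₗ f.lTensor R) h
  simp [wit, h1, Algebra.TensorProduct.one_def] at h'
  exact hf1 h'

/-- The ideal of the point on the other chart. -/
def other (σ : P.S →ₐ[k] R) : Ideal (R ⊗[k] P.T) :=
  ((secIdeal σ).map (resH R P.iS)).comap (resH R P.iT)

theorem map_other (σ : P.S →ₐ[k] R) :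
    (P.other σ).map (resH R P.iT) = (secIdeal σ).map (resH R P.iS) :=
  P.locT.map_comap _

theorem wit_mem_other (σ : P.S →ₐ[k] R) : P.wit σ ∈ P.other σ := P.resH_wit_mem σ

/-- `other σ` is characterised by saturation. -/
theorem eq_other (σ : P.S →ₐ[k] R) {J : Ideal (R ⊗[k] P.T)} (hw : P.wit σ ∈ J)
    (hJ : J.map (resH R P.iT) = (secIdeal σ).map (resH R P.iS)) : J = P.other σ := by
  rw [other, ← hJ, P.locT.comap_map_eq hw (P.wit_add σ)]

theorem map_resH_comm {S : Type u} [CommRing S] [Algebra k S] (i : S →ₐ[k] P.W)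
    (φ : R →ₐ[k] R') (J : Ideal (R ⊗[k] S)) :
    (J.map (resH R i)).map (Algebra.TensorProduct.map φ (AlgHom.id k P.W)).toRingHom =
      (J.map (Algebra.TensorProduct.map φ (AlgHom.id k S)).toRingHom).map (resH R' i) := by
  rw [Ideal.map_map, Ideal.map_map]
  congr 1
  exact RingHom.ext fun z => baseHom_resH i φ z

theorem other_map (σ : P.S →ₐ[k] R) (φ : R →ₐ[k] R') :
    (P.other σ).map (Algebra.TensorProduct.map φ (AlgHom.id k P.T)).toRingHom =
      P.other (φ.comp σ) := by
  refine P.eq_other _ ?_ ?_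
  · have := Ideal.mem_map_of_mem (Algebra.TensorProduct.map φ (AlgHom.id k P.T)).toRingHom
      (P.wit_mem_other σ)
    simpa [wit] using this
  · rw [← map_resH_comm, map_other, map_resH_comm, secIdeal_map]

theorem invI_secIdeal [IsAlgClosed k] [Nontrivial R] (σ : P.S →ₐ[k] R) : InvI (secIdeal σ) :=
  Points.invI_secIdeal P.s_nonconst σ

theorem invI_other [IsAlgClosed k] [IsDomain R] (σ : P.S →ₐ[k] R) : InvI (P.other σ) := by
  have : IsDomain (R ⊗[k] P.S) := isDomain_tensor R P.S
  have : IsDomain (R ⊗[k] P.T) := isDomain_tensor R P.T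
  have : IsDomain (R ⊗[k] P.W) := isDomain_tensor R P.W
  exact P.locT.invI_comap ((P.invI_secIdeal σ).map P.locS.injective)
    (P.resH_wit_mem σ) (P.wit_ne_zero σ) (P.wit_add σ)

/-- The ideal of a point of the overlap. -/
theorem map_secIdeal_overlap {S W : Type u} [CommRing S] [Algebra k S] [CommRing W] [Algebra k W]
    {i : S →ₐ[k] W} {s : S} (h : IsChartLoc (resH R i) ((1 : R) ⊗ₜ[k] s))
    (ω : W →ₐ[k] R) : (secIdeal (ω.comp i)).map (resH R i) = secIdeal ω := by
  have hev : ∀ z, secEval ω (resH R i z) = secEval (ω.comp i) z := fun z => by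
    induction z with
    | zero => simp
    | tmul r a => simp
    | add a b ha hb => simp only [map_add, ha, hb]
  refine le_antisymm (Ideal.map_le_iff_le_comap.2 fun z hz => ?_) fun w hw => ?_
  · rw [Ideal.mem_comap, mem_secIdeal_iff, hev]
    exact (mem_secIdeal_iff _ _).1 hz
  · obtain ⟨n, z, hz⟩ := h.surj w
    have hzm : z ∈ secIdeal (ω.comp i) := by
      rw [mem_secIdeal_iff, ← hev, ← hz, map_mul, (mem_secIdeal_iff _ _).1 hw, mul_zero]
    have := Ideal.mem_map_of_mem (resH R i) hzm
    rw [← hz] at this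
    exact (Ideal.unit_mul_mem_iff_mem _ (h.isUnit.pow n)).1 this

/-- A point of the overlap gives the same ideal on the other chart. -/
theorem other_eq_secIdeal (ω : P.W →ₐ[k] R) :
    P.other (ω.comp P.iS) = secIdeal (ω.comp P.iT) := by
  refine (P.eq_other _ ?_ ?_).symm
  · rw [mem_secIdeal_iff]
    simp [wit, ← map_mul, P.mul_eq]
  · rw [map_secIdeal_overlap P.locT, map_secIdeal_overlap P.locS]

end Sides

end Fermat.Agent.Picard.Points
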