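/-
S25 (points): effective divisors on a two chart curve as pairs of invertible ideals.
-/
import Fermat.Agent.Picard.Algebra.Basics
import Fermat.Agent.Picard.Points.Sides

set_option autoImplicit false

noncomputable section

namespace Fermat.Agent.Picard.Points

open scoped TensorProduct

universe u

variable {k : Type u} [Field k] (X : TwoChart k)

section Facts

theorem x_nonconst (c : k) : X.x ≠ algebraMap k X.A c := by
  intro h
  have : Polynomial.aeval X.x (Polynomial.X - Polynomial.C c : Polynomial k) =
      Polynomial.aeval X.x (0 : Polynomial k) := by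
    simp [h]
  exact Polynomial.X_sub_C_ne_zero c (X.injective_x this)

theorem y_nonconst (c : k) : X.y ≠ algebraMap k X.B c := by
  intro h
  have : Polynomial.aeval X.y (Polynomial.X - Polynomial.C c : Polynomial k) =
      Polynomial.aeval X.y (0 : Polynomial k) := by
    simp [h]
  exact Polynomial.X_sub_C_ne_zero c (X.injective_y this)

theorem x_ne_zero : X.x ≠ 0 := by simpa using x_nonconst X 0

theorem y_ne_zero : X.y ≠ 0 := by simpa using y_nonconst X 0

theorem finiteType_of_finite_aeval {S : Type u} [CommRing S] [Algebra k S] (s : S)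
    (h : (Polynomial.aeval s : Polynomial k →ₐ[k] S).toRingHom.Finite) :
    Algebra.FiniteType k S := by
  let : Algebra (Polynomial k) S := (Polynomial.aeval s : Polynomial k →ₐ[k] S).toRingHom.toAlgebra
  have : IsScalarTower k (Polynomial k) S := IsScalarTower.of_algebraMap_eq fun r => by
    show _ = Polynomial.aeval s (Polynomial.C r)
    simp
  have : Module.Finite (Polynomial k) S := h
  exact Algebra.FiniteType.trans (S := Polynomial k) inferInstance inferInstance

theorem isDomain_W : IsDomain X.W :=
  IsLocalization.isDomain_of_le_nonZeroDivisors X.W (powers_le_nonZeroDivisors_of_noZeroDivisors (x_ne_zero X))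

theorem injective_algebraMap_AW : Function.Injective (algebraMap X.A X.W) :=
  IsLocalization.injective X.W (powers_le_nonZeroDivisors_of_noZeroDivisors (x_ne_zero X))

theorem injective_algebraMap_BW : Function.Injective (algebraMap X.B X.W) :=
  IsLocalization.injective X.W (powers_le_nonZeroDivisors_of_noZeroDivisors (y_ne_zero X))

theorem surj_away {S W : Type u} [CommRing S] [CommRing W] [Algebra S W] (s : S)
    [IsLocalization.Away s W] (w : W) :
    ∃ (n : ℕ) (a : S), algebraMap S W s ^ n * w = algebraMap S W a := by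
  obtain ⟨n, a, ha⟩ := IsLocalization.Away.surj s w
  exact ⟨n, a, by rw [mul_comm]; exact ha⟩

/-- The chart `A` first. -/
def sideA : Sides k :=
  have := finiteType_of_finite_aeval X.x X.finite_x
  have := isDomain_W X
  { S := X.A, T := X.B, W := X.W
    iS := IsScalarTower.toAlgHom k X.A X.W
    iT := IsScalarTower.toAlgHom k X.B X.W
    s := X.x, t := X.y
    mul_eq := X.x_mul_y
    injS := injective_algebraMap_AW X
    injT := injective_algebraMap_BW X
    surjS := surj_away X.x
    surjT := surj_away X.y
    s_nonconst := x_nonconst X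
    t_nonconst := y_nonconst X }

/-- The chart `B` first. -/
def sideB : Sides k :=
  have := finiteType_of_finite_aeval X.y X.finite_y
  have := isDomain_W X
  { S := X.B, T := X.A, W := X.W
    iS := IsScalarTower.toAlgHom k X.B X.W
    iT := IsScalarTower.toAlgHom k X.A X.W
    s := X.y, t := X.x
    mul_eq := by rw [mul_comm]; exact X.x_mul_y
    injS := injective_algebraMap_BW X
    injT := injective_algebraMap_AW X
    surjS := surj_away X.y
    surjT := surj_away X.x
    s_nonconst := y_nonconst X
    t_nonconst := x_nonconst X }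

end Facts

section Domains

variable [IsAlgClosed k] (R : Type u) [CommRing R] [Algebra k R] [IsDomain R]

instance isDomain_RA : IsDomain (R ⊗[k] X.A) := isDomain_tensor R X.A

instance isDomain_RB : IsDomain (R ⊗[k] X.B) := isDomain_tensor R X.B

instance isDomain_RW : IsDomain (R ⊗[k] X.W) :=
  have := isDomain_W X
  isDomain_tensor R X.W

end Domains

variable (R : Type u) [CommRing R] [Algebra k R]

theorem locA : IsChartLoc (X.resA R) ((1 : R) ⊗ₜ[k] X.x) := (sideA X).locS

theorem locB : IsChartLoc (X.resB R) ((1 : R) ⊗ₜ[k] X.y) := (sideA X).locT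

/-- A pair of ideals on the two charts agreeing on the overlap. -/
@[ext]
structure Div where
  JA : Ideal (R ⊗[k] X.A)
  JB : Ideal (R ⊗[k] X.B)
  compat : JA.map (X.resA R) = JB.map (X.resB R)

namespace Div

variable {X R} {R' : Type u} [CommRing R'] [Algebra k R']

instance : One (Div X R) :=
  ⟨⟨⊤, ⊤, by rw [Ideal.map_top, Ideal.map_top]⟩⟩

instance : Mul (Div X R) :=
  ⟨fun D E => ⟨D.JA * E.JA, D.JB * E.JB, by
    rw [Ideal.map_mul, Ideal.map_mul, D.compat, E.compat]⟩⟩

@[simp] theorem one_JA : (1 : Div X R).JA = ⊤ := rfl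
@[simp] theorem one_JB : (1 : Div X R).JB = ⊤ := rfl
@[simp] theorem mul_JA (D E : Div X R) : (D * E).JA = D.JA * E.JA := rfl
@[simp] theorem mul_JB (D E : Div X R) : (D * E).JB = D.JB * E.JB := rfl

instance : CommMonoid (Div X R) where
  mul_assoc D E F := Div.ext (mul_assoc _ _ _) (mul_assoc _ _ _)
  one_mul D := Div.ext (Ideal.top_mul _) (Ideal.top_mul _)
  mul_one D := Div.ext (Ideal.mul_top _) (Ideal.mul_top _)
  mul_comm D E := Div.ext (mul_comm _ _) (mul_comm _ _)

/-- Both ideals are invertible. -/
def Invertible (D : Div X R) : Prop := InvI D.JA ∧ InvI D.JB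

/-- Base change of a divisor. -/
def map (D : Div X R) (φ : R →ₐ[k] R') : Div X R' where
  JA := D.JA.map (TwoChart.baseHom φ X.A)
  JB := D.JB.map (TwoChart.baseHom φ X.B)
  compat := by
    have hA := (sideA X).map_resH_comm (sideA X).iS φ D.JA
    have hB := (sideA X).map_resH_comm (sideA X).iT φ D.JB
    have hc : D.JA.map (resH R (sideA X).iS) = D.JB.map (resH R (sideA X).iT) := D.compat
    exact hA.symm.trans ((congrArg _ hc).trans hB)

@[simp] theorem map_one (φ : R →ₐ[k] R') : (1 : Div X R).map φ = 1 :=
  Div.ext (Ideal.map_top _) (Ideal.map_top _)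

theorem map_mul (D E : Div X R) (φ : R →ₐ[k] R') : (D * E).map φ = D.map φ * E.map φ :=
  Div.ext (Ideal.map_mul _ _ _) (Ideal.map_mul _ _ _)

theorem map_map {R'' : Type u} [CommRing R''] [Algebra k R''] (D : Div X R) (φ : R →ₐ[k] R')
    (ψ : R' →ₐ[k] R'') : (D.map φ).map ψ = D.map (ψ.comp φ) := by
  have h : ∀ (S : Type u) [CommRing S] [Algebra k S],
      (TwoChart.baseHom ψ S).comp (TwoChart.baseHom φ S) = TwoChart.baseHom (ψ.comp φ) S := by
    intro S _ _
    refine RingHom.ext fun z => ?_
    induction z with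
    | zero => simp
    | tmul r s => simp [TwoChart.baseHom]
    | add a b ha hb => simp only [_root_.map_add, ha, hb]
  refine Div.ext ?_ ?_
  · show (D.JA.map _).map _ = D.JA.map _
    rw [Ideal.map_map, h]
  · show (D.JB.map _).map _ = D.JB.map _
    rw [Ideal.map_map, h]

end Div

variable {X R}

/-- A point of one of the two charts. -/
abbrev Pt (X : TwoChart k) (R : Type u) [CommRing R] [Algebra k R] : Type u :=
  (X.A →ₐ[k] R) ⊕ (X.B →ₐ[k] R)

/-- The divisor of a point of `A`. -/
def ptA (σ : X.A →ₐ[k] R) : Div X R where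
  JA := secIdeal σ
  JB := (sideA X).other σ
  compat := ((sideA X).map_other σ).symm

/-- The divisor of a point of `B`. -/
def ptB (σ : X.B →ₐ[k] R) : Div X R where
  JA := (sideB X).other σ
  JB := secIdeal σ
  compat := (sideB X).map_other σ

/-- The divisor of a point. -/
def ptDiv : Pt X R → Div X R := Sum.elim ptA ptB

/-- Base change of a point. -/
def ptMap {R' : Type u} [CommRing R'] [Algebra k R'] (φ : R →ₐ[k] R') : Pt X R → Pt X R' :=
  Sum.map φ.comp φ.comp

theorem ptDiv_map {R' : Type u} [CommRing R'] [Algebra k R'] (φ : R →ₐ[k] R') (P : Pt X R) :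
    (ptDiv P).map φ = ptDiv (ptMap φ P) := by
  rcases P with σ | σ
  · exact Div.ext (secIdeal_map σ φ) ((sideA X).other_map σ φ)
  · exact Div.ext ((sideB X).other_map σ φ) (secIdeal_map σ φ)

theorem ptDiv_invertible [IsAlgClosed k] [IsDomain R] (P : Pt X R) : (ptDiv P).Invertible := by
  rcases P with σ | σ
  · exact ⟨(sideA X).invI_secIdeal σ, (sideA X).invI_other σ⟩
  · exact ⟨(sideB X).invI_other σ, (sideB X).invI_secIdeal σ⟩

theorem ptA_eq_ptB (ω : X.W →ₐ[k] R) :
    ptA (X := X) (ω.comp (IsScalarTower.toAlgHom k X.A X.W)) =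
      ptB (ω.comp (IsScalarTower.toAlgHom k X.B X.W)) :=
  Div.ext ((sideB X).other_eq_secIdeal ω).symm ((sideA X).other_eq_secIdeal ω)

/-- The divisor of a list of points. -/
def listDiv (l : List (Pt X R)) : Div X R := (l.map ptDiv).prod

theorem listDiv_map {R' : Type u} [CommRing R'] [Algebra k R'] (φ : R →ₐ[k] R')
    (l : List (Pt X R)) : (listDiv l).map φ = listDiv (l.map (ptMap φ)) := by
  induction l with
  | nil => simp [listDiv]
  | cons P l ih =>
    simp only [listDiv, List.map_cons, List.prod_cons] at ih ⊢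
    rw [Div.map_mul, ih, ptDiv_map]

theorem Div.Invertible.one [IsAlgClosed k] [IsDomain R] : (1 : Div X R).Invertible :=
  ⟨InvI.top, InvI.top⟩

theorem Div.Invertible.mul [IsAlgClosed k] [IsDomain R] {D E : Div X R} (hD : D.Invertible)
    (hE : E.Invertible) : (D * E).Invertible :=
  ⟨hD.1.mul hE.1, hD.2.mul hE.2⟩

theorem listDiv_invertible [IsAlgClosed k] [IsDomain R] (l : List (Pt X R)) :
    (listDiv l).Invertible := by
  induction l with
  | nil => exact Div.Invertible.one
  | cons P l ih => simpa [listDiv] using (ptDiv_invertible P).mul ih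

/-- A containing invertible divisor divides. -/
theorem Div.exists_eq_mul [IsAlgClosed k] [IsDomain R] {D E : Div X R} (hE : E.Invertible)
    (hA : D.JA ≤ E.JA) (hB : D.JB ≤ E.JB) : ∃ G : Div X R, D = E * G := by
  obtain ⟨GA, hGA⟩ := hE.1.exists_eq_mul hA
  obtain ⟨GB, hGB⟩ := hE.2.exists_eq_mul hB
  refine ⟨⟨GA, GB, ?_⟩, Div.ext hGA hGB⟩
  refine (hE.1.map (locA X R).injective).mul_left_cancel ?_
  rw [← Ideal.map_mul, ← hGA, D.compat, hGB, Ideal.map_mul, E.compat]

theorem Div.Invertible.of_mul_left [IsAlgClosed k] [IsDomain R] {D E : Div X R}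
    (h : (D * E).Invertible) : D.Invertible :=
  ⟨h.1.of_mul_left, h.2.of_mul_left⟩

theorem Div.Invertible.of_mul_right [IsAlgClosed k] [IsDomain R] {D E : Div X R}
    (h : (D * E).Invertible) : E.Invertible :=
  ⟨h.1.of_mul_right, h.2.of_mul_right⟩

end Fermat.Agent.Picard.Points
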