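/-
S25 (points): extension of scalars of invertible ideals is given by the image ideal.
-/
import Fermat.Agent.Picard.Data
import Fermat.Agent.Picard.Points.InvI

set_option autoImplicit false

noncomputable section

namespace Fermat.Agent.Picard.Points

open scoped TensorProduct

universe u

variable {S T : Type u} [CommRing S] [CommRing T] (f : S →+* T)

/-- The semilinear map from an ideal to its image ideal. -/
def idealMap (J : Ideal S) (J' : Ideal T) (h : ∀ j ∈ J, f j ∈ J') : J →ₛₗ[f] J' where
  toFun j := ⟨f j, h j j.2⟩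
  map_add' a b := Subtype.ext (by simp)
  map_smul' r a := Subtype.ext (by simp)

@[simp] theorem coe_idealMap (J : Ideal S) (J' : Ideal T) (h : ∀ j ∈ J, f j ∈ J') (j : J) :
    (idealMap f J J' h j : T) = f j := rfl

/-- The image of an invertible ideal, when invertible, is its extension of scalars. -/
theorem isScalarExtension_idealMap (J : Ideal S) (J' : Ideal T) [Module.Invertible S J]
    [Module.Invertible T J'] (h : ∀ j ∈ J, f j ∈ J') (hspan : J' ≤ J.map f) :
    IsScalarExtension f (idealMap f J J' h) := by
  intro P _ _ hP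
  let : Algebra S T := f.toAlgebra
  let : Module S P := Module.compHom P f
  have : IsScalarTower S T P := IsScalarTower.of_algebraMap_smul fun _ _ => rfl
  let g₀ : J →ₗ[S] J' :=
    { toFun := idealMap f J J' h
      map_add' := map_add _
      map_smul' := fun r j => Subtype.ext (by
        show f (r * j) = (r • (idealMap f J J' h j : T))
        rw [Algebra.smul_def, map_mul]; rfl) }
  let e₀ : T ⊗[S] J →ₗ[T] J' := g₀.liftBaseChange T
  have hsurj : Function.Surjective e₀ := by
    rw [← LinearMap.range_eq_top, eq_top_iff]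
    rintro ⟨z, hz⟩ -
    have : ∀ z ∈ J.map f, ∀ hz' : z ∈ J', (⟨z, hz'⟩ : J') ∈ LinearMap.range e₀ := by
      intro z hz
      induction hz using Submodule.span_induction with
      | mem x hx =>
        obtain ⟨j, hj, rfl⟩ := hx
        exact fun _ => ⟨1 ⊗ₜ[S] ⟨j, hj⟩, Subtype.ext (by simp [e₀, g₀])⟩
      | zero => exact fun _ => zero_mem _
      | add a b ha hb iha ihb =>
        exact fun _ => add_mem (iha (Ideal.map_le_iff_le_comap.2 h ha))
          (ihb (Ideal.map_le_iff_le_comap.2 h hb))
      | smul c a ha iha =>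
        exact fun _ => Submodule.smul_mem _ c (iha (Ideal.map_le_iff_le_comap.2 h ha))
    exact this z (hspan hz) hz
  let e : T ⊗[S] J ≃ₗ[T] J' :=
    LinearEquiv.ofBijective e₀ (Module.Invertible.bijective_of_surjective hsurj)
  let h₀ : J →ₗ[S] P :=
    { toFun := hP
      map_add' := map_add _
      map_smul' := fun r j => by rw [map_smulₛₗ]; rfl }
  refine ⟨(h₀.liftBaseChange T).comp e.symm.toLinearMap, fun j => ?_, fun h' hh' => ?_⟩
  · have : e.symm (idealMap f J J' h j) = (1 : T) ⊗ₜ[S] j := by
      rw [LinearEquiv.symm_apply_eq]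
      exact Subtype.ext (by simp [e, e₀, g₀])
    simp [this, h₀]
  · refine LinearMap.ext fun z => ?_
    obtain ⟨w, rfl⟩ := e.surjective z
    simp only [LinearMap.comp_apply, LinearEquiv.coe_coe, LinearEquiv.symm_apply_apply]
    induction w using TensorProduct.induction_on with
    | zero => simp
    | tmul t j =>
      have : e (t ⊗ₜ[S] j) = t • idealMap f J J' h j := by
        simp [e, e₀, g₀]
      rw [this, map_smul, hh']
      simp [h₀]
    | add a b ha hb => simp only [map_add, ha, hb]

variable {A : Type u} [CommRing A] [IsDomain A]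

/-- Ideals which differ by a scalar are isomorphic. -/
def scaleEquiv (J J' : Ideal A) (a b : A) (ha : a ≠ 0) (hb : b ≠ 0)
    (h : Ideal.span {a} * J = Ideal.span {b} * J') : J ≃ₗ[A] J' :=
  have h1 : ∀ j : J, ∃ j' : J', b * (j' : A) = a * j := fun j => by
    have : a * (j : A) ∈ Ideal.span {b} * J' :=
      h ▸ Ideal.mul_mem_mul (Ideal.mem_span_singleton_self a) j.2
    obtain ⟨z, hz, hz'⟩ := Ideal.mem_span_singleton_mul.1 this
    exact ⟨⟨z, hz⟩, hz'⟩
  LinearEquiv.ofBijective
    { toFun := fun j => (h1 j).choose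
      map_add' := fun x y => Subtype.ext (mul_left_cancel₀ hb (by
        rw [(h1 (x + y)).choose_spec, Submodule.coe_add, Submodule.coe_add, mul_add, mul_add,
          (h1 x).choose_spec, (h1 y).choose_spec]))
      map_smul' := fun r x => Subtype.ext (mul_left_cancel₀ hb (by
        rw [(h1 (r • x)).choose_spec, RingHom.id_apply, Submodule.coe_smul, Submodule.coe_smul,
          smul_eq_mul, smul_eq_mul, mul_left_comm b, (h1 x).choose_spec, mul_left_comm])) }
    ⟨fun x y hxy => Subtype.ext (mul_left_cancel₀ ha (by
      rw [← (h1 x).choose_spec, ← (h1 y).choose_spec]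
      exact congrArg (fun z : J' => b * (z : A)) hxy)), fun j' => by
      have : b * (j' : A) ∈ Ideal.span {a} * J :=
        h ▸ Ideal.mul_mem_mul (Ideal.mem_span_singleton_self b) j'.2
      obtain ⟨z, hz, hz'⟩ := Ideal.mem_span_singleton_mul.1 this
      exact ⟨⟨z, hz⟩, Subtype.ext (mul_left_cancel₀ hb ((h1 ⟨z, hz⟩).choose_spec.trans hz'))⟩⟩

theorem scaleEquiv_spec (J J' : Ideal A) (a b : A) (ha : a ≠ 0) (hb : b ≠ 0)
    (h : Ideal.span {a} * J = Ideal.span {b} * J') (j : J) :
    b * (scaleEquiv J J' a b ha hb h j : A) = a * j := by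
  unfold scaleEquiv
  rw [LinearEquiv.ofBijective_apply]
  exact Exists.choose_spec (p := fun j' : J' => b * (j' : A) = a * (j : A)) _

end Fermat.Agent.Picard.Points
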