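/-
S25 (points): the triple attached to a divisor, and its functoriality.
-/
import Fermat.Agent.Picard.Points.Div
import Fermat.Agent.Picard.Points.ScalarExt

set_option autoImplicit false

noncomputable section

namespace Fermat.Agent.Picard.Points

open scoped TensorProduct

universe u

variable {k : Type u} [Field k] [IsAlgClosed k] {X : TwoChart k}
variable {R : Type u} [CommRing R] [Algebra k R] [IsDomain R]

/-- An element of an ideal as an element of the ring. -/
abbrev valIn {S : Type u} [CommRing S] (J : Ideal S) (j : J) : S := j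

/-- The ideal sheaf `O(-D)` as a triple. -/
def Div.toTri (D : Div X R) (hD : D.Invertible) : X.Tri R where
  MA := D.JA
  MB := D.JB
  MW := ↥(D.JA.map (X.resA R))
  invA := hD.1.invertible
  invB := hD.2.invertible
  invW := (hD.1.map (locA X R).injective).invertible
  fA := idealMap (X.resA R) D.JA _ fun _ hj => Ideal.mem_map_of_mem _ hj
  fB := idealMap (X.resB R) D.JB _ fun _ hj => D.compat.symm ▸ Ideal.mem_map_of_mem _ hj
  surjA := by
    rintro ⟨w, hw⟩
    obtain ⟨n, t, ht⟩ := (locA X R).surj w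
    obtain ⟨m, hm⟩ := (locA X R).exists_pow_mul_mem (J := D.JA) (t := t)
      (by rw [← ht]; exact Ideal.mul_mem_left _ _ hw)
    refine ⟨m + n, ⟨_, hm⟩, Subtype.ext ?_⟩
    show ((1 : R) ⊗ₜ[k] algebraMap X.A X.W X.x) ^ (m + n) * w = X.resA R (_ * t)
    rw [_root_.map_mul, map_pow, ← ht, TwoChart.resA_tmul, pow_add, mul_assoc]
  injA m hm := ⟨0, by
    have : X.resA R (valIn D.JA m) = 0 := congrArg Subtype.val hm
    rw [pow_zero, one_smul]
    exact Subtype.ext ((locA X R).injective (by simpa using this))⟩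
  surjB := by
    rintro ⟨w, hw⟩
    obtain ⟨n, t, ht⟩ := (locB X R).surj w
    obtain ⟨m, hm⟩ := (locB X R).exists_pow_mul_mem (J := D.JB) (t := t)
      (by rw [← ht]; exact Ideal.mul_mem_left _ _ (D.compat ▸ hw))
    refine ⟨m + n, ⟨_, hm⟩, Subtype.ext ?_⟩
    show ((1 : R) ⊗ₜ[k] algebraMap X.B X.W X.y) ^ (m + n) * w = X.resB R (_ * t)
    rw [_root_.map_mul, map_pow, ← ht, TwoChart.resB_tmul, pow_add, mul_assoc]
  injB m hm := ⟨0, by
    have : X.resB R (valIn D.JB m) = 0 := congrArg Subtype.val hm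
    rw [pow_zero, one_smul]
    exact Subtype.ext ((locB X R).injective (by simpa using this))⟩

/-- `O(N)(-D)`. -/
abbrev Div.tri (D : Div X R) (hD : D.Invertible) (N : ℕ) : X.Tri R :=
  (D.toTri hD).twist (X.xUnit ^ N)

/-- The twisting function `x ^ N`. -/
abbrev xPow (X : TwoChart k) (R : Type u) [CommRing R] [Algebra k R] (N : ℕ) : R ⊗[k] X.W :=
  ((1 : R) ⊗ₜ[k] algebraMap X.A X.W X.x) ^ N

omit [IsAlgClosed k] [IsDomain R] in
theorem tensorUnit_xPow (N : ℕ) :
    ((X.tensorUnit R (X.xUnit ^ N) : (R ⊗[k] X.W)ˣ) : R ⊗[k] X.W) = xPow X R N := by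
  rw [TwoChart.tensorUnit_val, xPow, Algebra.TensorProduct.tmul_pow, one_pow, Units.val_pow_eq_pow_val]
  rfl

theorem Div.tri_coe_fB (D : Div X R) (hD : D.Invertible) (N : ℕ) (j : D.JB) :
    valIn (D.JA.map (X.resA R)) ((D.tri hD N).fB j) = xPow X R N * X.resB R j := by
  rw [← tensorUnit_xPow]
  rfl

/-- Multiplication identifications between twisted divisors. -/
def triEquiv (D E : Div X R) (hD : D.Invertible) (hE : E.Invertible) (N M : ℕ)
    (aA bA : R ⊗[k] X.A) (aB bB : R ⊗[k] X.B) (haA : aA ≠ 0) (hbA : bA ≠ 0) (haB : aB ≠ 0)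
    (hbB : bB ≠ 0) (hA : Ideal.span {aA} * D.JA = Ideal.span {bA} * E.JA)
    (hB : Ideal.span {aB} * D.JB = Ideal.span {bB} * E.JB)
    (hglue : X.resA R aA * X.resB R bB * xPow X R N =
      X.resA R bA * X.resB R aB * xPow X R M) :
    (D.tri hD N).Equiv (E.tri hE M) where
  eA := scaleEquiv D.JA E.JA aA bA haA hbA hA
  eB := scaleEquiv D.JB E.JB aB bB haB hbB hB
  eW := scaleEquiv (D.JA.map (X.resA R)) (E.JA.map (X.resA R)) (X.resA R aA) (X.resA R bA)
    ((map_ne_zero_iff _ (locA X R).injective).2 haA)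
    ((map_ne_zero_iff _ (locA X R).injective).2 hbA) (by
      have h := congrArg (Ideal.map (X.resA R)) hA
      rwa [Ideal.map_mul, Ideal.map_mul, Ideal.map_span, Ideal.map_span, Set.image_singleton,
        Set.image_singleton] at h)
  commA m := Subtype.ext (mul_left_cancel₀ ((map_ne_zero_iff _ (locA X R).injective).2 hbA) (by
    refine (scaleEquiv_spec _ _ _ _ _ _ _ _).trans ?_
    show X.resA R aA * X.resA R (valIn D.JA m) = X.resA R bA * X.resA R (valIn E.JA _)
    rw [← _root_.map_mul, ← _root_.map_mul]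
    exact congrArg _ (scaleEquiv_spec D.JA E.JA aA bA haA hbA hA m).symm))
  commB m := Subtype.ext (mul_left_cancel₀ ((map_ne_zero_iff _ (locA X R).injective).2 hbA) (by
    refine (scaleEquiv_spec _ _ _ _ _ _ _ _).trans ?_
    show X.resA R aA * valIn (D.JA.map (X.resA R)) ((D.tri hD N).fB m) =
      X.resA R bA * valIn (E.JA.map (X.resA R))
        ((E.tri hE M).fB (scaleEquiv D.JB E.JB aB bB haB hbB hB m))
    rw [Div.tri_coe_fB, Div.tri_coe_fB]
    refine mul_left_cancel₀ ((map_ne_zero_iff _ (locB X R).injective).2 hbB) ?_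
    have h1 : X.resB R bB * X.resB R (valIn E.JB (scaleEquiv D.JB E.JB aB bB haB hbB hB m)) =
        X.resB R aB * X.resB R (valIn D.JB m) := by
      rw [← _root_.map_mul, ← _root_.map_mul]
      exact congrArg _ (scaleEquiv_spec D.JB E.JB aB bB haB hbB hB m)
    linear_combination (X.resB R (valIn D.JB m)) * hglue - (X.resA R bA * xPow X R M) * h1))

omit [IsAlgClosed k] [IsDomain R] in
theorem xPow_baseHom {R' : Type u} [CommRing R'] [Algebra k R'] (φ : R →ₐ[k] R') (N : ℕ) :
    TwoChart.baseHom φ X.W (xPow X R N) = xPow X R' N := by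
  simp [TwoChart.baseHom, xPow, Algebra.TensorProduct.tmul_pow]

omit [IsAlgClosed k] [IsDomain R] in
theorem baseHom_resA {R' : Type u} [CommRing R'] [Algebra k R'] (φ : R →ₐ[k] R')
    (z : R ⊗[k] X.A) : TwoChart.baseHom φ X.W (X.resA R z) = X.resA R' (TwoChart.baseHom φ X.A z) :=
  baseHom_resH (sideA X).iS φ z

omit [IsAlgClosed k] [IsDomain R] in
theorem baseHom_resB {R' : Type u} [CommRing R'] [Algebra k R'] (φ : R →ₐ[k] R')
    (z : R ⊗[k] X.B) : TwoChart.baseHom φ X.W (X.resB R z) = X.resB R' (TwoChart.baseHom φ X.B z) :=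
  baseHom_resH (sideA X).iT φ z

omit [IsAlgClosed k] [IsDomain R] in
theorem Div.map_overlap {R' : Type u} [CommRing R'] [Algebra k R'] (D : Div X R)
    (φ : R →ₐ[k] R') :
    (D.JA.map (X.resA R)).map (TwoChart.baseHom φ X.W) = (D.map φ).JA.map (X.resA R') :=
  (sideA X).map_resH_comm (sideA X).iS φ D.JA

/-- Formation of `O(N)(-D)` commutes with base change. -/
def triPullback {R' : Type u} [CommRing R'] [Algebra k R'] [IsDomain R'] (φ : R →ₐ[k] R')
    (D : Div X R) (hD : D.Invertible) (hD' : (D.map φ).Invertible) (N : ℕ) :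
    TwoChart.Tri.Pullback φ (D.tri hD N) ((D.map φ).tri hD' N) where
  gA := idealMap (TwoChart.baseHom φ X.A) D.JA (D.map φ).JA fun _ hj => Ideal.mem_map_of_mem _ hj
  gB := idealMap (TwoChart.baseHom φ X.B) D.JB (D.map φ).JB fun _ hj => Ideal.mem_map_of_mem _ hj
  gW := idealMap (TwoChart.baseHom φ X.W) (D.JA.map (X.resA R)) ((D.map φ).JA.map (X.resA R'))
    fun _ hj => D.map_overlap φ ▸ Ideal.mem_map_of_mem _ hj
  commA m := Subtype.ext (baseHom_resA φ (valIn D.JA m))
  commB m := Subtype.ext (by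
    show TwoChart.baseHom φ X.W (valIn (D.JA.map (X.resA R)) ((D.tri hD N).fB m)) =
      valIn ((D.map φ).JA.map (X.resA R')) (((D.map φ).tri hD' N).fB
        (idealMap (TwoChart.baseHom φ X.B) D.JB (D.map φ).JB
          (fun _ hj => Ideal.mem_map_of_mem _ hj) m))
    rw [Div.tri_coe_fB, Div.tri_coe_fB, _root_.map_mul, xPow_baseHom, baseHom_resB]
    rfl)
  univA :=
    have := hD.1.invertible
    have := hD'.1.invertible
    isScalarExtension_idealMap _ _ _ _ le_rfl
  univB :=
    have := hD.2.invertible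
    have := hD'.2.invertible
    isScalarExtension_idealMap _ _ _ _ le_rfl
  univW :=
    have := (hD.1.map (locA X R).injective).invertible
    have := (hD'.1.map (locA X R').injective).invertible
    isScalarExtension_idealMap _ _ _ _ (D.map_overlap φ).ge

end Fermat.Agent.Picard.Points
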