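/-
S25 (points): every triple over a field is a twisted pair of ideals.
-/
import Fermat.Agent.Picard.Points.ToTri
import Mathlib.RingTheory.PicardGroup

set_option autoImplicit false

noncomputable section

namespace Fermat.Agent.Picard.Points

open scoped TensorProduct

universe u

/-- An invertible module over a domain embeds into it. -/
theorem exists_embedding {A M : Type u} [CommRing A] [IsDomain A] [AddCommGroup M] [Module A M]
    [Module.Invertible A M] : ∃ g : M →ₗ[A] A, Function.Injective g := by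
  obtain ⟨I, ⟨e⟩⟩ := Module.Invertible.exists_linearEquiv_ideal (R := A) (M := M)
  exact ⟨I.subtype ∘ₗ e.toLinearMap, I.subtype_injective.comp e.injective⟩

/-- A non-zero ideal which is an invertible module is an invertible ideal. -/
theorem InvI.of_invertible {A : Type u} [CommRing A] [IsDomain A] {J : Ideal A}
    [Module.Invertible A J] (h : J ≠ ⊥) : InvI J := by
  obtain ⟨a, haJ, ha⟩ := Submodule.exists_mem_ne_zero_of_ne_bot h
  let ev : Module.Dual A J →ₗ[A] A := LinearMap.applyₗ (⟨a, haJ⟩ : J)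
  refine ⟨LinearMap.range ev, a, ha, le_antisymm ?_ ?_⟩
  · rw [Ideal.mul_le]
    rintro j hj _ ⟨f, rfl⟩
    rw [Ideal.mem_span_singleton]
    refine ⟨f ⟨j, hj⟩, ?_⟩
    have := functional_comm f ⟨a, haJ⟩ ⟨j, hj⟩
    simp only [ev, LinearMap.applyₗ_apply_apply] at this ⊢
    linear_combination this
  · rw [Ideal.span_le, Set.singleton_subset_iff]
    have key : ∀ z : Module.Dual A J ⊗[A] J,
        Module.Invertible.linearEquiv A J z * a ∈ J * LinearMap.range ev := by
      intro z
      induction z using TensorProduct.induction_on with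
      | zero => simp
      | tmul f j =>
        have h1 : Module.Invertible.linearEquiv A J (f ⊗ₜ[A] j) = f j := rfl
        rw [h1, show f j * a = (j : A) * f ⟨a, haJ⟩ by
          have := functional_comm f ⟨a, haJ⟩ j; linear_combination -this]
        exact Ideal.mul_mem_mul j.2 ⟨f, rfl⟩
      | add x y hx hy => rw [map_add, add_mul]; exact add_mem hx hy
    simpa using key ((Module.Invertible.linearEquiv A J).symm 1)

variable {k : Type u} [Field k] [IsAlgClosed k] {X : TwoChart k}
variable {R : Type u} [CommRing R] [Algebra k R] [IsDomain R]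

omit [IsAlgClosed k] [IsDomain R] in
theorem exists_clear {S W M : Type u} [CommRing S] [CommRing W] [AddCommGroup M] [Module S M]
    [Module.Finite S M] {f : S →+* W} {s : S} (h : IsChartLoc f s) (g : M →ₛₗ[f] W) :
    ∃ n : ℕ, ∀ m, ∃ t, f t = f s ^ n * g m := by
  obtain ⟨T, hT⟩ := Module.Finite.fg_top (R := S) (M := M)
  have key : ∀ m ∈ Submodule.span S (T : Set M),
      ∃ n : ℕ, ∀ n' ≥ n, ∃ t, f t = f s ^ n' * g m := by
    intro m hm
    induction hm using Submodule.span_induction with
    | mem x _ =>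
      obtain ⟨n, t, ht⟩ := h.surj (g x)
      refine ⟨n, fun n' hn' => ⟨s ^ (n' - n) * t, ?_⟩⟩
      rw [map_mul, map_pow, ← ht, ← mul_assoc, ← pow_add, Nat.sub_add_cancel hn']
    | zero => exact ⟨0, fun _ _ => ⟨0, by simp⟩⟩
    | add x y _ _ hx hy =>
      obtain ⟨n, hn⟩ := hx
      obtain ⟨n', hn'⟩ := hy
      refine ⟨max n n', fun p hp => ?_⟩
      obtain ⟨t, ht⟩ := hn p (le_of_max_le_left hp)
      obtain ⟨t', ht'⟩ := hn' p (le_of_max_le_right hp)
      exact ⟨t + t', by rw [map_add, ht, ht', map_add, mul_add]⟩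
    | smul c x _ hx =>
      obtain ⟨n, hn⟩ := hx
      refine ⟨n, fun p hp => ?_⟩
      obtain ⟨t, ht⟩ := hn p hp
      exact ⟨c * t, by rw [map_mul, ht, map_smulₛₗ, smul_eq_mul, mul_left_comm]⟩
  classical
  choose n hn using fun x : T => key x.1 (Submodule.subset_span x.2)
  refine ⟨Finset.univ.sup n, fun m => ?_⟩
  have hm : m ∈ Submodule.span S (T : Set M) := by rw [hT]; trivial
  induction hm using Submodule.span_induction with
  | mem x hx => exact hn ⟨x, hx⟩ _ (Finset.le_sup (f := n) (Finset.mem_univ _))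
  | zero => exact ⟨0, by simp⟩
  | add x y _ _ hx hy =>
    obtain ⟨t, ht⟩ := hx
    obtain ⟨t', ht'⟩ := hy
    exact ⟨t + t', by rw [map_add, ht, ht', map_add, mul_add]⟩
  | smul c x _ hx =>
    obtain ⟨t, ht⟩ := hx
    exact ⟨c * t, by rw [map_mul, ht, map_smulₛₗ, smul_eq_mul, mul_left_comm]⟩

omit [IsAlgClosed k] [IsDomain R] in
/-- A semilinear injection lifting along an injective ring map. -/
theorem exists_lift {S W M : Type u} [CommRing S] [CommRing W] [AddCommGroup M] [Module S M]
    {f : S →+* W} (hf : Function.Injective f) (g : M →ₛₗ[f] W) (hg : Function.Injective g)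
    (h : ∀ m, ∃ t, f t = g m) : ∃ a : M →ₗ[S] S, Function.Injective a ∧ ∀ m, f (a m) = g m := by
  choose t ht using h
  refine ⟨{ toFun := t, map_add' := fun x y => hf ?_, map_smul' := fun c x => hf ?_ },
    fun x y hxy => hg (by rw [← ht x, ← ht y]; exact congrArg f hxy), ht⟩
  · rw [map_add f, ht, ht, ht, map_add]
  · rw [RingHom.id_apply, smul_eq_mul, map_mul, ht, ht, map_smulₛₗ, smul_eq_mul]

omit [IsAlgClosed k] in
theorem nontrivial_of_invertible (L : X.Tri R) : ∃ m : L.MA, m ≠ 0 := by
  by_contra h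
  push Not at h
  have : Subsingleton L.MA := ⟨fun a b => by rw [h a, h b]⟩
  have : Subsingleton (Module.Dual (R ⊗[k] X.A) L.MA ⊗[R ⊗[k] X.A] L.MA) :=
    subsingleton_of_forall_eq 0 fun z => by
      induction z using TensorProduct.induction_on with
      | zero => rfl
      | tmul f m => rw [h m, TensorProduct.tmul_zero]
      | add x y hx hy => rw [hx, hy, add_zero]
  have h1 := (Module.Invertible.linearEquiv (R ⊗[k] X.A) L.MA).symm.injective
    (Subsingleton.elim ((Module.Invertible.linearEquiv (R ⊗[k] X.A) L.MA).symm 1)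
      ((Module.Invertible.linearEquiv (R ⊗[k] X.A) L.MA).symm 0))
  exact one_ne_zero h1

/-- Every triple is `O(N)(-D)` for some divisor `D`. -/
theorem exists_div (L : X.Tri R) :
    ∃ (D : Div X R) (hD : D.Invertible) (N : ℕ), Nonempty (L.Equiv (D.tri hD N)) := by
  have hWdom := isDomain_W X
  obtain ⟨g, hg⟩ := exists_embedding (A := R ⊗[k] X.W) (M := L.MW)
  obtain ⟨n, hn⟩ := exists_clear (locA X R) (g.comp L.fA)
  set u : R ⊗[k] X.W := X.resA R ((1 : R) ⊗ₜ[k] X.x) ^ n with hu
  have huu : IsUnit u := (locA X R).isUnit.pow n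
  set g' : L.MW →ₗ[R ⊗[k] X.W] R ⊗[k] X.W := u • g with hg'
  have hg'inj : Function.Injective g' := fun a b h => hg (huu.mul_left_cancel h)
  have hA : ∀ m, ∃ t, X.resA R t = (g'.comp L.fA) m := fun m => by
    obtain ⟨t, ht⟩ := hn m; exact ⟨t, ht⟩
  obtain ⟨p, hp⟩ := exists_clear (locB X R) (g'.comp L.fB)
  set v : R ⊗[k] X.W := X.resB R ((1 : R) ⊗ₜ[k] X.y) ^ p with hv
  have hvu : v * xPow X R p = 1 := by
    rw [hv, xPow, TwoChart.resB_tmul, ← mul_pow, Algebra.TensorProduct.tmul_mul_tmul, one_mul,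
      mul_comm, X.x_mul_y, ← Algebra.TensorProduct.one_def, one_pow]
  have hvunit : IsUnit v := IsUnit.of_mul_eq_one _ hvu
  have hB : ∀ m, ∃ t, X.resB R t = ((v • g').comp L.fB) m := fun m => by
    obtain ⟨t, ht⟩ := hp m; exact ⟨t, ht⟩
  obtain ⟨a, hainj, ha⟩ := exists_lift (locA X R).injective (g'.comp L.fA)
    (hg'inj.comp L.fA_injective) hA
  obtain ⟨b, hbinj, hb⟩ := exists_lift (locB X R).injective ((v • g').comp L.fB)
    (fun x y h => L.fB_injective (hg'inj (hvunit.mul_left_cancel h))) hB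
  have ha' : ∀ m, X.resA R (a m) = g' (L.fA m) := ha
  have hb' : ∀ m, X.resB R (b m) * xPow X R p = g' (L.fB m) := fun m => by
    rw [hb m]
    show v * g' (L.fB m) * xPow X R p = g' (L.fB m)
    rw [mul_right_comm, hvu, one_mul]
  have hxp : IsUnit (xPow X R p) := IsUnit.of_mul_eq_one v (by rw [mul_comm]; exact hvu)
  have hrange : ∀ z, g' z ∈ Ideal.map (X.resA R) (LinearMap.range a) := by
    intro z
    obtain ⟨q, m, hm⟩ := L.surjA z
    have h1 := Ideal.mem_map_of_mem (X.resA R) (LinearMap.mem_range_self a m)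
    rw [ha', ← hm, map_smul, smul_eq_mul] at h1
    have hxu : IsUnit (((1 : R) ⊗ₜ[k] algebraMap X.A X.W X.x) ^ q) := by
      have := (locA X R).isUnit.pow q
      rwa [TwoChart.resA_tmul] at this
    exact (Ideal.unit_mul_mem_iff_mem _ hxu).1 h1
  have hrange' : ∀ z, g' z ∈ Ideal.map (X.resB R) (LinearMap.range b) := by
    intro z
    obtain ⟨q, m, hm⟩ := L.surjB z
    have h1 := Ideal.mul_mem_right (xPow X R p) _
      (Ideal.mem_map_of_mem (X.resB R) (LinearMap.mem_range_self b m))
    rw [hb', ← hm, map_smul, smul_eq_mul] at h1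
    have hxu : IsUnit (((1 : R) ⊗ₜ[k] algebraMap X.B X.W X.y) ^ q) := by
      have := (locB X R).isUnit.pow q
      rwa [TwoChart.resB_tmul] at this
    exact (Ideal.unit_mul_mem_iff_mem _ hxu).1 h1
  have hleA : Ideal.map (X.resA R) (LinearMap.range a) ≤ LinearMap.range g' :=
    Ideal.map_le_iff_le_comap.2 (by rintro _ ⟨m, rfl⟩; exact ⟨L.fA m, (ha' m).symm⟩)
  have hleB : Ideal.map (X.resB R) (LinearMap.range b) ≤ LinearMap.range g' :=
    Ideal.map_le_iff_le_comap.2 (by
      rintro _ ⟨m, rfl⟩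
      rw [Ideal.mem_comap]
      refine (Ideal.unit_mul_mem_iff_mem (LinearMap.range g') hxp).1 ?_
      rw [mul_comm, hb']
      exact LinearMap.mem_range_self g' _)
  have hW : LinearMap.range g' = Ideal.map (X.resA R) (LinearMap.range a) :=
    le_antisymm (by rintro _ ⟨z, rfl⟩; exact hrange z) hleA
  let D : Div X R := ⟨LinearMap.range a, LinearMap.range b, by
    refine le_antisymm (hleA.trans ?_) (hleB.trans hW.le)
    rintro _ ⟨z, rfl⟩
    exact hrange' z⟩
  have hbot : D.JA ≠ ⊥ := by
    obtain ⟨m, hm⟩ := nontrivial_of_invertible L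
    intro h0
    have : a m ∈ D.JA := LinearMap.mem_range_self a m
    rw [h0, Ideal.mem_bot] at this
    exact hm (hainj (by rw [this, map_zero]))
  have hWbot : D.JA.map (X.resA R) ≠ ⊥ := by
    rw [Ne, Ideal.map_eq_bot_iff_of_injective (locA X R).injective]
    exact hbot
  have hD : D.Invertible :=
    ⟨have : Module.Invertible (R ⊗[k] X.A) D.JA := Module.Invertible.congr (LinearEquiv.ofInjective a hainj)
     InvI.of_invertible hbot,
     have : Module.Invertible (R ⊗[k] X.B) D.JB := Module.Invertible.congr (LinearEquiv.ofInjective b hbinj)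
     InvI.of_invertible fun h0 => hWbot (by rw [D.compat, h0, Ideal.map_bot])⟩
  refine ⟨D, hD, p, ⟨{
    eA := LinearEquiv.ofInjective a hainj
    eB := LinearEquiv.ofInjective b hbinj
    eW := (LinearEquiv.ofInjective g' hg'inj).trans (LinearEquiv.ofEq _ _ hW)
    commA := fun m => Subtype.ext (ha' m).symm
    commB := fun m => Subtype.ext ?_ }⟩⟩
  show g' (L.fB m) = valIn (D.JA.map (X.resA R))
    ((D.tri hD p).fB (LinearEquiv.ofInjective b hbinj m))
  rw [Div.tri_coe_fB, ← hb', mul_comm]
  rfl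

end Fermat.Agent.Picard.Points
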