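/-
S25 (points): the Euler characteristic of twisted divisors over a field drops by one per point.
-/
import Fermat.Agent.Picard.Points.ToTri
import Mathlib.Algebra.Module.LinearMap.Index

set_option autoImplicit false

noncomputable section

namespace Fermat.Agent.Picard.Points

open scoped TensorProduct
open Module

universe u

variable {k : Type u} [Field k] [IsAlgClosed k] {X : TwoChart k}
variable {K : Type u} [Field K] [Algebra k K]

instance finite_ker_diff (L : X.Tri K) : Module.Finite K (LinearMap.ker L.diff) := by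
  obtain ⟨B₀, hB⟩ := L.isTwoChart.exists_degree_bound L.coordA L.coordB.gen L.coordB.span_gen
  have : Module.Finite K (L.coordA.degreeLE B₀) :=
    Module.Finite.iff_fg.mpr (L.coordA.degreeLE_fg B₀)
  have hmem : ∀ z : LinearMap.ker L.diff, L.fA z.1.1 = L.fB z.1.2 := fun z => by
    have := LinearMap.mem_ker.1 z.2
    rwa [← Prod.mk.eta (p := z.1), TwoChart.Tri.diff_apply, sub_eq_zero] at this
  let f : LinearMap.ker L.diff →ₗ[K] L.coordA.degreeLE B₀ :=
    LinearMap.codRestrict _ (LinearMap.fst K L.MA L.MB ∘ₗ (LinearMap.ker L.diff).subtype)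
      fun z => hB _ _ (hmem z)
  refine FiniteDimensional.of_injective f fun z w h => ?_
  have h1 : z.1.1 = w.1.1 := congrArg Subtype.val h
  have h2 : z.1.2 = w.1.2 := L.fB_injective (by rw [← hmem z, ← hmem w, h1])
  exact Subtype.ext (Prod.ext h1 h2)

instance finite_coker_diff (L : X.Tri K) : Module.Finite K (L.MW ⧸ LinearMap.range L.diff) :=
  L.finite_coker

/-- The Euler characteristic of a triple over a field. -/
def euler (L : X.Tri K) : ℤ := L.diff.index

omit [IsAlgClosed k] in
theorem euler_congr {L L' : X.Tri K} (e : L.Equiv L') : euler L = euler L' := by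
  let eA : L.MA ≃ₗ[K] L'.MA :=
    { e.eA with
      map_smul' := fun r m => by
        show e.eA (r • m) = r • e.eA m
        rw [← algebraMap_smul (K ⊗[k] X.A) r m, map_smul, algebraMap_smul] }
  let eB : L.MB ≃ₗ[K] L'.MB :=
    { e.eB with
      map_smul' := fun r m => by
        show e.eB (r • m) = r • e.eB m
        rw [← algebraMap_smul (K ⊗[k] X.B) r m, map_smul, algebraMap_smul] }
  let eW : L.MW ≃ₗ[K] L'.MW :=
    { e.eW with
      map_smul' := fun r m => by
        show e.eW (r • m) = r • e.eW m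
        rw [← algebraMap_smul (K ⊗[k] X.W) r m, map_smul, algebraMap_smul] }
  let ι : (L.MA × L.MB) ≃ₗ[K] (L'.MA × L'.MB) := eA.prodCongr eB
  have : L'.diff ∘ₗ ι.toLinearMap = eW.toLinearMap ∘ₗ L.diff := LinearMap.ext fun z => by
    obtain ⟨a, b⟩ := z
    show L'.diff (e.eA a, e.eB b) = e.eW (L.diff (a, b))
    rw [TwoChart.Tri.diff_apply, TwoChart.Tri.diff_apply, map_sub, e.commA, e.commB]
  have h := congrArg LinearMap.index this
  have : FiniteDimensional K (LinearMap.ker ι.toLinearMap) := by rw [LinearEquiv.ker]; infer_instance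
  have : FiniteDimensional K (LinearMap.ker eW.toLinearMap) := by rw [LinearEquiv.ker]; infer_instance
  have : FiniteDimensional K ((L'.MA × L'.MB) ⧸ LinearMap.range ι.toLinearMap) := by
    rw [LinearEquiv.range]; infer_instance
  have : FiniteDimensional K (L'.MW ⧸ LinearMap.range eW.toLinearMap) := by
    rw [LinearEquiv.range]; infer_instance
  rw [LinearMap.index_comp, LinearMap.index_comp, LinearEquiv.index_eq_zero,
    LinearEquiv.index_eq_zero] at h
  simpa [euler] using h.symm

section Index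

variable {F : Type u} [Field F] {V V' Q : Type u} [AddCommGroup V] [Module F V] [AddCommGroup V']
  [Module F V'] [AddCommGroup Q] [Module F Q] [FiniteDimensional F Q]

theorem index_of_exact {ι : V →ₗ[F] V'} (hι : Function.Injective ι) (ψ : V' →ₗ[F] Q)
    (hψ : Function.Surjective ψ) (h : LinearMap.range ι = LinearMap.ker ψ) :
    FiniteDimensional F (V' ⧸ LinearMap.range ι) ∧ ι.index = -(finrank F Q : ℤ) := by
  let e : (V' ⧸ LinearMap.range ι) ≃ₗ[F] Q :=
    (Submodule.quotEquivOfEq _ _ h).trans (ψ.quotKerEquivOfSurjective hψ)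
  exact ⟨Module.Finite.equiv e.symm, by rw [LinearMap.index_of_injective hι, e.finrank_eq]⟩

end Index

section Step

variable {S : Type u} [CommRing S] [IsDomain S] [Algebra K S]

/-- An invertible ideal has a one-dimensional fibre at a rational point. -/
theorem exists_fibre_functional {J : Ideal S} (hJ : InvI J) (ev : S →ₐ[K] K) :
    ∃ ψ : J → K, (∀ a b, ψ (a + b) = ψ a + ψ b) ∧
      (∀ (r : K) (a b : J), (b : S) = algebraMap K S r * a → ψ b = r * ψ a) ∧
      (∀ r : K, ∃ a, ψ a = r) ∧ ∀ a, ψ a = 0 ↔ (a : S) ∈ RingHom.ker ev.toRingHom * J := by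
  obtain ⟨f, j₀, hf⟩ := hJ.exists_functional (RingHom.ker_ne_top ev.toRingHom)
  have hf' : ev (f j₀) ≠ 0 := hf
  refine ⟨fun a => ev (f a), fun a b => by simp, fun r a b h => ?_, fun r => ?_, fun a => ⟨?_, ?_⟩⟩
  · have : b = algebraMap K S r • a := Subtype.ext h
    simp [this]
  · exact ⟨algebraMap K S (r / ev (f j₀)) • j₀, by simp [hf']⟩
  · intro ha
    exact InvI.mem_mul_of_functional f j₀ (w := algebraMap K S (ev (f j₀))⁻¹)
      (by simp [RingHom.mem_ker, hf']) a ha
  · intro ha
    have key : ∀ z (hz : z ∈ RingHom.ker ev.toRingHom * J),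
        ev (f ⟨z, Ideal.mul_le_right hz⟩) = 0 := by
      intro z hz
      induction hz using Submodule.mul_induction_on' with
      | mem_mul_mem i hi j hj =>
        have : (⟨i * j, Ideal.mul_le_right (Ideal.mul_mem_mul hi hj)⟩ : J) = i • ⟨j, hj⟩ := rfl
        rw [this, map_smul, smul_eq_mul, map_mul, show ev i = 0 from hi, zero_mul]
      | add x hx y hy ihx ihy =>
        have : (⟨x + y, Ideal.mul_le_right (add_mem hx hy)⟩ : J) =
            ⟨x, Ideal.mul_le_right hx⟩ + ⟨y, Ideal.mul_le_right hy⟩ := rfl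
        rw [this, map_add, map_add, ihx, ihy, add_zero]
    exact key _ ha

end Step

omit [IsAlgClosed k] in
theorem ker_secEval {S : Type u} [CommRing S] [Algebra k S] (σ : S →ₐ[k] K) :
    RingHom.ker (secEval σ).toRingHom = secIdeal σ := by
  ext z
  rw [mem_secIdeal_iff]
  rfl

/-- Membership of an element of an ideal. -/
theorem valIn_mem {S : Type u} [CommRing S] (J : Ideal S) (j : J) : valIn J j ∈ J := j.2

/-- An inclusion of divisors as a map of triples. -/
def inclMap {S : Type u} [CommRing S] {J J' : Ideal S} (h : J' ≤ J) : J' →ₗ[S] J :=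
  Submodule.inclusion h

variable (D P : Div X K) (hD : D.Invertible) (hP : P.Invertible) (N : ℕ)

/-- `O(-D-P) → O(-D)` on the first chart. -/
def inclA : ((P * D).tri (hP.mul hD) N).MA →ₗ[K] (D.tri hD N).MA where
  toFun j := ⟨valIn (P.JA * D.JA) j, Ideal.mul_le_right (valIn_mem (P.JA * D.JA) j)⟩
  map_add' _ _ := rfl
  map_smul' _ _ := rfl

/-- `O(-D-P) → O(-D)` on the second chart. -/
def inclB : ((P * D).tri (hP.mul hD) N).MB →ₗ[K] (D.tri hD N).MB where
  toFun j := ⟨valIn (P.JB * D.JB) j, Ideal.mul_le_right (valIn_mem (P.JB * D.JB) j)⟩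
  map_add' _ _ := rfl
  map_smul' _ _ := rfl

omit [IsAlgClosed k] in
theorem map_mul_le : ((P * D).JA.map (X.resA K)) ≤ D.JA.map (X.resA K) :=
  Ideal.map_mono Ideal.mul_le_right

/-- `O(-D-P) → O(-D)` on the overlap. -/
def inclW : ((P * D).tri (hP.mul hD) N).MW →ₗ[K] (D.tri hD N).MW where
  toFun j := ⟨valIn ((P * D).JA.map (X.resA K)) j,
    map_mul_le D P (valIn_mem ((P * D).JA.map (X.resA K)) j)⟩
  map_add' _ _ := rfl
  map_smul' _ _ := rfl

theorem euler_mul_of_index {a b w : ℕ}
    (hA : ∃ ψ : (D.tri hD N).MA →ₗ[K] (Fin a → K), Function.Surjective ψ ∧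
      LinearMap.range (inclA D P hD hP N) = LinearMap.ker ψ)
    (hB : ∃ ψ : (D.tri hD N).MB →ₗ[K] (Fin b → K), Function.Surjective ψ ∧
      LinearMap.range (inclB D P hD hP N) = LinearMap.ker ψ)
    (hW : ∃ ψ : (D.tri hD N).MW →ₗ[K] (Fin w → K), Function.Surjective ψ ∧
      LinearMap.range (inclW D P hD hP N) = LinearMap.ker ψ) :
    euler ((P * D).tri (hP.mul hD) N) = euler (D.tri hD N) - a - b + w := by
  obtain ⟨ψA, hsA, hkA⟩ := hA
  obtain ⟨ψB, hsB, hkB⟩ := hB
  obtain ⟨ψW, hsW, hkW⟩ := hW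
  have iA : Function.Injective (inclA D P hD hP N) := fun x y h =>
    Subtype.ext (congrArg (valIn D.JA) h)
  have iB : Function.Injective (inclB D P hD hP N) := fun x y h =>
    Subtype.ext (congrArg (valIn D.JB) h)
  have iW : Function.Injective (inclW D P hD hP N) := fun x y h =>
    Subtype.ext (congrArg (valIn (D.JA.map (X.resA K))) h)
  let ι : ((P * D).tri (hP.mul hD) N).MA × ((P * D).tri (hP.mul hD) N).MB →ₗ[K]
      (D.tri hD N).MA × (D.tri hD N).MB := (inclA D P hD hP N).prodMap (inclB D P hD hP N)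
  have hι : Function.Injective ι := iA.prodMap iB
  obtain ⟨fι, hindι⟩ := index_of_exact hι (ψA.prodMap ψB) (hsA.prodMap hsB) (by
    rw [LinearMap.range_prodMap, LinearMap.ker_prodMap, hkA, hkB])
  obtain ⟨fW, hindW⟩ := index_of_exact iW ψW hsW hkW
  have hcomm : (D.tri hD N).diff ∘ₗ ι =
      inclW D P hD hP N ∘ₗ ((P * D).tri (hP.mul hD) N).diff := LinearMap.ext fun z => by
    obtain ⟨x, y⟩ := z
    show (D.tri hD N).diff (inclA D P hD hP N x, inclB D P hD hP N y) =
      inclW D P hD hP N (((P * D).tri (hP.mul hD) N).diff (x, y))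
    rw [TwoChart.Tri.diff_apply, TwoChart.Tri.diff_apply]
    rfl
  have := fι
  have := fW
  have : FiniteDimensional K (LinearMap.ker ι) := by
    rw [LinearMap.ker_eq_bot.2 hι]; infer_instance
  have : FiniteDimensional K (LinearMap.ker (inclW D P hD hP N)) := by
    rw [LinearMap.ker_eq_bot.2 iW]; infer_instance
  have h := congrArg LinearMap.index hcomm
  rw [LinearMap.index_comp, LinearMap.index_comp, hindι, hindW] at h
  simp only [finrank_prod, finrank_fintype_fun_eq_card, Fintype.card_fin] at h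
  push_cast at h
  unfold euler
  linarith

variable {S : Type u} [CommRing S] [Algebra k S] [IsDomain (K ⊗[k] S)]

omit [IsAlgClosed k] in
/-- The fibre at a point as a linear map. -/
theorem exists_fibre_linear {M : Type u} [AddCommGroup M] [Module K M] {M' : Type u}
    [AddCommGroup M'] [Module K M'] (J : Ideal (K ⊗[k] S)) (hJ : InvI J) (σ : S →ₐ[k] K)
    (toJ : M →+ J) (hbij : Function.Bijective toJ)
    (hsmul : ∀ (r : K) (m : M), (toJ (r • m) : K ⊗[k] S) = algebraMap K _ r * toJ m)
    (ι : M' →ₗ[K] M)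
    (hι : ∀ m, m ∈ LinearMap.range ι ↔ (toJ m : K ⊗[k] S) ∈ secIdeal σ * J) :
    ∃ ψ : M →ₗ[K] (Fin 1 → K), Function.Surjective ψ ∧ LinearMap.range ι = LinearMap.ker ψ := by
  obtain ⟨ψ, hadd, hsm, hsurj, hker⟩ := exists_fibre_functional hJ (secEval σ)
  refine ⟨{ toFun := fun m _ => ψ (toJ m), map_add' := fun x y => ?_, map_smul' := fun r x => ?_ },
    fun v => ?_, ?_⟩
  · funext i
    simp only [map_add, hadd, Pi.add_apply]
  · funext i
    exact hsm r (toJ x) (toJ (r • x)) (hsmul r x)
  · obtain ⟨a, ha⟩ := hsurj (v 0)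
    obtain ⟨m, rfl⟩ := hbij.2 a
    exact ⟨m, funext fun i => by rw [Fin.eq_zero i]; exact ha⟩
  · ext m
    rw [LinearMap.mem_ker, hι, ← ker_secEval, ← hker]
    exact ⟨fun h => funext fun _ => h, fun h => congrFun h 0⟩

omit [IsAlgClosed k] in
theorem exists_zero_fibre {M : Type u} [AddCommGroup M] [Module K M] {M' : Type u}
    [AddCommGroup M'] [Module K M'] (ι : M' →ₗ[K] M) (h : Function.Surjective ι) :
    ∃ ψ : M →ₗ[K] (Fin 0 → K), Function.Surjective ψ ∧ LinearMap.range ι = LinearMap.ker ψ :=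
  ⟨0, fun v => ⟨0, Subsingleton.elim _ _⟩, by
    rw [LinearMap.ker_zero, LinearMap.range_eq_top.2 h]⟩

end Fermat.Agent.Picard.Points
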