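/-
S25 (points): one point drops the Euler characteristic by one; every effective divisor over an
algebraically closed field is a sum of points.
-/
import Fermat.Agent.Picard.Points.Chi

set_option autoImplicit false

noncomputable section

namespace Fermat.Agent.Picard.Points

open scoped TensorProduct

universe u

variable {k : Type u} [Field k] [IsAlgClosed k] {X : TwoChart k}
variable {K : Type u} [Field K] [Algebra k K]

omit [IsAlgClosed k] in
/-- A point either lies on the overlap or at a zero of the chart coordinate. -/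
theorem exists_overlap_point {S W : Type u} [CommRing S] [Algebra k S] [CommRing W] [Algebra k W]
    [Algebra S W] [IsScalarTower k S W] (s : S) [IsLocalization.Away s W] (σ : S →ₐ[k] K)
    (h : σ s ≠ 0) : ∃ ω : W →ₐ[k] K, ω.comp (IsScalarTower.toAlgHom k S W) = σ := by
  have hu : IsUnit (σ.toRingHom s) := (isUnit_iff_ne_zero).2 h
  refine ⟨{ IsLocalization.Away.lift (S := W) s hu with commutes' := fun c => ?_ }, ?_⟩
  · show IsLocalization.Away.lift (S := W) s hu (algebraMap k W c) = _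
    rw [IsScalarTower.algebraMap_apply k S W, IsLocalization.Away.lift_eq]
    exact σ.commutes c
  · ext a
    exact IsLocalization.Away.lift_eq s hu a

omit [IsAlgClosed k] in
/-- Trichotomy for points. -/
theorem pt_cases (P : Pt X K) :
    (∃ ω : X.W →ₐ[k] K, ptDiv P = ptA (X := X) (ω.comp (IsScalarTower.toAlgHom k X.A X.W))) ∨
      (∃ σ : X.A →ₐ[k] K, σ X.x = 0 ∧ ptDiv P = ptA σ) ∨
      (∃ σ : X.B →ₐ[k] K, σ X.y = 0 ∧ ptDiv P = ptB σ) := by
  rcases P with σ | σ
  · by_cases h : σ X.x = 0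
    · exact Or.inr (Or.inl ⟨σ, h, rfl⟩)
    · obtain ⟨ω, hω⟩ := exists_overlap_point (W := X.W) X.x σ h
      exact Or.inl ⟨ω, by rw [hω]; rfl⟩
  · by_cases h : σ X.y = 0
    · exact Or.inr (Or.inr ⟨σ, h, rfl⟩)
    · obtain ⟨ω, hω⟩ := exists_overlap_point (W := X.W) X.y σ h
      exact Or.inl ⟨ω, by rw [ptA_eq_ptB, hω]; rfl⟩

omit [IsAlgClosed k] in
theorem other_eq_top (P : Sides k) (σ : P.S →ₐ[k] K) (h : σ P.s = 0) : P.other σ = ⊤ := by
  refine (Ideal.eq_top_iff_one _).2 ?_
  have hm := P.wit_mem_other σ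
  rwa [Sides.wit, h, TensorProduct.zero_tmul, sub_zero] at hm

omit [IsAlgClosed k] in
theorem ptA_JB_eq_top (σ : X.A →ₐ[k] K) (h : σ X.x = 0) : (ptA (X := X) σ).JB = ⊤ :=
  other_eq_top (sideA X) σ h

omit [IsAlgClosed k] in
theorem ptB_JA_eq_top (σ : X.B →ₐ[k] K) (h : σ X.y = 0) : (ptB (X := X) σ).JA = ⊤ :=
  other_eq_top (sideB X) σ h

variable (D P : Div X K) (hD : D.Invertible) (hP : P.Invertible) (N : ℕ)

theorem fibreA (σ : X.A →ₐ[k] K) (hσ : P.JA = secIdeal σ) :
    ∃ ψ : (D.tri hD N).MA →ₗ[K] (Fin 1 → K), Function.Surjective ψ ∧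
      LinearMap.range (inclA D P hD hP N) = LinearMap.ker ψ := by
  refine exists_fibre_linear (M := (D.tri hD N).MA) D.JA hD.1 σ ⟨⟨fun m => m, rfl⟩, fun _ _ => rfl⟩
    Function.bijective_id (fun _ _ => rfl) _ fun m => ⟨?_, fun h => ?_⟩
  · rintro ⟨j, rfl⟩
    have := valIn_mem (P.JA * D.JA) j
    rw [← hσ]
    exact this
  · rw [← hσ] at h
    exact ⟨⟨_, h⟩, rfl⟩

theorem fibreB (σ : X.B →ₐ[k] K) (hσ : P.JB = secIdeal σ) :
    ∃ ψ : (D.tri hD N).MB →ₗ[K] (Fin 1 → K), Function.Surjective ψ ∧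
      LinearMap.range (inclB D P hD hP N) = LinearMap.ker ψ := by
  refine exists_fibre_linear (M := (D.tri hD N).MB) D.JB hD.2 σ ⟨⟨fun m => m, rfl⟩, fun _ _ => rfl⟩
    Function.bijective_id (fun _ _ => rfl) _ fun m => ⟨?_, fun h => ?_⟩
  · rintro ⟨j, rfl⟩
    have := valIn_mem (P.JB * D.JB) j
    rw [← hσ]
    exact this
  · rw [← hσ] at h
    exact ⟨⟨_, h⟩, rfl⟩

theorem fibreW (ω : X.W →ₐ[k] K) (hω : P.JA.map (X.resA K) = secIdeal ω) :
    ∃ ψ : (D.tri hD N).MW →ₗ[K] (Fin 1 → K), Function.Surjective ψ ∧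
      LinearMap.range (inclW D P hD hP N) = LinearMap.ker ψ := by
  have := isDomain_W X
  refine exists_fibre_linear (M := (D.tri hD N).MW) (D.JA.map (X.resA K)) (hD.1.map (locA X K).injective) ω
    ⟨⟨fun m => m, rfl⟩, fun _ _ => rfl⟩
    Function.bijective_id (fun _ _ => rfl) _ fun m => ⟨?_, fun h => ?_⟩
  · rintro ⟨j, rfl⟩
    have := valIn_mem ((P * D).JA.map (X.resA K)) j
    rw [← hω, ← Ideal.map_mul]
    exact this
  · rw [← hω, ← Ideal.map_mul] at h
    exact ⟨⟨_, h⟩, rfl⟩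

theorem noFibreA (h : P.JA = ⊤) :
    ∃ ψ : (D.tri hD N).MA →ₗ[K] (Fin 0 → K), Function.Surjective ψ ∧
      LinearMap.range (inclA D P hD hP N) = LinearMap.ker ψ := by
  refine exists_zero_fibre _ fun m => ?_
  have hm : valIn D.JA m ∈ P.JA * D.JA := by rw [h, Ideal.top_mul]; exact valIn_mem D.JA m
  exact ⟨⟨_, hm⟩, rfl⟩

theorem noFibreB (h : P.JB = ⊤) :
    ∃ ψ : (D.tri hD N).MB →ₗ[K] (Fin 0 → K), Function.Surjective ψ ∧
      LinearMap.range (inclB D P hD hP N) = LinearMap.ker ψ := by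
  refine exists_zero_fibre _ fun m => ?_
  have hm : valIn D.JB m ∈ P.JB * D.JB := by rw [h, Ideal.top_mul]; exact valIn_mem D.JB m
  exact ⟨⟨_, hm⟩, rfl⟩

theorem noFibreW (h : P.JA.map (X.resA K) = ⊤) :
    ∃ ψ : (D.tri hD N).MW →ₗ[K] (Fin 0 → K), Function.Surjective ψ ∧
      LinearMap.range (inclW D P hD hP N) = LinearMap.ker ψ := by
  refine exists_zero_fibre _ fun m => ?_
  have hm : valIn (D.JA.map (X.resA K)) m ∈ (P * D).JA.map (X.resA K) := by
    rw [Div.mul_JA, Ideal.map_mul, h, Ideal.top_mul]; exact valIn_mem (D.JA.map (X.resA K)) m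
  exact ⟨⟨_, hm⟩, rfl⟩

variable {D P}

theorem euler_pt (Q : Pt X K) :
    euler ((ptDiv Q * D).tri ((ptDiv_invertible Q).mul hD) N) = euler (D.tri hD N) - 1 := by
  rcases pt_cases Q with ⟨ω, h⟩ | ⟨σ, h0, h⟩ | ⟨σ, h0, h⟩
  · have hW : (ptDiv Q).JA.map (X.resA K) = secIdeal ω := by
      rw [h]; exact Sides.map_secIdeal_overlap (sideA X).locS ω
    have hB : (ptDiv Q).JB = secIdeal (ω.comp (IsScalarTower.toAlgHom k X.B X.W)) := by
      rw [h, ptA_eq_ptB]; rfl
    rw [euler_mul_of_index D _ hD (ptDiv_invertible Q) N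
      (fibreA D _ hD (ptDiv_invertible Q) N _ (by rw [h]; rfl))
      (fibreB D _ hD (ptDiv_invertible Q) N _ hB) (fibreW D _ hD (ptDiv_invertible Q) N ω hW)]
    push_cast; ring
  · have hW : (ptDiv Q).JA.map (X.resA K) = ⊤ := by
      rw [(ptDiv Q).compat, h, ptA_JB_eq_top σ h0, Ideal.map_top]
    rw [euler_mul_of_index D _ hD (ptDiv_invertible Q) N
      (fibreA D _ hD (ptDiv_invertible Q) N σ (by rw [h]; rfl))
      (noFibreB D _ hD (ptDiv_invertible Q) N (by rw [h]; exact ptA_JB_eq_top σ h0))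
      (noFibreW D _ hD (ptDiv_invertible Q) N hW)]
    push_cast; ring
  · have hW : (ptDiv Q).JA.map (X.resA K) = ⊤ := by
      rw [h, ptB_JA_eq_top σ h0, Ideal.map_top]
    rw [euler_mul_of_index D _ hD (ptDiv_invertible Q) N
      (noFibreA D _ hD (ptDiv_invertible Q) N (by rw [h]; exact ptB_JA_eq_top σ h0))
      (fibreB D _ hD (ptDiv_invertible Q) N σ (by rw [h]; rfl))
      (noFibreW D _ hD (ptDiv_invertible Q) N hW)]
    push_cast; ring

theorem euler_listDiv (l : List (Pt X K)) :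
    euler ((listDiv l).tri (listDiv_invertible l) N) =
      euler ((1 : Div X K).tri Div.Invertible.one N) - l.length := by
  induction l with
  | nil => simp only [List.length_nil, Nat.cast_zero, sub_zero]; rfl
  | cons Q l ih =>
    have : euler ((listDiv (Q :: l)).tri (listDiv_invertible (Q :: l)) N) =
        euler ((ptDiv Q * listDiv l).tri ((ptDiv_invertible Q).mul (listDiv_invertible l)) N) := rfl
    rw [this, euler_pt (listDiv_invertible l) N Q, ih, List.length_cons]
    push_cast; ring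

section Peel

variable [IsAlgClosed K]

omit [IsAlgClosed k] in
theorem exists_point_le {S : Type u} [CommRing S] [Algebra k S] [Algebra.FiniteType k S]
    {J : Ideal (K ⊗[k] S)} (hJ : J ≠ ⊤) : ∃ σ : S →ₐ[k] K, J ≤ secIdeal σ := by
  obtain ⟨m, hm, hJm⟩ := J.exists_le_maximal hJ
  obtain ⟨q, hq⟩ := exists_point_of_isMaximal (k := K) m
  refine ⟨(q.restrictScalars k).comp Algebra.TensorProduct.includeRight, fun z hz => ?_⟩
  have hev : ∀ z, secEval ((q.restrictScalars k).comp Algebra.TensorProduct.includeRight) z = q z := by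
    intro z
    induction z with
    | zero => simp
    | tmul r s =>
      have : r ⊗ₜ[k] s = r • ((1 : K) ⊗ₜ[k] s) := by rw [TensorProduct.smul_tmul', smul_eq_mul, mul_one]
      rw [secEval_tmul, this, map_smul, smul_eq_mul]
      rfl
    | add a b ha hb => simp only [map_add, ha, hb]
  rw [mem_secIdeal_iff, hev]
  have : z ∈ RingHom.ker q.toRingHom := by rw [hq]; exact hJm hz
  exact this

/-- Every effective divisor is a sum of points. -/
theorem exists_listDiv (D : Div X K) (hD : D.Invertible) : ∃ l : List (Pt X K), D = listDiv l := by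
  have := finiteType_of_finite_aeval X.x X.finite_x
  have := finiteType_of_finite_aeval X.y X.finite_y
  have : IsNoetherianRing (K ⊗[k] X.A) := Algebra.FiniteType.isNoetherianRing K _
  have : IsNoetherianRing (K ⊗[k] X.B) := Algebra.FiniteType.isNoetherianRing K _
  suffices H : ∀ J : Ideal (K ⊗[k] X.A) × Ideal (K ⊗[k] X.B), ∀ D : Div X K, D.Invertible →
      (D.JA, D.JB) = J → ∃ l : List (Pt X K), D = listDiv l from H _ D hD rfl
  intro J
  induction J using WellFoundedGT.induction with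
  | _ J ih =>
    rintro D hD rfl
    by_cases htop : D.JA = ⊤ ∧ D.JB = ⊤
    · exact ⟨[], Div.ext htop.1 htop.2⟩
    obtain ⟨Q, hQA, hQB⟩ : ∃ Q : Pt X K, D.JA ≤ (ptDiv Q).JA ∧ D.JB ≤ (ptDiv Q).JB := by
      by_cases hA : D.JA = ⊤
      · obtain ⟨σ, hσ⟩ := exists_point_le (fun hB => htop ⟨hA, hB⟩)
        refine ⟨Sum.inr σ, ?_, hσ⟩
        show D.JA ≤ (sideB X).other σ
        refine Ideal.map_le_iff_le_comap.1 ?_
        show D.JA.map (X.resA K) ≤ (secIdeal σ).map (X.resB K)
        exact D.compat ▸ Ideal.map_mono hσ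
      · obtain ⟨σ, hσ⟩ := exists_point_le hA
        refine ⟨Sum.inl σ, hσ, ?_⟩
        show D.JB ≤ (sideA X).other σ
        refine Ideal.map_le_iff_le_comap.1 ?_
        show D.JB.map (X.resB K) ≤ (secIdeal σ).map (X.resA K)
        exact D.compat ▸ Ideal.map_mono hσ
    obtain ⟨G, hG⟩ := Div.exists_eq_mul (ptDiv_invertible Q) hQA hQB
    have hGinv : G.Invertible := Div.Invertible.of_mul_right (hG ▸ hD)
    have hlt : (G.JA, G.JB) > (D.JA, D.JB) := by
      have hle : (D.JA, D.JB) ≤ (G.JA, G.JB) := by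
        rw [hG]; exact ⟨Ideal.mul_le_right, Ideal.mul_le_right⟩
      refine lt_of_le_of_ne hle fun heq => ?_
      have hA : (ptDiv Q).JA * G.JA = G.JA * ⊤ := by
        rw [Ideal.mul_top]; exact (congrArg Div.JA hG).symm.trans (congrArg Prod.fst heq)
      have hB : (ptDiv Q).JB * G.JB = G.JB * ⊤ := by
        rw [Ideal.mul_top]; exact (congrArg Div.JB hG).symm.trans (congrArg Prod.snd heq)
      rw [mul_comm] at hA hB
      have hA' := hGinv.1.mul_left_cancel hA
      have hB' := hGinv.2.mul_left_cancel hB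
      rcases Q with σ | σ
      · exact secIdeal_ne_top σ hA'
      · exact secIdeal_ne_top σ hB'
    obtain ⟨l, hl⟩ := ih _ hlt G hGinv rfl
    exact ⟨Q :: l, by rw [hG, hl]; rfl⟩

end Peel

end Fermat.Agent.Picard.Points
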