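/-
S25 (points): every triple of Euler characteristic `χ(O)` over an algebraically closed field is
`O(n)(-P_1 - ... - P_m)` with `n`, `m` fixed.
-/
import Fermat.Agent.Picard.Points.Peel
import Fermat.Agent.Picard.Points.Embed

set_option autoImplicit false

noncomputable section

namespace Fermat.Agent.Picard.Points

open scoped TensorProduct

universe u

variable {k : Type u} [Field k] [IsAlgClosed k] {X : TwoChart k}
variable {K : Type u} [Field K] [Algebra k K]

/-- The Euler characteristic of `O(N)`. -/
def eulerO (X : TwoChart k) (K : Type u) [Field K] [Algebra k K] (N : ℕ) : ℤ :=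
  euler ((1 : Div X K).tri Div.Invertible.one N)

/-- The divisor at infinity. -/
def infDiv (X : TwoChart k) (K : Type u) [Field K] [Algebra k K] : Div X K where
  JA := ⊤
  JB := Ideal.span {(1 : K) ⊗ₜ[k] X.y}
  compat := by
    rw [Ideal.map_top, Ideal.map_span, Set.image_singleton, eq_comm,
      Ideal.span_singleton_eq_top]
    exact (locB X K).isUnit

omit [IsAlgClosed k] in
theorem one_tmul_y_ne_zero : (1 : K) ⊗ₜ[k] X.y ≠ 0 := by
  simpa using one_tmul_sub_tmul_one_ne_zero (R := K) (y_nonconst X) 0

omit [IsAlgClosed k] in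
theorem infDiv_invertible : (infDiv X K).Invertible :=
  ⟨InvI.top, InvI.span_singleton one_tmul_y_ne_zero⟩

omit [IsAlgClosed k] in
theorem infDiv_map {K' : Type u} [Field K'] [Algebra k K'] (φ : K →ₐ[k] K') :
    (infDiv X K).map φ = infDiv X K' := by
  refine Div.ext (Ideal.map_top _) ?_
  show (Ideal.span {(1 : K) ⊗ₜ[k] X.y}).map _ = Ideal.span {(1 : K') ⊗ₜ[k] X.y}
  rw [Ideal.map_span, Set.image_singleton]
  simp [TwoChart.baseHom]

variable (X) in
theorem exists_infPoints : ∃ l : List (Pt X k), infDiv X k = listDiv l ∧ 0 < l.length := by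
  obtain ⟨l, hl⟩ := exists_listDiv (infDiv X k) infDiv_invertible
  refine ⟨l, hl, ?_⟩
  by_contra h
  have hl0 : l = [] := List.eq_nil_of_length_eq_zero (by omega)
  subst hl0
  have h1 : Ideal.span {(1 : k) ⊗ₜ[k] X.y} = ⊤ := congrArg Div.JB hl
  rw [Ideal.span_singleton_eq_top] at h1
  have : IsDomain X.B := inferInstance
  obtain ⟨n, e, he⟩ := TwoChart.exists_tensor_equiv_polynomial k X.y X.finite_y X.injective_y
  obtain ⟨w, hw⟩ := h1.exists_right_inv
  have : Nontrivial (k ⊗[k] X.B) :=
    (Algebra.TensorProduct.lid k X.B).toRingEquiv.injective.nontrivial.casesOn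
      fun h => (Algebra.TensorProduct.lid k X.B).symm.toRingEquiv.injective.nontrivial
  have hn : 0 < n := by
    by_contra hn
    obtain rfl : n = 0 := by omega
    have := e.injective (Subsingleton.elim (e 1) (e 0))
    exact one_ne_zero this
  have h2 := congrArg (fun p => Polynomial.coeff p 0)
    (he (w * e.symm (fun _ => 1)) ⟨0, hn⟩)
  rw [← mul_assoc, hw, one_mul, LinearEquiv.apply_symm_apply] at h2
  simp at h2

/-- The degree of the covering by `x`. -/
def degInf (X : TwoChart k) : ℕ := (exists_infPoints X).choose.length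

theorem degInf_pos : 0 < degInf X := (exists_infPoints X).choose_spec.2

theorem eulerO_succ (N : ℕ) : eulerO X K (N + 1) = eulerO X K N + degInf X := by
  set l : List (Pt X k) := (exists_infPoints X).choose with hl
  have hinf : infDiv X K = listDiv (l.map (ptMap (Algebra.ofId k K))) := by
    rw [← infDiv_map (X := X) (Algebra.ofId k K), (exists_infPoints X).choose_spec.1,
      listDiv_map]
  have h1 := euler_listDiv (N + 1) (l.map (ptMap (Algebra.ofId k K)))
  have h2 : euler ((1 : Div X K).tri Div.Invertible.one N) =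
      euler ((infDiv X K).tri infDiv_invertible (N + 1)) := by
    refine euler_congr (triEquiv _ _ _ _ N (N + 1) 1 1 ((1 : K) ⊗ₜ[k] X.y) 1 one_ne_zero
      one_ne_zero one_tmul_y_ne_zero one_ne_zero ?_ ?_ ?_)
    · rfl
    · show Ideal.span _ * ⊤ = Ideal.span {1} * Ideal.span _
      rw [Ideal.mul_top, Ideal.span_singleton_one, Ideal.top_mul]
    · rw [map_one, map_one, mul_one, one_mul, one_mul, TwoChart.resB_tmul, xPow, xPow, pow_succ',
        ← mul_assoc, Algebra.TensorProduct.tmul_mul_tmul, one_mul, mul_comm (algebraMap X.B X.W X.y),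
        X.x_mul_y, ← Algebra.TensorProduct.one_def, one_mul]
  have h3 : euler ((infDiv X K).tri infDiv_invertible (N + 1)) =
      euler ((listDiv (l.map (ptMap (Algebra.ofId k K)))).tri (listDiv_invertible _) (N + 1)) := by
    congr 1
    simp only [hinf]
  rw [← h3, ← h2, List.length_map] at h1
  have h4 : degInf X = l.length := rfl
  simp only [eulerO, h4]
  linarith

theorem eulerO_eq (N : ℕ) : eulerO X K N = eulerO X K 0 + N * degInf X := by
  induction N with
  | zero => simp
  | succ N ih => rw [eulerO_succ, ih]; push_cast; ring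

/-- A bound for `h¹(O)`. -/
def h1Bound (X : TwoChart k) : ℕ :=
  Module.finrank k
    (((1 : Div X k).tri Div.Invertible.one 0).MW ⧸
      LinearMap.range ((1 : Div X k).tri Div.Invertible.one 0).diff)

theorem neg_h1Bound_le : -(h1Bound X : ℤ) ≤ eulerO X K 0 := by
  classical
  let L := (1 : Div X k).tri Div.Invertible.one 0
  let L' := (1 : Div X K).tri Div.Invertible.one 0
  let vK : L'.MW →ₗ[K] K ⊗[k] X.W :=
    { toFun := valIn _
      map_add' := fun _ _ => rfl
      map_smul' := fun r z => (Algebra.smul_def r (valIn _ z)).symm }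
  let vk : L.MW →ₗ[k] k ⊗[k] X.W :=
    { toFun := valIn _
      map_add' := fun _ _ => rfl
      map_smul' := fun r z => (Algebra.smul_def r (valIn _ z)).symm }
  let b := Module.finBasis k (L.MW ⧸ LinearMap.range L.diff)
  choose r hr using fun i => Submodule.mkQ_surjective (LinearMap.range L.diff) (b i)
  let toW : (z : K ⊗[k] X.W) → L'.MW := fun z => ⟨z, by
    rw [Div.one_JA, Ideal.map_top]; trivial⟩
  let φW := TwoChart.baseHom (Algebra.ofId k K) X.W
  let gen : Fin (h1Bound X) → L'.MW ⧸ LinearMap.range L'.diff := fun i =>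
    Submodule.Quotient.mk (toW (φW (valIn _ (r i))))
  have hspan : Submodule.span K (Set.range gen) = ⊤ := by
    rw [eq_top_iff]
    rintro q -
    obtain ⟨z, rfl⟩ := Submodule.mkQ_surjective _ q
    obtain ⟨z, rfl⟩ : ∃ w, toW w = z := ⟨valIn _ z, rfl⟩
    induction z with
    | zero =>
      have : toW 0 = 0 := rfl
      rw [this, map_zero]; exact zero_mem _
    | add a c ha hc =>
      have : toW (a + c) = toW a + toW c := rfl
      rw [this, map_add]; exact add_mem ha hc
    | tmul s w =>
      have hs : toW (s ⊗ₜ[k] w) = s • toW ((1 : K) ⊗ₜ[k] w) := Subtype.ext (by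
        show s ⊗ₜ[k] w = algebraMap K (K ⊗[k] X.W) s * ((1 : K) ⊗ₜ[k] w)
        simp [Algebra.TensorProduct.algebraMap_apply])
      rw [hs, map_smul]
      refine Submodule.smul_mem _ _ ?_
      let m : L.MW := ⟨(1 : k) ⊗ₜ[k] w, by rw [Div.one_JA, Ideal.map_top]; trivial⟩
      have hm : m - ∑ i, b.repr (Submodule.Quotient.mk m) i • r i ∈ LinearMap.range L.diff := by
        refine (Submodule.Quotient.mk_eq_zero _).1 ?_
        rw [← Submodule.mkQ_apply, map_sub, map_sum]
        simp only [map_smul, hr, Submodule.mkQ_apply]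
        rw [b.sum_repr, sub_self]
      obtain ⟨⟨a, c⟩, hac⟩ := hm
      let a' : L'.MA := ⟨TwoChart.baseHom (Algebra.ofId k K) X.A (valIn _ a), trivial⟩
      let c' : L'.MB := ⟨TwoChart.baseHom (Algebra.ofId k K) X.B (valIn _ c), trivial⟩
      have hd : valIn _ (L'.diff (a', c')) = φW (valIn _ (L.diff (a, c))) := by
        have e1 : valIn _ (L.diff (a, c)) = valIn _ (L.fA a) - valIn _ (L.fB c) :=
          congrArg (valIn _) (TwoChart.Tri.diff_apply L a c)
        have e2 : valIn _ (L'.diff (a', c')) = valIn _ (L'.fA a') - valIn _ (L'.fB c') :=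
          congrArg (valIn _) (TwoChart.Tri.diff_apply L' a' c')
        rw [e1, e2, map_sub]
        congr 1
        · exact (baseHom_resA (Algebra.ofId k K) (valIn _ a)).symm
        · have eL : valIn _ (L.fB c) = xPow X k 0 * X.resB k (valIn _ c) :=
            Div.tri_coe_fB _ _ 0 c
          have eL' : valIn _ (L'.fB c') = xPow X K 0 * X.resB K (valIn _ c') :=
            Div.tri_coe_fB _ _ 0 c'
          rw [eL, eL']
          show _ = φW (_ * _)
          rw [map_mul, baseHom_resB]
          congr 1
          exact (xPow_baseHom (Algebra.ofId k K) 0).symm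
      rw [hac] at hd
      have hkey : toW ((1 : K) ⊗ₜ[k] w) = L'.diff (a', c') +
          ∑ i, algebraMap k K (b.repr (Submodule.Quotient.mk m) i) • toW (φW (valIn _ (r i))) := by
        have vK_inj : Function.Injective vK := fun _ _ h => Subtype.ext h
        apply vK_inj
        have hv0 : vK (L'.diff (a', c')) = φW (vk (m - ∑ i, b.repr (Submodule.Quotient.mk m) i • r i)) :=
          hd
        have hφ : ∀ (c : k) (z : k ⊗[k] X.W), φW (c • z) = c • φW z := fun c z =>
          map_smul (Algebra.TensorProduct.map (Algebra.ofId k K) (AlgHom.id k X.W)) c z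
        have hw : φW (vk m) = (1 : K) ⊗ₜ[k] w := by
          show φW ((1 : k) ⊗ₜ[k] w) = _
          simp [φW, TwoChart.baseHom]
        have hto : ∀ z, vK (toW z) = z := fun _ => rfl
        simp only [map_add, map_sum, map_smul, hv0, map_sub, hφ, hto, hw, algebraMap_smul]
        exact (sub_add_cancel _ _).symm
      rw [hkey, map_add, map_sum]
      refine add_mem ?_ (Submodule.sum_mem _ fun i _ => ?_)
      · rw [Submodule.mkQ_apply, (Submodule.Quotient.mk_eq_zero _).2 (LinearMap.mem_range_self _ _)]
        exact zero_mem _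
      · rw [map_smul]
        exact Submodule.smul_mem _ _ (Submodule.subset_span ⟨i, rfl⟩)
  have hle : Module.finrank K (L'.MW ⧸ LinearMap.range L'.diff) ≤ h1Bound X := by
    rw [← finrank_top K (L'.MW ⧸ LinearMap.range L'.diff), ← hspan]
    exact (finrank_range_le_card gen).trans (by simp)
  have he : eulerO X K 0 = L'.diff.index := rfl
  rw [he, LinearMap.index_eq_finrank_sub]
  omega

/-- The twist used for the family. -/
def twistN (X : TwoChart k) : ℕ := h1Bound X + 1

/-- The number of points used for the family. -/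
def numPts (X : TwoChart k) : ℕ := twistN X * degInf X

theorem one_le_eulerO_twistN : 1 ≤ eulerO X K (twistN X) := by
  have h1 := neg_h1Bound_le (X := X) (K := K)
  have h2 : (twistN X : ℤ) ≤ twistN X * degInf X := by
    have := degInf_pos (X := X)
    nlinarith
  rw [eulerO_eq]
  have : (twistN X : ℤ) = h1Bound X + 1 := by simp [twistN]
  linarith

omit [IsAlgClosed k] in
theorem exists_ne_zero_of_euler_pos {L : X.Tri K} (h : 0 < euler L) :
    ∃ z, L.diff z = 0 ∧ z ≠ 0 := by
  by_contra hc
  push Not at hc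
  have : LinearMap.ker L.diff = ⊥ := LinearMap.ker_eq_bot'.2 hc
  rw [euler, LinearMap.index_eq_finrank_sub, this, finrank_bot] at h
  omega

variable [IsAlgClosed K]

/-- A section of `O(M)(-D)` gives a complementary divisor. -/
theorem exists_complement (l : List (Pt X K)) (M : ℕ) (h : (l.length : ℤ) < eulerO X K M) :
    ∃ (gA : K ⊗[k] X.A) (gB : K ⊗[k] X.B) (r : List (Pt X K)), gA ≠ 0 ∧ gB ≠ 0 ∧
      X.resA K gA = xPow X K M * X.resB K gB ∧
      Ideal.span {gA} = (listDiv l).JA * (listDiv r).JA ∧
      Ideal.span {gB} = (listDiv l).JB * (listDiv r).JB ∧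
      (r.length : ℤ) + l.length = M * degInf X := by
  obtain ⟨⟨a, b⟩, hab, hne⟩ := exists_ne_zero_of_euler_pos
    (L := (listDiv l).tri (listDiv_invertible l) M) (by
      rw [euler_listDiv]
      show 0 < eulerO X K M - (l.length : ℤ)
      omega)
  rw [TwoChart.Tri.diff_apply, sub_eq_zero] at hab
  have hrel : X.resA K (valIn _ a) = xPow X K M * X.resB K (valIn _ b) :=
    (congrArg (valIn _) hab).trans (Div.tri_coe_fB _ _ M b)
  have hxu : IsUnit (xPow X K M) := by
    have := (locA X K).isUnit.pow M
    rwa [TwoChart.resA_tmul] at this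
  have hb0 : valIn _ b ≠ 0 := by
    intro h0
    have ha0 : valIn _ a = 0 := (locA X K).injective (by rw [hrel, h0]; simp)
    exact hne (Prod.ext (Subtype.ext ha0) (Subtype.ext h0))
  have ha0 : valIn _ a ≠ 0 := fun h0 => hb0 ((locB X K).injective (by
    rw [map_zero]; refine hxu.mul_left_cancel ?_
    rw [← hrel, h0, map_zero, mul_zero]))
  let E : Div X K := ⟨Ideal.span {valIn _ a}, Ideal.span {valIn _ b}, by
    rw [Ideal.map_span, Ideal.map_span, Set.image_singleton, Set.image_singleton, hrel,
      Ideal.span_singleton_mul_left_unit hxu]⟩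
  have hE : E.Invertible := ⟨InvI.span_singleton ha0, InvI.span_singleton hb0⟩
  obtain ⟨G, hG⟩ := Div.exists_eq_mul (D := E) (listDiv_invertible l)
    ((Ideal.span_singleton_le_iff_mem _).2 (valIn_mem _ a))
    ((Ideal.span_singleton_le_iff_mem _).2 (valIn_mem _ b))
  obtain ⟨r, rfl⟩ := exists_listDiv G (Div.Invertible.of_mul_right (hG ▸ hE))
  have hlr : E = listDiv (l ++ r) := by rw [hG]; simp [listDiv]
  refine ⟨valIn _ a, valIn _ b, r, ha0, hb0, hrel, congrArg Div.JA hG, congrArg Div.JB hG, ?_⟩
  have h1 : euler ((1 : Div X K).tri Div.Invertible.one 0) =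
      euler ((listDiv (l ++ r)).tri (listDiv_invertible _) M) := by
    refine euler_congr (triEquiv _ _ _ _ 0 M (valIn _ a) 1 (valIn _ b) 1 ha0 one_ne_zero hb0
      one_ne_zero ?_ ?_ ?_)
    · rw [← hlr, Div.one_JA, Ideal.mul_top, Ideal.span_singleton_one, Ideal.top_mul]
    · rw [← hlr, Div.one_JB, Ideal.mul_top, Ideal.span_singleton_one, Ideal.top_mul]
    · simp only [hrel, map_one, mul_one, one_mul, xPow, pow_zero]; ring
  rw [euler_listDiv, List.length_append] at h1
  have h2 := eulerO_eq (X := X) (K := K) M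
  simp only [eulerO] at h2
  push_cast at h1
  linarith

/-- Every triple of Euler characteristic `χ(O)` is `O(n)` minus `m` points. -/
theorem exists_points (L : X.Tri K) (hL : euler L = eulerO X K 0) :
    ∃ l : List (Pt X K), l.length = numPts X ∧
      Nonempty (L.Equiv ((listDiv l).tri (listDiv_invertible l) (twistN X))) := by
  obtain ⟨D, hD, N, ⟨eL⟩⟩ := exists_div L
  obtain ⟨l, rfl⟩ := exists_listDiv D hD
  have hlen : (l.length : ℤ) = N * degInf X := by
    have := (euler_congr eL).symm
    rw [euler_listDiv] at this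
    have h2 := eulerO_eq (X := X) (K := K) N
    simp only [eulerO] at h2 hL
    linarith
  set M : ℕ := N + h1Bound X + 1 with hM
  have hd := degInf_pos (X := X)
  have h0 := neg_h1Bound_le (X := X) (K := K)
  obtain ⟨gA, gB, r, hgA, hgB, hg, hgJA, hgJB, hr⟩ := exists_complement l M (by
    rw [eulerO_eq, hlen, hM]; push_cast; nlinarith)
  obtain ⟨M', hM'⟩ : ∃ M', M' + N = twistN X + M := ⟨twistN X + M - N, by omega⟩
  obtain ⟨hA, hB, s, hhA, hhB, hh, hhJA, hhJB, hs⟩ := exists_complement r M' (by
    have e1 := one_le_eulerO_twistN (X := X) (K := K)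
    rw [eulerO_eq] at e1 ⊢
    have e2 : (M' : ℤ) + N = twistN X + M := by exact_mod_cast hM'
    nlinarith)
  refine ⟨s, ?_, ⟨eL.trans (triEquiv _ _ _ _ N (twistN X) hA gA hB gB hhA hgA hhB hgB ?_ ?_ ?_)⟩⟩
  · have e2 : (M' : ℤ) + N = twistN X + M := by exact_mod_cast hM'
    have : (s.length : ℤ) = (numPts X : ℕ) := by
      simp only [numPts]; push_cast; nlinarith
    exact_mod_cast this
  · rw [hhJA, hgJA]; ring
  · rw [hhJB, hgJB]; ring
  · rw [hg, hh]
    have e : xPow X K M' * xPow X K N = xPow X K (twistN X) * xPow X K M := by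
      simp only [xPow, ← pow_add, hM']
    linear_combination (X.resB K hB * X.resB K gB) * e

/-- The trivial triple is `O(n)` minus `m` points of the overlap. -/
theorem exists_trivial_points (X : TwoChart k) :
    ∃ l : List (X.W →ₐ[k] k), l.length = numPts X ∧
      Nonempty (((1 : Div X k).tri Div.Invertible.one 0).Equiv
        ((listDiv (l.map fun ω => (Sum.inl (ω.comp (IsScalarTower.toAlgHom k X.A X.W)) : Pt X k))).tri
          (listDiv_invertible _) (twistN X))) := by
  set n := twistN X with hn
  have hn0 : n ≠ 0 := by rw [hn, twistN]; omega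
  set a : k ⊗[k] X.A := ((1 : k) ⊗ₜ[k] X.x) ^ n - 1 with ha
  set b : k ⊗[k] X.B := 1 - ((1 : k) ⊗ₜ[k] X.y) ^ n with hb
  have hrel : X.resA k a = xPow X k n * X.resB k b := by
    simp only [ha, hb, map_sub, map_pow, map_one, TwoChart.resA_tmul, TwoChart.resB_tmul, xPow,
      mul_sub, mul_one, ← mul_pow, Algebra.TensorProduct.tmul_mul_tmul, X.x_mul_y,
      ← Algebra.TensorProduct.one_def, one_pow]
  have ha0 : a ≠ 0 := by
    intro h0
    have h := congrArg (Algebra.TensorProduct.lid k X.A) h0
    simp only [ha, map_sub, map_pow, map_one, map_zero, Algebra.TensorProduct.lid_tmul,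
      one_smul] at h
    have : Polynomial.aeval X.x (Polynomial.X ^ n - Polynomial.C 1 : Polynomial k) =
        Polynomial.aeval X.x (0 : Polynomial k) := by simpa using h
    exact Polynomial.X_pow_sub_C_ne_zero (Nat.pos_of_ne_zero hn0) 1 (X.injective_x this)
  have hxu : IsUnit (xPow X k n) := by
    have := (locA X k).isUnit.pow n
    rwa [TwoChart.resA_tmul] at this
  have hb0 : b ≠ 0 := by
    intro h0
    exact ha0 ((locA X k).injective (by rw [hrel, h0]; simp))
  let E : Div X k := ⟨Ideal.span {a}, Ideal.span {b}, by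
    rw [Ideal.map_span, Ideal.map_span, Set.image_singleton, Set.image_singleton, hrel,
      Ideal.span_singleton_mul_left_unit hxu]⟩
  obtain ⟨l, hl⟩ := exists_listDiv E ⟨InvI.span_singleton ha0, InvI.span_singleton hb0⟩
  have hle : ∀ Q ∈ l, a ∈ (ptDiv Q).JA ∧ b ∈ (ptDiv Q).JB := by
    intro Q hQ
    obtain ⟨l₁, l₂, rfl⟩ := List.append_of_mem hQ
    have hd : listDiv (l₁ ++ Q :: l₂) = ptDiv Q * (listDiv l₁ * listDiv l₂) := by
      simp [listDiv, mul_left_comm]
    rw [hd] at hl
    refine ⟨?_, ?_⟩
    · exact Ideal.mul_le_inf.trans inf_le_left ((congrArg Div.JA hl).le (Ideal.mem_span_singleton_self a))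
    · exact Ideal.mul_le_inf.trans inf_le_left ((congrArg Div.JB hl).le (Ideal.mem_span_singleton_self b))
  have hω : ∀ Q ∈ l, ∃ ω : X.W →ₐ[k] k,
      ptDiv Q = ptA (X := X) (ω.comp (IsScalarTower.toAlgHom k X.A X.W)) := by
    intro Q hQ
    rcases pt_cases Q with h | ⟨σ, h0, h⟩ | ⟨σ, h0, h⟩
    · exact h
    · exfalso
      have h1 := (hle Q hQ).1
      rw [h] at h1
      have h2 := (mem_secIdeal_iff σ a).1 h1
      simp [ha, h0, hn0] at h2
    · exfalso
      have h1 := (hle Q hQ).2
      rw [h] at h1
      have h2 := (mem_secIdeal_iff σ b).1 h1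
      simp [hb, h0, hn0] at h2
  choose ω hω using hω
  set l' := l.attach.map fun Q => ω Q.1 Q.2 with hl'
  have hdiv : listDiv (l'.map fun ω => (Sum.inl (ω.comp (IsScalarTower.toAlgHom k X.A X.W)) :
      Pt X k)) = E := by
    rw [hl, listDiv, listDiv, hl', List.map_map, List.map_map]
    congr 1
    conv_rhs => rw [← List.attach_map_subtype_val l, List.map_map]
    refine List.map_congr_left fun Q _ => ?_
    exact (hω Q.1 Q.2).symm
  have eq : ((1 : Div X k).tri Div.Invertible.one 0).Equiv
      ((listDiv (l'.map fun ω => (Sum.inl (ω.comp (IsScalarTower.toAlgHom k X.A X.W)) : Pt X k))).tri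
        (listDiv_invertible _) n) :=
    triEquiv _ _ _ _ 0 n a 1 b 1 ha0 one_ne_zero hb0 one_ne_zero
      (by rw [hdiv, Div.one_JA, Ideal.mul_top, Ideal.span_singleton_one, Ideal.top_mul])
      (by rw [hdiv, Div.one_JB, Ideal.mul_top, Ideal.span_singleton_one, Ideal.top_mul])
      (by rw [hrel, map_one, map_one, mul_one, one_mul, xPow, xPow, pow_zero, mul_one, mul_comm])
  refine ⟨l', ?_, ⟨eq⟩⟩
  have h1 := euler_congr eq
  rw [euler_listDiv, List.length_map] at h1
  have h2 := eulerO_eq (X := X) (K := k) n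
  simp only [eulerO] at h2
  have : (l'.length : ℤ) = (numPts X : ℕ) := by
    simp only [numPts, ← hn]; push_cast; linarith
  exact_mod_cast this

end Fermat.Agent.Picard.Points
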