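/-
S25 (points): normalising a divisor triple along the marked section, by constant ideals.
-/
import Fermat.Agent.Picard.Points.Embed
import Fermat.Agent.Picard.Points.Div

set_option autoImplicit false

noncomputable section

namespace Fermat.Agent.Picard.Points

open scoped TensorProduct

universe u

/-- A semilinear map between invertible modules with spanning image is an extension of scalars. -/
theorem isScalarExtension_of_span {S T M N : Type u} [CommRing S] [CommRing T] (f : S →+* T)
    [AddCommGroup M] [AddCommGroup N] [Module S M] [Module T N] [Module.Invertible S M]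
    [Module.Invertible T N] (g : M →ₛₗ[f] N) (hg : Submodule.span T (Set.range g) = ⊤) :
    IsScalarExtension f g := by
  intro P _ _ hP
  let : Algebra S T := f.toAlgebra
  let : Module S N := Module.compHom N f
  have : IsScalarTower S T N := IsScalarTower.of_algebraMap_smul fun _ _ => rfl
  let : Module S P := Module.compHom P f
  have : IsScalarTower S T P := IsScalarTower.of_algebraMap_smul fun _ _ => rfl
  let g₀ : M →ₗ[S] N :=
    { toFun := g
      map_add' := map_add _
      map_smul' := fun r j => by rw [map_smulₛₗ]; rfl }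
  let h₀ : M →ₗ[S] P :=
    { toFun := hP
      map_add' := map_add _
      map_smul' := fun r j => by rw [map_smulₛₗ]; rfl }
  have hsurj : Function.Surjective (g₀.liftBaseChange T) := by
    rw [← LinearMap.range_eq_top, eq_top_iff, ← hg, Submodule.span_le]
    rintro _ ⟨m, rfl⟩
    exact ⟨1 ⊗ₜ[S] m, by simp [g₀]⟩
  let e : T ⊗[S] M ≃ₗ[T] N :=
    LinearEquiv.ofBijective _ (Module.Invertible.bijective_of_surjective hsurj)
  refine ⟨(h₀.liftBaseChange T).comp e.symm.toLinearMap, fun j => ?_, fun h' hh' => ?_⟩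
  · have : e.symm (g j) = (1 : T) ⊗ₜ[S] j := by
      rw [LinearEquiv.symm_apply_eq]
      simp [e, g₀]
    simp [this, h₀]
  · refine LinearMap.ext fun z => ?_
    obtain ⟨w, rfl⟩ := e.surjective z
    simp only [LinearMap.comp_apply, LinearEquiv.coe_coe, LinearEquiv.symm_apply_apply]
    induction w using TensorProduct.induction_on with
    | zero => simp
    | tmul t j =>
      have : e (t ⊗ₜ[S] j) = t • g j := by simp [e, g₀]
      rw [this, map_smul, hh']
      simp [h₀]
    | add a b ha hb => simp only [map_add, ha, hb]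

/-- An invertible ideal restricts along a homomorphism to an invertible ideal of a domain. -/
theorem exists_restriction {S R : Type u} [CommRing S] [CommRing R] [IsDomain R] (f : S →+* R)
    (J : Ideal S) [Module.Invertible S J] :
    ∃ (e : Ideal R) (g : J →ₛₗ[f] R), InvI e ∧ (∀ j, g j ∈ e) ∧
      Submodule.span R (Set.range g) = e := by
  let : Algebra S R := f.toAlgebra
  obtain ⟨χ, hχ⟩ := exists_embedding (A := R) (M := R ⊗[S] J)
  let g : J →ₛₗ[f] R :=
    { toFun := fun j => χ ((1 : R) ⊗ₜ[S] j)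
      map_add' := fun a b => by rw [TensorProduct.tmul_add, map_add]
      map_smul' := fun s j => by
        rw [← TensorProduct.smul_tmul, Algebra.smul_def, mul_one]
        have : (algebraMap S R s) ⊗ₜ[S] j = f s • ((1 : R) ⊗ₜ[S] j) := by
          rw [TensorProduct.smul_tmul', smul_eq_mul, mul_one]; rfl
        rw [this, map_smul] }
  have hspan : Submodule.span R (Set.range g) = LinearMap.range χ := by
    refine le_antisymm ?_ ?_
    · rw [Submodule.span_le]
      rintro _ ⟨j, rfl⟩
      exact LinearMap.mem_range_self χ _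
    · rintro _ ⟨z, rfl⟩
      induction z using TensorProduct.induction_on with
      | zero => simp
      | tmul r j =>
        have : r ⊗ₜ[S] j = r • ((1 : R) ⊗ₜ[S] j) := by
          rw [TensorProduct.smul_tmul', smul_eq_mul, mul_one]
        rw [this, map_smul]
        exact Submodule.smul_mem _ _ (Submodule.subset_span ⟨j, rfl⟩)
      | add a b ha hb => rw [map_add]; exact add_mem ha hb
  refine ⟨LinearMap.range χ, g, ?_, fun j => LinearMap.mem_range_self χ _, hspan⟩
  have : Module.Invertible R (LinearMap.range χ) :=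
    Module.Invertible.congr (LinearEquiv.ofInjective χ hχ)
  refine InvI.of_invertible fun h0 => ?_
  have hsub : Subsingleton (R ⊗[S] J) := ⟨fun a b => hχ (by
    have ha : χ a ∈ LinearMap.range χ := LinearMap.mem_range_self χ a
    have hb : χ b ∈ LinearMap.range χ := LinearMap.mem_range_self χ b
    rw [h0, Submodule.mem_bot] at ha hb
    rw [ha, hb])⟩
  have hsub2 : Subsingleton (Module.Dual R (R ⊗[S] J) ⊗[R] (R ⊗[S] J)) :=
    subsingleton_of_forall_eq 0 fun z => by
      induction z using TensorProduct.induction_on with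
      | zero => rfl
      | tmul a b => rw [Subsingleton.elim b 0, TensorProduct.tmul_zero]
      | add x y hx hy => rw [hx, hy, add_zero]
  exact one_ne_zero ((Module.Invertible.linearEquiv R (R ⊗[S] J)).symm.injective
    (Subsingleton.elim ((Module.Invertible.linearEquiv R (R ⊗[S] J)).symm 1)
      ((Module.Invertible.linearEquiv R (R ⊗[S] J)).symm 0)))

variable {k : Type u} [Field k] {X : TwoChart k}

section Compose

variable {R R' : Type u} [CommRing R] [Algebra k R] [CommRing R'] [Algebra k R']

theorem isScalarExtension_congr {S T M M₂ N N₂ : Type u} [CommRing S] [CommRing T] {f : S →+* T}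
    [AddCommGroup M] [AddCommGroup M₂] [AddCommGroup N] [AddCommGroup N₂] [Module S M]
    [Module S M₂] [Module T N] [Module T N₂] {g : M →ₛₗ[f] N} (hg : IsScalarExtension f g)
    (e : M₂ ≃ₗ[S] M) (e' : N ≃ₗ[T] N₂) :
    IsScalarExtension f (e'.toLinearMap.comp (g.comp e.toLinearMap)) := by
  intro P _ _ h
  obtain ⟨h', hh', huniq⟩ := hg P (h.comp e.symm.toLinearMap)
  refine ⟨h'.comp e'.symm.toLinearMap, fun m => ?_, fun h'' hh'' => ?_⟩
  · simp [hh']
  · have := huniq (h''.comp e'.toLinearMap) fun m => by simpa using hh'' (e.symm m)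
    rw [← this]
    exact LinearMap.ext fun z => by simp

/-- Base change is invariant under isomorphisms. -/
def pullbackCongr {φ : R →ₐ[k] R'} {L L₂ : X.Tri R} {L' L₂' : X.Tri R'}
    (P : TwoChart.Tri.Pullback φ L L') (e : L₂.Equiv L) (e' : L'.Equiv L₂') :
    TwoChart.Tri.Pullback φ L₂ L₂' where
  gA := e'.eA.toLinearMap.comp (P.gA.comp e.eA.toLinearMap)
  gB := e'.eB.toLinearMap.comp (P.gB.comp e.eB.toLinearMap)
  gW := e'.eW.toLinearMap.comp (P.gW.comp e.eW.toLinearMap)
  commA m := by
    show e'.eW (P.gW (e.eW (L₂.fA m))) = L₂'.fA (e'.eA (P.gA (e.eA m)))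
    rw [e.commA, P.commA, e'.commA]
  commB m := by
    show e'.eW (P.gW (e.eW (L₂.fB m))) = L₂'.fB (e'.eB (P.gB (e.eB m)))
    rw [e.commB, P.commB, e'.commB]
  univA := isScalarExtension_congr P.univA _ _
  univB := isScalarExtension_congr P.univB _ _
  univW := isScalarExtension_congr P.univW _ _

/-- The marked section trivialises the triple. -/
def IsNormal (L : X.Tri R) : Prop :=
  ∃ g : L.MA →ₛₗ[X.evalε R] R, IsScalarExtension (X.evalε R) g

end Compose

variable [IsAlgClosed k] {R : Type u} [CommRing R] [Algebra k R] [IsDomain R]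

omit [IsAlgClosed k] [IsDomain R] in
theorem evalε_algebraMap (r : R) : X.evalε R (algebraMap R (R ⊗[k] X.A) r) = r := by
  simp [TwoChart.evalε, Algebra.TensorProduct.algebraMap_apply]

/-- The divisor of a constant ideal. -/
def constDiv (X : TwoChart k) (e : Ideal R) : Div X R where
  JA := e.map (algebraMap R (R ⊗[k] X.A))
  JB := e.map (algebraMap R (R ⊗[k] X.B))
  compat := by
    rw [Ideal.map_map, Ideal.map_map]
    congr 1
    refine RingHom.ext fun r => ?_
    exact (TwoChart.resA_algebraMap r).trans (TwoChart.resB_algebraMap r).symm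

omit [IsAlgClosed k] [IsDomain R] in
theorem algebraMap_tensor_injective {S : Type u} [CommRing S] [Algebra k S] [Nontrivial S] :
    Function.Injective (algebraMap R (R ⊗[k] S)) := by
  intro a b h
  obtain ⟨f, -, hf⟩ : ∃ f : S →ₗ[k] k, True ∧ f 1 ≠ 0 := by
    obtain ⟨f, hf, -⟩ := Submodule.exists_dual_map_eq_bot_of_notMem
      (p := (⊥ : Submodule k S)) (x := (1 : S)) (by simp) inferInstance
    exact ⟨f, trivial, hf⟩
  have h' := congrArg ((TensorProduct.rid k R).toLinearMap ∘ₗ f.lTensor R) h
  simp [Algebra.TensorProduct.algebraMap_apply] at h'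
  exact smul_right_injective R hf h'

omit [IsAlgClosed k] [IsDomain R] in
theorem constDiv_invertible {e : Ideal R} (he : InvI e) : (constDiv X e).Invertible :=
  ⟨he.map algebraMap_tensor_injective, he.map algebraMap_tensor_injective⟩

omit [IsAlgClosed k] [IsDomain R] in
theorem constDiv_map_eq_one {R' : Type u} [CommRing R'] [Algebra k R'] (φ : R →ₐ[k] R')
    {e : Ideal R} (h : ∃ r ∈ e, IsUnit (φ r)) : (constDiv X e).map φ = 1 := by
  obtain ⟨r, hr, hu⟩ := h
  refine Div.ext (Ideal.eq_top_of_isUnit_mem _ (Ideal.mem_map_of_mem _ (Ideal.mem_map_of_mem _ hr)) ?_)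
    (Ideal.eq_top_of_isUnit_mem _ (Ideal.mem_map_of_mem _ (Ideal.mem_map_of_mem _ hr)) ?_)
  all_goals
    simp only [Algebra.TensorProduct.algebraMap_apply, TwoChart.baseHom, AlgHom.toRingHom_eq_coe,
      RingHom.coe_coe, Algebra.TensorProduct.map_tmul, map_one, Algebra.algebraMap_self,
      RingHom.id_apply]
    exact (hu.map Algebra.TensorProduct.includeLeftRingHom)

/-- The restriction of a divisor to the marked section. -/
theorem exists_markIdeal (D : Div X R) (hD : D.Invertible) :
    ∃ (e e' : Ideal R), InvI e' ∧ ∃ c : R, c ≠ 0 ∧ e * e' = Ideal.span {c} ∧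
      ∃ g : D.JA →ₛₗ[X.evalε R] R, Submodule.span R (Set.range g) = e := by
  have := hD.1.invertible
  obtain ⟨e, g, he, -, hg⟩ := exists_restriction (X.evalε R) D.JA
  obtain ⟨e', c, hc, h⟩ := he
  exact ⟨e, e', InvI.of_mul_right (h ▸ InvI.span_singleton hc), c, hc, h, g, hg⟩

theorem isNormal_mul_constDiv (D : Div X R) (hD : D.Invertible) {e e'' : Ideal R} (he'' : InvI e'')
    {c : R} (hc : c ≠ 0) (h : e * e'' = Ideal.span {c})
    (g : D.JA →ₛₗ[X.evalε R] R) (hg : Submodule.span R (Set.range g) = e) (N : ℕ) :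
    IsNormal ((D * constDiv X e'').tri (hD.mul (constDiv_invertible he'')) N) := by
  set J := (D * constDiv X e'').JA with hJ
  have hle : ∀ z ∈ J, z ∈ D.JA := fun z hz => Ideal.mul_le_inf.trans inf_le_left hz
  let g1 : J →ₛₗ[X.evalε R] R := g.comp (Submodule.inclusion hle)
  have hmem : ∀ z : J, g1 z ∈ Ideal.span {c} := by
    rintro ⟨z, hz⟩
    rw [← h, ← hg]
    refine Submodule.mul_induction_on' (C := fun z hz =>
      g1 ⟨z, hz⟩ ∈ Submodule.span R (Set.range g) * e'') ?_ ?_ hz
    · intro j hj r hr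
      induction hr using Submodule.span_induction with
      | mem x hx =>
        obtain ⟨r, hr, rfl⟩ := hx
        have : (⟨j * algebraMap R (R ⊗[k] X.A) r, hle _ (Ideal.mul_mem_mul hj
            (Ideal.mem_map_of_mem _ hr))⟩ : D.JA) = algebraMap R (R ⊗[k] X.A) r • ⟨j, hj⟩ :=
          Subtype.ext (mul_comm _ _)
        show g _ ∈ _
        rw [show (Submodule.inclusion hle ⟨j * algebraMap R (R ⊗[k] X.A) r, _⟩ : D.JA) = _ from this,
          map_smulₛₗ, evalε_algebraMap, smul_eq_mul, mul_comm r]
        exact Ideal.mul_mem_mul (Submodule.subset_span ⟨⟨j, hj⟩, rfl⟩) hr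
      | zero =>
        have : (⟨j * 0, by simp⟩ : J) = 0 := Subtype.ext (by simp)
        rw [this, map_zero]; exact zero_mem _
      | add x y hx hy ihx ihy =>
        have : (⟨j * (x + y), Ideal.mul_mem_mul hj (add_mem hx hy)⟩ : J) =
            ⟨j * x, Ideal.mul_mem_mul hj hx⟩ + ⟨j * y, Ideal.mul_mem_mul hj hy⟩ :=
          Subtype.ext (mul_add _ _ _)
        rw [this, map_add]; exact add_mem ihx ihy
      | smul s x hx ihx =>
        have : (⟨j * (s • x), Ideal.mul_mem_mul hj (Submodule.smul_mem _ s hx)⟩ : J) =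
            s • ⟨j * x, Ideal.mul_mem_mul hj hx⟩ := Subtype.ext (mul_left_comm _ _ _)
        rw [this, map_smulₛₗ, smul_eq_mul]
        exact Ideal.mul_mem_left _ _ ihx
    · intro x hx y hy ihx ihy
      have : (⟨x + y, add_mem hx hy⟩ : J) = ⟨x, hx⟩ + ⟨y, hy⟩ := rfl
      rw [this, map_add]; exact add_mem ihx ihy
  choose q hq using fun z => Ideal.mem_span_singleton.1 (hmem z)
  let g2 : J →ₛₗ[X.evalε R] R :=
    { toFun := q
      map_add' := fun a b => mul_left_cancel₀ hc (by
        rw [mul_add, ← hq, ← hq, ← hq, map_add])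
      map_smul' := fun s a => mul_left_cancel₀ hc (by
        rw [← hq, map_smulₛₗ, smul_eq_mul, smul_eq_mul, hq]; ring) }
  have := (hD.mul (constDiv_invertible he'')).1.invertible
  refine ⟨g2, isScalarExtension_of_span _ _ ?_⟩
  rw [eq_top_iff]
  rintro r -
  have hcI : c ∈ Submodule.span R (Set.range g) * e'' := by
    rw [hg, h]; exact Ideal.mem_span_singleton_self c
  have key : ∀ y ∈ Submodule.span R (Set.range g) * e'',
      ∃ t ∈ Submodule.span R (Set.range g2), y = c * t := by
    intro y hy
    refine Submodule.mul_induction_on hy ?_ ?_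
    · intro x hx s hs
      induction hx using Submodule.span_induction with
      | mem x hx =>
        obtain ⟨j, rfl⟩ := hx
        let z : J := ⟨(j : R ⊗[k] X.A) * algebraMap R (R ⊗[k] X.A) s,
          Ideal.mul_mem_mul j.2 (Ideal.mem_map_of_mem _ hs)⟩
        refine ⟨g2 z, Submodule.subset_span ⟨z, rfl⟩, ?_⟩
        show _ = c * q z
        rw [← hq]
        have : Submodule.inclusion hle z = algebraMap R (R ⊗[k] X.A) s • j :=
          Subtype.ext (mul_comm _ _)
        show _ = g (Submodule.inclusion hle z)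
        rw [this, map_smulₛₗ, evalε_algebraMap, smul_eq_mul, mul_comm]
      | zero => exact ⟨0, zero_mem _, by simp⟩
      | add a b _ _ iha ihb =>
        obtain ⟨t, ht, ha⟩ := iha
        obtain ⟨t', ht', hb⟩ := ihb
        exact ⟨t + t', add_mem ht ht', by rw [add_mul, ha, hb, mul_add]⟩
      | smul a x _ ih =>
        obtain ⟨t, ht, ha⟩ := ih
        exact ⟨a • t, Submodule.smul_mem _ _ ht, by
          rw [smul_eq_mul, smul_eq_mul, mul_assoc, ha, mul_left_comm]⟩
    · rintro a b ⟨t, ht, ha⟩ ⟨t', ht', hb⟩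
      exact ⟨t + t', add_mem ht ht', by rw [ha, hb, mul_add]⟩
  obtain ⟨t, ht, hct⟩ := key c hcI
  have ht1 : t = 1 := mul_left_cancel₀ hc (by rw [← hct, mul_one])
  have := Submodule.smul_mem _ r ht
  rwa [ht1, smul_eq_mul, mul_one] at this

omit [IsAlgClosed k] in
/-- A constant ideal can be moved away from any point. -/
theorem exists_moved {R' : Type u} [CommRing R'] [IsDomain R'] [Algebra k R'] (φ : R →ₐ[k] R')
    {e' : Ideal R} (he' : InvI e') :
    ∃ (e'' : Ideal R) (a b : R), InvI e'' ∧ a ≠ 0 ∧ b ≠ 0 ∧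
      Ideal.span {a} * e' = Ideal.span {b} * e'' ∧ ∃ r ∈ e'', φ r ≠ 0 := by
  obtain ⟨f, j, hfj⟩ := he'.exists_functional (RingHom.ker_ne_top φ.toRingHom)
  have hfj' : φ (f j) ≠ 0 := hfj
  obtain ⟨a₀, ha₀, ha₀'⟩ := he'.exists_ne_zero_mem
  have hfa : f ⟨a₀, ha₀⟩ ≠ 0 := by
    intro h0
    have := functional_comm f ⟨a₀, ha₀⟩ j
    rw [h0, zero_mul, eq_comm, mul_eq_zero] at this
    exact this.elim (fun h => hfj' (by rw [h, map_zero])) ha₀'
  let e'' : Ideal R := LinearMap.range f
  have heq : Ideal.span {f ⟨a₀, ha₀⟩} * e' = Ideal.span {a₀} * e'' := by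
    refine le_antisymm ?_ ?_ <;> rw [Ideal.mul_le] <;> intro r hr s hs <;>
      obtain ⟨t, rfl⟩ := Ideal.mem_span_singleton'.1 hr
    · have := functional_comm f ⟨a₀, ha₀⟩ ⟨s, hs⟩
      rw [show t * f ⟨a₀, ha₀⟩ * s = t * (a₀ * f ⟨s, hs⟩) by linear_combination t * this]
      exact Ideal.mul_mem_left _ _ (Ideal.mul_mem_mul (Ideal.mem_span_singleton_self _) ⟨_, rfl⟩)
    · obtain ⟨⟨s, hs'⟩, rfl⟩ := hs
      have := functional_comm f ⟨a₀, ha₀⟩ ⟨s, hs'⟩
      rw [show t * a₀ * f ⟨s, hs'⟩ = t * (f ⟨a₀, ha₀⟩ * s) by linear_combination -t * this]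
      exact Ideal.mul_mem_left _ _ (Ideal.mul_mem_mul (Ideal.mem_span_singleton_self _) hs')
  exact ⟨e'', _, a₀, InvI.of_mul_right (heq ▸ (InvI.span_singleton hfa).mul he'), hfa, ha₀', heq,
    f j, ⟨j, rfl⟩, hfj'⟩

/-- Changing the constant ideal. -/
def constEquiv (D : Div X R) (hD : D.Invertible) {e₁ e₂ : Ideal R} (h₁ : InvI e₁) (h₂ : InvI e₂)
    {a b : R} (ha : a ≠ 0) (hb : b ≠ 0) (h : Ideal.span {a} * e₁ = Ideal.span {b} * e₂) (N : ℕ) :
    ((D * constDiv X e₁).tri (hD.mul (constDiv_invertible h₁)) N).Equiv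
      ((D * constDiv X e₂).tri (hD.mul (constDiv_invertible h₂)) N) :=
  have hi : ∀ {S : Type u} [CommRing S] [Algebra k S] [Nontrivial S] {r : R}, r ≠ 0 →
      algebraMap R (R ⊗[k] S) r ≠ 0 := fun hr h0 =>
    hr (algebraMap_tensor_injective (by rw [h0, map_zero]))
  triEquiv _ _ _ _ N N (algebraMap R (R ⊗[k] X.A) a) (algebraMap R (R ⊗[k] X.A) b)
    (algebraMap R (R ⊗[k] X.B) a) (algebraMap R (R ⊗[k] X.B) b) (hi ha) (hi hb) (hi ha) (hi hb)
    (by
      have := congrArg (Ideal.map (algebraMap R (R ⊗[k] X.A))) h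
      rw [Ideal.map_mul, Ideal.map_mul, Ideal.map_span, Ideal.map_span, Set.image_singleton,
        Set.image_singleton] at this
      simp only [Div.mul_JA, constDiv]
      rw [mul_left_comm, this, mul_left_comm])
    (by
      have := congrArg (Ideal.map (algebraMap R (R ⊗[k] X.B))) h
      rw [Ideal.map_mul, Ideal.map_mul, Ideal.map_span, Ideal.map_span, Set.image_singleton,
        Set.image_singleton] at this
      simp only [Div.mul_JB, constDiv]
      rw [mul_left_comm, this, mul_left_comm])
    (by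
      rw [TwoChart.resA_algebraMap, TwoChart.resB_algebraMap, TwoChart.resA_algebraMap,
        TwoChart.resB_algebraMap]
      ring)

end Fermat.Agent.Picard.Points
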