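/-
S25 (points): the finitely many families of degree zero divisors, parametrised by products of
the two charts.
-/
import Fermat.Agent.Picard.Points.Exist
import Fermat.Agent.Picard.Points.Normal

set_option autoImplicit false

noncomputable section

namespace Fermat.Agent.Picard.Points

open scoped TensorProduct

universe u

variable {k : Type u} [Field k] [IsAlgClosed k]

/-- A parameter algebra with tautological points. -/
structure Param (X : TwoChart k) where
  R : Type u
  [cr : CommRing R]
  [alg : Algebra k R]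
  [dom : IsDomain R]
  [ft : Algebra.FiniteType k R]
  pts : List (Pt X R)

attribute [instance] Param.cr Param.alg Param.dom Param.ft

variable {X : TwoChart k}

/-- Adjoin a point of a chart to a parameter algebra. -/
def Param.adjoin (P : Param X) (S : Type u) [CommRing S] [IsDomain S] [Algebra k S]
    [Algebra.FiniteType k S] (Q : Pt X S) : Param X :=
  have : IsDomain (P.R ⊗[k] S) := isDomain_tensor P.R S
  have : Algebra.FiniteType k (P.R ⊗[k] S) :=
    Algebra.FiniteType.trans (S := P.R) inferInstance inferInstance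
  { R := P.R ⊗[k] S
    pts := ptMap Algebra.TensorProduct.includeRight Q ::
      P.pts.map (ptMap Algebra.TensorProduct.includeLeft) }

variable (X) in
/-- The parameter algebra for a pattern of charts (`false` is the chart `A`). -/
def param : List Bool → Param X
  | [] => { R := k, pts := [] }
  | false :: l =>
    have := finiteType_of_finite_aeval X.x X.finite_x
    (param l).adjoin X.A (Sum.inl (AlgHom.id k X.A))
  | true :: l =>
    have := finiteType_of_finite_aeval X.y X.finite_y
    (param l).adjoin X.B (Sum.inr (AlgHom.id k X.B))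

theorem length_param (s : List Bool) : (param X s).pts.length = s.length := by
  induction s with
  | nil => rfl
  | cons b l ih => cases b <;> exact congrArg Nat.succ ((List.length_map _).trans ih)

theorem isDomain_tensor_param (s : List Bool) (K : Type u) [Field K] [Algebra k K] :
    IsDomain (K ⊗[k] (param X s).R) :=
  isDomain_tensor K _

omit [IsAlgClosed k] in
theorem ptMap_comp {R R' R'' : Type u} [CommRing R] [Algebra k R] [CommRing R'] [Algebra k R']
    [CommRing R''] [Algebra k R''] (φ : R →ₐ[k] R') (ψ : R' →ₐ[k] R'') (Q : Pt X R) :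
    ptMap ψ (ptMap φ Q) = ptMap (ψ.comp φ) Q := by
  rcases Q with σ | σ <;> rfl

/-- All values of a point lie in `V`. -/
def PtIn {K : Type u} [Field K] [Algebra k K] (V : Subring K) : Pt X K → Prop :=
  Sum.elim (fun σ => ∀ a, σ a ∈ V) (fun σ => ∀ b, σ b ∈ V)

theorem Param.exists_hom_adjoin {K : Type u} [Field K] [Algebra k K] (V : Subring K)
    (P : Param X) (S : Type u) [CommRing S] [IsDomain S] [Algebra k S] [Algebra.FiniteType k S]
    (Q : Pt X S) (φ : P.R →ₐ[k] K) (σ : S →ₐ[k] K) (hφ : ∀ r, φ r ∈ V) (hσ : ∀ a, σ a ∈ V) :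
    ∃ ψ : (P.adjoin S Q).R →ₐ[k] K, (∀ r, ψ r ∈ V) ∧
      (P.adjoin S Q).pts.map (ptMap ψ) = ptMap σ Q :: P.pts.map (ptMap φ) := by
  let ψ : P.R ⊗[k] S →ₐ[k] K := Algebra.TensorProduct.lift φ σ fun _ _ => Commute.all _ _
  have h1 : ∀ r : P.R ⊗[k] S, ψ r ∈ V := fun r => by
    induction r using TensorProduct.induction_on with
    | zero => rw [map_zero]; exact V.zero_mem
    | tmul a b => rw [Algebra.TensorProduct.lift_tmul]; exact V.mul_mem (hφ a) (hσ b)
    | add a b ha hb => rw [map_add]; exact V.add_mem ha hb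
  have h2 : (ptMap (X := X) Algebra.TensorProduct.includeRight Q ::
      P.pts.map (ptMap Algebra.TensorProduct.includeLeft)).map (ptMap ψ) =
        ptMap σ Q :: P.pts.map (ptMap φ) := by
    have e1 : ψ.comp Algebra.TensorProduct.includeRight = σ := AlgHom.ext fun a => by simp [ψ]
    rw [List.map_cons, List.map_map, ptMap_comp, e1]
    congr 1
    refine List.map_congr_left fun Q' _ => ?_
    rw [Function.comp_apply, ptMap_comp, Algebra.TensorProduct.lift_comp_includeLeft]
  exact ⟨ψ, h1, h2⟩

theorem exists_param_hom {K : Type u} [Field K] [Algebra k K] (V : Subring K)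
    (hV : ∀ c, algebraMap k K c ∈ V) (l : List (Pt X K)) (hl : ∀ Q ∈ l, PtIn V Q) :
    ∃ φ : (param X (l.map Sum.isRight)).R →ₐ[k] K, (∀ r, φ r ∈ V) ∧
      (param X (l.map Sum.isRight)).pts.map (ptMap φ) = l := by
  induction l with
  | nil => exact ⟨Algebra.ofId k K, hV, rfl⟩
  | cons Q l ih =>
    obtain ⟨φ, hφV, hφ⟩ := ih fun Q' hQ' => hl Q' (List.mem_cons_of_mem Q hQ')
    have hQ := hl Q List.mem_cons_self
    rcases Q with σ | σ
    · have := finiteType_of_finite_aeval X.x X.finite_x
      obtain ⟨ψ, hψV, hψ⟩ := Param.exists_hom_adjoin V (param X (l.map Sum.isRight)) X.A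
        (Sum.inl (AlgHom.id k X.A)) φ σ hφV hQ
      exact ⟨ψ, hψV, hψ.trans (congrArg₂ List.cons (congrArg Sum.inl (AlgHom.comp_id σ)) hφ)⟩
    · have := finiteType_of_finite_aeval X.y X.finite_y
      obtain ⟨ψ, hψV, hψ⟩ := Param.exists_hom_adjoin V (param X (l.map Sum.isRight)) X.B
        (Sum.inr (AlgHom.id k X.B)) φ σ hφV hQ
      exact ⟨ψ, hψV, hψ.trans (congrArg₂ List.cons (congrArg Sum.inr (AlgHom.comp_id σ)) hφ)⟩

/-- The divisor of the tautological points. -/
def famDiv (s : List Bool) : Div X (param X s).R := listDiv (param X s).pts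

theorem famDiv_invertible (s : List Bool) : (famDiv (X := X) s).Invertible :=
  listDiv_invertible _

/-- The ideal used to normalise the family. -/
def famIdeal (s : List Bool) : Ideal (param X s).R :=
  (exists_markIdeal (famDiv (X := X) s) (famDiv_invertible s)).choose_spec.choose

theorem famIdeal_spec (s : List Bool) :
    InvI (famIdeal (X := X) s) ∧ ∃ e, ∃ c, c ≠ 0 ∧ e * famIdeal (X := X) s = Ideal.span {c} ∧
      ∃ g : (famDiv (X := X) s).JA →ₛₗ[X.evalε (param X s).R] (param X s).R,
        Submodule.span (param X s).R (Set.range g) = e := by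
  obtain ⟨h, c, hc, h', g, hg⟩ :=
    (exists_markIdeal (famDiv (X := X) s) (famDiv_invertible s)).choose_spec.choose_spec
  exact ⟨h, _, c, hc, h', g, hg⟩

/-- The normalised family. -/
def famTri (s : List Bool) : X.Tri (param X s).R :=
  (famDiv s * constDiv X (famIdeal s)).tri
    ((famDiv_invertible s).mul (constDiv_invertible (famIdeal_spec s).1)) (twistN X)

theorem isNormal_famTri (s : List Bool) : IsNormal (famTri (X := X) s) := by
  obtain ⟨h, e, c, hc, h', g, hg⟩ := famIdeal_spec (X := X) s
  exact isNormal_mul_constDiv _ (famDiv_invertible s) h hc h' g hg _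

/-- Specialisation of a family at a field valued point. -/
theorem nonempty_pullback_famTri (s : List Bool) {K : Type u} [Field K] [Algebra k K]
    (φ : (param X s).R →ₐ[k] K) :
    Nonempty (TwoChart.Tri.Pullback φ (famTri s)
      ((listDiv ((param X s).pts.map (ptMap φ))).tri (listDiv_invertible _) (twistN X))) := by
  obtain ⟨e'', a, b, he'', ha, hb, hab, r, hr, hφr⟩ :=
    exists_moved φ (famIdeal_spec (X := X) s).1
  have heq : (famDiv (X := X) s * constDiv X e'').map φ =
      listDiv ((param X s).pts.map (ptMap φ)) := by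
    rw [Div.map_mul, constDiv_map_eq_one φ ⟨r, hr, isUnit_iff_ne_zero.2 hφr⟩, mul_one, famDiv,
      listDiv_map]
  have hD := (famDiv_invertible (X := X) s).mul (constDiv_invertible (X := X) he'')
  have hD' : ((famDiv (X := X) s * constDiv X e'').map φ).Invertible := by
    rw [heq]; exact listDiv_invertible _
  have P := triPullback φ _ hD hD' (twistN X)
  have P' : TwoChart.Tri.Pullback φ (famTri s)
      (((famDiv (X := X) s * constDiv X e'').map φ).tri hD' (twistN X)) :=
    pullbackCongr P (constEquiv (famDiv s) (famDiv_invertible s) (famIdeal_spec s).1 he'' ha hb hab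
      (twistN X)) (TwoChart.Tri.Equiv.refl _)
  have key : ∀ (D : Div X K) (h : D.Invertible), D = listDiv ((param X s).pts.map (ptMap φ)) →
      TwoChart.Tri.Pullback φ (famTri s) (D.tri h (twistN X)) →
      Nonempty (TwoChart.Tri.Pullback φ (famTri s)
        ((listDiv ((param X s).pts.map (ptMap φ))).tri (listDiv_invertible _) (twistN X))) := by
    rintro D h rfl Q
    exact ⟨Q⟩
  exact key _ hD' heq P'

/-- All specialisations of the families have Euler characteristic `χ(O)`. -/
theorem euler_specialisation {K : Type u} [Field K] [Algebra k K] (l : List (Pt X K))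
    (hl : l.length = numPts X) :
    euler ((listDiv l).tri (listDiv_invertible l) (twistN X)) = eulerO X K 0 := by
  have h := eulerO_eq (X := X) (K := K) (twistN X)
  rw [euler_listDiv]
  simp only [eulerO] at h ⊢
  rw [hl, h, numPts]
  push_cast
  ring

omit [IsAlgClosed k] in
theorem mem_valuation_of_aeval {K : Type u} [Field K] [Algebra k K] (V : ValuationSubring K)
    (hV : ∀ c, algebraMap k K c ∈ V) {S : Type u} [CommRing S] [Algebra k S] (s : S)
    (hfin : (Polynomial.aeval s : Polynomial k →ₐ[k] S).toRingHom.Finite) (σ : S →ₐ[k] K)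
    (hs : σ s ∈ V) (a : S) : σ a ∈ V := by
  have hint : RingHom.IsIntegralElem (Polynomial.aeval s : Polynomial k →ₐ[k] S).toRingHom a :=
    hfin.to_isIntegral a
  obtain ⟨p, hp, hpa⟩ := hint
  have hmem : ∀ q : Polynomial k, σ (Polynomial.aeval s q) ∈ V := fun q => by
    induction q using Polynomial.induction_on' with
    | add p q hp hq => rw [map_add, map_add]; exact V.add_mem _ _ hp hq
    | monomial n c =>
      rw [Polynomial.aeval_monomial, map_mul, map_pow, σ.commutes]
      exact V.mul_mem _ _ (hV c) (pow_mem hs n)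
  let f : Polynomial k →+* V :=
    { toFun := fun q => ⟨σ (Polynomial.aeval s q), hmem q⟩
      map_one' := Subtype.ext (by simp)
      map_mul' := fun a b => Subtype.ext (by simp)
      map_zero' := Subtype.ext (by simp)
      map_add' := fun a b => Subtype.ext (by simp) }
  have hintV : IsIntegral V (σ a) := by
    refine ⟨p.map f, hp.map f, ?_⟩
    rw [Polynomial.eval₂_map]
    have : (algebraMap V K).comp f =
        σ.toRingHom.comp (Polynomial.aeval s : Polynomial k →ₐ[k] S).toRingHom :=
      RingHom.ext fun q => rfl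
    rw [this]
    show Polynomial.eval₂ _ (σ.toRingHom a) p = 0
    rw [← Polynomial.hom_eval₂, hpa, map_zero]
  obtain ⟨v, hv⟩ := IsIntegrallyClosed.isIntegral_iff.1 hintV
  rw [← hv]
  exact v.2

omit [IsAlgClosed k] in
/-- Every point can be written in a chart where its values lie in a given valuation ring. -/
theorem exists_ptIn {K : Type u} [Field K] [Algebra k K] (V : ValuationSubring K)
    (hV : ∀ c, algebraMap k K c ∈ V) (Q : Pt X K) :
    ∃ Q' : Pt X K, ptDiv Q' = ptDiv Q ∧ PtIn V.toSubring Q' := by
  rcases pt_cases Q with ⟨ω, h⟩ | ⟨σ, h0, h⟩ | ⟨σ, h0, h⟩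
  · by_cases hx : ω (algebraMap X.A X.W X.x) ∈ V
    · exact ⟨Sum.inl (ω.comp (IsScalarTower.toAlgHom k X.A X.W)), h.symm,
        mem_valuation_of_aeval V hV X.x X.finite_x _ hx⟩
    · refine ⟨Sum.inr (ω.comp (IsScalarTower.toAlgHom k X.B X.W)), ?_, ?_⟩
      · exact (h.trans (ptA_eq_ptB ω)).symm
      · refine mem_valuation_of_aeval V hV X.y X.finite_y _ ?_
        have hxy : ω (algebraMap X.A X.W X.x) * ω (algebraMap X.B X.W X.y) = 1 := by
          rw [← map_mul, X.x_mul_y, map_one]
        show ω (algebraMap X.B X.W X.y) ∈ V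
        rw [eq_inv_of_mul_eq_one_right hxy]
        exact (V.mem_or_inv_mem _).resolve_left hx
  · exact ⟨Sum.inl σ, h.symm, mem_valuation_of_aeval V hV X.x X.finite_x _
      (h0 ▸ V.zero_mem)⟩
  · exact ⟨Sum.inr σ, h.symm, mem_valuation_of_aeval V hV X.y X.finite_y _
      (h0 ▸ V.zero_mem)⟩

/-- The families cover all degree zero triples, integrally for every valuation ring. -/
theorem exists_specialisation {K : Type u} [Field K] [Algebra k K] [IsAlgClosed K]
    (V : ValuationSubring K) (hV : ∀ c, algebraMap k K c ∈ V) (L : X.Tri K)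
    (hL : euler L = eulerO X K 0) :
    ∃ (s : List Bool) (φ : (param X s).R →ₐ[k] K) (L' : X.Tri K), s.length = numPts X ∧
      (∀ r, φ r ∈ V) ∧ Nonempty (TwoChart.Tri.Pullback φ (famTri s) L') ∧
      Nonempty (L'.Equiv L) := by
  obtain ⟨l, hl, ⟨e⟩⟩ := exists_points L hL
  choose g hg hgV using exists_ptIn (X := X) V hV
  set l' := l.map g with hl'
  have hdiv : listDiv l' = listDiv l := by
    simp only [listDiv, hl', List.map_map]
    congr 1
    exact List.map_congr_left fun Q _ => hg Q
  obtain ⟨φ, hφV, hφ⟩ := exists_param_hom V.toSubring hV l' (by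
    intro Q hQ
    obtain ⟨Q₀, -, rfl⟩ := List.mem_map.1 hQ
    exact hgV Q₀)
  obtain ⟨P⟩ := nonempty_pullback_famTri (X := X) (l'.map Sum.isRight) φ
  refine ⟨l'.map Sum.isRight, φ, _, by simp [hl', hl], hφV, ⟨P⟩, ⟨?_⟩⟩
  have key : ∀ (D E : Div X K) (hD : D.Invertible) (hE : E.Invertible), D = E →
      (E.tri hE (twistN X)).Equiv L → (D.tri hD (twistN X)).Equiv L := by
    rintro D E hD hE rfl e'
    exact e'
  exact key _ _ _ (listDiv_invertible l) (by rw [hφ, hdiv]) e.symm

/-- Every pattern contains the trivial triple at a rational point. -/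
theorem exists_base_point (s : List Bool) (hs : s.length = numPts X) :
    ∃ (φ : (param X s).R →ₐ[k] k) (L' : X.Tri k),
      Nonempty (TwoChart.Tri.Pullback φ (famTri s) L') ∧
      Nonempty (L'.Equiv ((1 : Div X k).tri Div.Invertible.one 0)) := by
  obtain ⟨l, hl, ⟨e⟩⟩ := exists_trivial_points X
  let g : Bool → (X.W →ₐ[k] k) → Pt X k := fun b ω =>
    if b then Sum.inr (ω.comp (IsScalarTower.toAlgHom k X.B X.W))
    else Sum.inl (ω.comp (IsScalarTower.toAlgHom k X.A X.W))
  have hg : ∀ b ω, ptDiv (g b ω) = ptA (X := X) (ω.comp (IsScalarTower.toAlgHom k X.A X.W)) ∧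
      (g b ω).isRight = b := by
    rintro (_ | _) ω
    · exact ⟨rfl, rfl⟩
    · exact ⟨(ptA_eq_ptB ω).symm, rfl⟩
  set l' := List.zipWith g s l with hl'
  have hpat : l'.map Sum.isRight = s := by
    rw [hl', List.map_zipWith]
    refine List.ext_getElem (by simp [hl, hs]) fun i h1 h2 => ?_
    simp [(hg _ _).2]
  have hdiv : listDiv l' = listDiv (l.map fun ω =>
      (Sum.inl (ω.comp (IsScalarTower.toAlgHom k X.A X.W)) : Pt X k)) := by
    simp only [listDiv, hl', List.map_zipWith, List.map_map]
    congr 1
    refine List.ext_getElem (by simp [hl, hs]) fun i h1 h2 => ?_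
    simp only [List.getElem_zipWith, List.getElem_map, Function.comp_apply]
    rw [(hg _ _).1]
    rfl
  clear_value l'
  subst hpat
  obtain ⟨φ, -, hφ⟩ := exists_param_hom (X := X) (⊤ : Subring k) (fun _ => trivial) l'
    (fun Q _ => by rcases Q with σ | σ <;> exact fun _ => trivial)
  obtain ⟨P⟩ := nonempty_pullback_famTri (X := X) (l'.map Sum.isRight) φ
  refine ⟨φ, _, ⟨P⟩, ⟨?_⟩⟩
  have key : ∀ (D E : Div X k) (hD : D.Invertible) (hE : E.Invertible), D = E →
      (E.tri hE (twistN X)).Equiv ((1 : Div X k).tri Div.Invertible.one 0) →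
      (D.tri hD (twistN X)).Equiv ((1 : Div X k).tri Div.Invertible.one 0) := by
    rintro D E hD hE rfl e'
    exact e'
  exact key _ _ _ (listDiv_invertible _) (by rw [hφ, hdiv]) e.symm

end Fermat.Agent.Picard.Points
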