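/-
S25 (points), main statement: finitely many integral finite type families of normalised degree
zero triples, each through the trivial one, covering all field valued points valuatively.
-/
import Fermat.Agent.Picard.Points.Family
import Mathlib.Data.Fintype.Vector

set_option autoImplicit false

noncomputable section

namespace Fermat.Agent.Picard.Points

open scoped TensorProduct

universe u

variable {k : Type u} [Field k] {X : TwoChart k}
variable {R R' : Type u} [CommRing R] [Algebra k R] [CommRing R'] [Algebra k R']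

theorem exists_scalarExtension_equiv {S T M N N₂ : Type u} [CommRing S] [CommRing T] {f : S →+* T}
    [AddCommGroup M] [AddCommGroup N] [AddCommGroup N₂] [Module S M] [Module T N] [Module T N₂]
    {g : M →ₛₗ[f] N} {g₂ : M →ₛₗ[f] N₂} (h : IsScalarExtension f g)
    (h₂ : IsScalarExtension f g₂) : ∃ e : N ≃ₗ[T] N₂, ∀ m, e (g m) = g₂ m := by
  obtain ⟨a, ha, -⟩ := h N₂ g₂
  obtain ⟨b, hb, -⟩ := h₂ N g
  have hba : b.comp a = LinearMap.id :=
    (h N g).unique (fun m => by simp [ha, hb]) (fun m => rfl)
  have hab : a.comp b = LinearMap.id :=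
    (h₂ N₂ g₂).unique (fun m => by simp [ha, hb]) (fun m => rfl)
  exact ⟨LinearEquiv.ofLinearMap a b hab hba, ha⟩

/-- Two semilinear maps out of an extension of scalars agree if they agree on the source. -/
theorem IsScalarExtension.ext' {S T U M N P : Type u} [CommRing S] [CommRing T] [CommRing U]
    {f : S →+* T} {r : T →+* U}
    [AddCommGroup M] [AddCommGroup N] [AddCommGroup P] [Module S M] [Module T N] [Module U P]
    {g : M →ₛₗ[f] N} (h : IsScalarExtension f g) (u v : N →ₛₗ[r] P)
    (huv : ∀ m, u (g m) = v (g m)) (z : N) : u z = v z := by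
  let : Module T P := Module.compHom P r
  let u' : N →ₗ[T] P :=
    { toFun := u, map_add' := map_add _, map_smul' := fun c z => by rw [map_smulₛₗ]; rfl }
  let v' : N →ₗ[T] P :=
    { toFun := v, map_add' := map_add _, map_smul' := fun c z => by rw [map_smulₛₗ]; rfl }
  let w : M →ₛₗ[f] P :=
    { toFun := fun m => u (g m)
      map_add' := fun a b => by rw [map_add, map_add]
      map_smul' := fun c m => by rw [map_smulₛₗ, map_smulₛₗ]; rfl }
  have h1 := (h P w).unique (y₁ := u') (y₂ := v') (fun m => rfl) (fun m => (huv m).symm)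
  exact LinearMap.congr_fun h1 z

/-- Base change of triples is unique up to isomorphism. -/
theorem nonempty_equiv_of_pullback {φ : R →ₐ[k] R'} {L : X.Tri R} {L' L'' : X.Tri R'}
    (P : TwoChart.Tri.Pullback φ L L') (Q : TwoChart.Tri.Pullback φ L L'') :
    Nonempty (L'.Equiv L'') := by
  obtain ⟨eA, hA⟩ := exists_scalarExtension_equiv P.univA Q.univA
  obtain ⟨eB, hB⟩ := exists_scalarExtension_equiv P.univB Q.univB
  obtain ⟨eW, hW⟩ := exists_scalarExtension_equiv P.univW Q.univW
  exact ⟨{
    eA := eA
    eB := eB
    eW := eW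
    commA := fun m => IsScalarExtension.ext' P.univA (eW.toLinearMap.comp L'.fA)
      (L''.fA.comp eA.toLinearMap) (fun n => by
        show eW (L'.fA (P.gA n)) = L''.fA (eA (P.gA n))
        rw [← P.commA, hW, hA, Q.commA]) m
    commB := fun m => IsScalarExtension.ext' P.univB (eW.toLinearMap.comp L'.fB)
      (L''.fB.comp eB.toLinearMap) (fun n => by
        show eW (L'.fB (P.gB n)) = L''.fB (eB (P.gB n))
        rw [← P.commB, hW, hB, Q.commB]) m }⟩

variable [IsAlgClosed k]

/-- Every specialisation at a field has the Euler characteristic of the trivial triple. -/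
def IsDegZero (L : X.Tri R) : Prop :=
  ∀ (K : Type u) [Field K] [Algebra k K] (φ : R →ₐ[k] K) (L' : X.Tri K),
    TwoChart.Tri.Pullback φ L L' → euler L' = eulerO X K 0

theorem isDegZero_famTri (s : List Bool) (hs : s.length = numPts X) :
    IsDegZero (famTri (X := X) s) := by
  intro K _ _ φ L' P
  obtain ⟨Q⟩ := nonempty_pullback_famTri (X := X) s φ
  obtain ⟨e⟩ := nonempty_equiv_of_pullback P Q
  rw [euler_congr e]
  exact euler_specialisation _ (by rw [List.length_map, length_param, hs])

variable (X) in
/-- The patterns of charts indexing the families. -/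
abbrev Pattern : Type := List.Vector Bool (numPts X)

variable (X) in
/-- The finitely many families through the trivial triple, covering all degree zero triples. -/
theorem exists_families :
    ∃ (σ : Type) (_ : Finite σ) (P : σ → Param X) (N : ∀ s, X.Tri (P s).R),
      (∀ (s : σ) (K : Type u) [Field K] [Algebra k K], IsDomain (K ⊗[k] (P s).R)) ∧
      (∀ s, IsNormal (N s)) ∧ (∀ s, IsDegZero (N s)) ∧
      (∀ s, ∃ (φ : (P s).R →ₐ[k] k) (L' : X.Tri k),
        Nonempty (TwoChart.Tri.Pullback φ (N s) L') ∧
          Nonempty (L'.Equiv ((1 : Div X k).tri Div.Invertible.one 0))) ∧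
      ∀ (K : Type u) [Field K] [Algebra k K] [IsAlgClosed K] (V : ValuationSubring K),
        (∀ c, algebraMap k K c ∈ V) → ∀ L : X.Tri K, euler L = eulerO X K 0 →
          ∃ (s : σ) (φ : (P s).R →ₐ[k] K) (L' : X.Tri K), (∀ r, φ r ∈ V) ∧
            Nonempty (TwoChart.Tri.Pullback φ (N s) L') ∧ Nonempty (L'.Equiv L) := by
  refine ⟨Pattern X, inferInstance, fun s => param X s.1, fun s => famTri s.1, ?_, ?_, ?_, ?_, ?_⟩
  · intro s K _ _; exact isDomain_tensor_param s.1 K
  · exact fun s => isNormal_famTri s.1
  · exact fun s => isDegZero_famTri s.1 s.2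
  · exact fun s => exists_base_point s.1 s.2
  · intro K _ _ _ V hV L hL
    obtain ⟨s, φ, L', hs, hφ, hP, he⟩ := exists_specialisation V hV L hL
    exact ⟨⟨s, hs⟩, φ, L', hφ, hP, he⟩

end Fermat.Agent.Picard.Points
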