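/-
S25 (points): the families, stated with `Normalised`, `Deg0` and the trivial triple.
-/
import Fermat.Agent.Picard.Points.Main
import Fermat.Agent.Picard.Algebra.Defs

set_option autoImplicit false

noncomputable section

namespace Fermat.Agent.Picard.Points

open scoped TensorProduct

universe u

variable {k : Type u} [Field k] [IsAlgClosed k] {X : TwoChart k}

section

variable {R : Type u} [CommRing R] [Algebra k R] [IsDomain R]

omit [IsAlgClosed k] [IsDomain R] in
theorem map_one_JA : (1 : Div X R).JA.map (X.resA R) = ⊤ := by rw [Div.one_JA, Ideal.map_top]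

/-- The twisted unit divisor is the trivial triple. -/
def oneTriEquiv : ((1 : Div X R).tri Div.Invertible.one 0).Equiv (X.trivialTri R) where
  eA := Submodule.topEquiv
  eB := Submodule.topEquiv
  eW := (LinearEquiv.ofEq _ _ map_one_JA).trans Submodule.topEquiv
  commA _ := rfl
  commB m := by
    show valIn _ (((1 : Div X R).tri Div.Invertible.one 0).fB m) = X.resB R (valIn _ m)
    rw [Div.tri_coe_fB, xPow, pow_zero, one_mul]

end

theorem eulerO_zero (K : Type u) [Field K] [Algebra k K] :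
    eulerO X K 0 = (X.trivialTri K).diff.index :=
  euler_congr oneTriEquiv

theorem isDegZero_iff_deg0 {R : Type u} [CommRing R] [Algebra k R] (L : X.Tri R) :
    IsDegZero L ↔ L.Deg0 := by
  refine ⟨fun h K _ _ φ L' P => ?_, fun h K _ _ φ L' P => ?_⟩
  · rw [← eulerO_zero]; exact h K φ L' P
  · rw [eulerO_zero]; exact h K _ _ φ L' P

theorem euler_eq_of_deg0 {K : Type u} [Field K] [Algebra k K] {L : X.Tri K} (h : L.Deg0) :
    euler L = eulerO X K 0 := by
  rw [eulerO_zero]
  exact h K inferInstance inferInstance (AlgHom.id k K) L (TwoChart.Tri.Equiv.refl L).toPullback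

variable (X) in
/-- The finitely many families through the trivial triple covering the degree zero triples. -/
theorem exists_covering_families :
    ∃ (σ : Type) (_ : Finite σ) (P : σ → Param X) (N : ∀ s, X.Tri (P s).R),
      (∀ (s : σ) (K : Type u) [Field K] [Algebra k K], IsDomain (K ⊗[k] (P s).R)) ∧
      (∀ s, (N s).Normalised) ∧ (∀ s, (N s).Deg0) ∧
      (∀ s, ∃ φ : (P s).R →ₐ[k] k,
        Nonempty (TwoChart.Tri.Pullback φ (N s) (X.trivialTri k))) ∧
      ∀ (K : Type u) [Field K] [Algebra k K] [IsAlgClosed K] (V : ValuationSubring K),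
        (∀ c, algebraMap k K c ∈ V) → ∀ L : X.Tri K, L.Deg0 →
          ∃ (s : σ) (φ : (P s).R →ₐ[k] K), (∀ r, φ r ∈ V) ∧
            Nonempty (TwoChart.Tri.Pullback φ (N s) L) := by
  obtain ⟨σ, hσ, P, N, hdom, hnorm, hdeg, hbase, hcov⟩ := exists_families X
  refine ⟨σ, hσ, P, N, hdom, hnorm, fun s => (isDegZero_iff_deg0 _).1 (hdeg s), fun s => ?_, ?_⟩
  · obtain ⟨φ, L', ⟨p⟩, ⟨e⟩⟩ := hbase s
    exact ⟨φ, ⟨p.congrRight (e.trans oneTriEquiv)⟩⟩
  · intro K _ _ _ V hV L hL
    obtain ⟨s, φ, L', hφ, ⟨p⟩, ⟨e⟩⟩ := hcov K V hV L (euler_eq_of_deg0 hL)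
    exact ⟨s, φ, hφ, ⟨p.congrRight e⟩⟩

end Fermat.Agent.Picard.Points
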